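/-
S25, common definitions: the coordinate ring of the punctured curve inside Laurent series at the base point,
invertible submodules of Laurent series as line bundles trivialised along the formal neighbourhood of the
base point, their base change, polar parts, degree zero and the affine chart.
-/
import Mathlib.RingTheory.LaurentSeries
import Mathlib.RingTheory.PicardGroup
import Mathlib.RingTheory.DedekindDomain.Basic
import Mathlib.RingTheory.FiniteType
import Mathlib.RingTheory.TensorProduct.Basic
import Mathlib.LinearAlgebra.Dimension.Finrank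

set_option autoImplicit false

noncomputable section

universe u

open TensorProduct

namespace Fermat.Agent.Jac

/-- Coefficientwise scalars, preferred to the ones coming from power series. -/
instance (priority := high) laurentAlgebra {R S : Type*} [CommRing R] [CommRing S] [Algebra R S] :
    Algebra R (LaurentSeries S) :=
  HahnSeries.instAlgebra

/-- The ring of functions on a curve punctured at the base point, with its expansion there. -/
structure CurveData (k : Type u) [Field k] : Type (u + 1) where
  A : Type u
  [commRing : CommRing A]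
  [algebra : Algebra k A]
  [isDomain : IsDomain A]
  [isDedekind : IsDedekindDomain A]
  [finiteType : Algebra.FiniteType k A]
  emb : A →ₐ[k] LaurentSeries k
  emb_injective : Function.Injective emb
  gaps : Finset ℕ
  exists_monic : ∀ n : ℕ, n ∉ gaps →
    ∃ a : A, (emb a).coeff (-n : ℤ) = 1 ∧ ∀ i : ℤ, i < -n → (emb a).coeff i = 0
  coeff_gap : ∀ (a : A) (n : ℕ), n ∈ gaps → (∀ i : ℤ, i < -n → (emb a).coeff i = 0) →
    (emb a).coeff (-n : ℤ) = 0
  eq_const : ∀ a : A, (∀ i : ℤ, i < 0 → (emb a).coeff i = 0) → ∃ r : k, a = algebraMap k A r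

namespace CurveData

attribute [instance] commRing algebra isDomain isDedekind finiteType

variable {k : Type u} [Field k] (D : CurveData k)

/-- The genus. -/
def genus : ℕ := D.gaps.card

theorem zero_notMem_gaps : 0 ∉ D.gaps := fun h => by
  have h1 : (D.emb 1).coeff (-(0 : ℕ) : ℤ) = 0 :=
    D.coeff_gap 1 0 h fun i hi => by
      rw [map_one, HahnSeries.coeff_one, if_neg (by omega)]
  simp at h1

end CurveData

section Coeff

variable {R S T : Type*} [CommRing R] [CommRing S] [CommRing T]

/-- A ring homomorphism applied to the coefficients of a Laurent series. -/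
def coeffMap (f : R →+* S) : LaurentSeries R →+* LaurentSeries S where
  toFun x := x.map f
  map_one' := by
    ext n
    rw [HahnSeries.map_coeff, HahnSeries.coeff_one, HahnSeries.coeff_one]
    split_ifs <;> simp
  map_mul' x y := HahnSeries.map_mul (f : R →ₙ+* S)
  map_zero' := by ext n; simp
  map_add' x y := by ext n; simp

@[simp]
theorem coeffMap_coeff (f : R →+* S) (x : LaurentSeries R) (n : ℤ) :
    (coeffMap f x).coeff n = f (x.coeff n) := rfl

theorem coeffMap_coeffMap (f : R →+* S) (h : S →+* T) (x : LaurentSeries R) :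
    coeffMap h (coeffMap f x) = coeffMap (h.comp f) x := by
  ext n; simp

/-- The power of the variable, as a unit. -/
def xPow (R : Type*) [CommRing R] (m : ℤ) : (LaurentSeries R)ˣ where
  val := HahnSeries.single m 1
  inv := HahnSeries.single (-m) 1
  val_inv := by simp [HahnSeries.single_mul_single]
  inv_val := by simp [HahnSeries.single_mul_single]

end Coeff

variable {k : Type u} [Field k]

/-- A homomorphism of algebras applied to the coefficients of a Laurent series. -/
def coeffMapₐ {B B' : Type*} [CommRing B] [Algebra k B] [CommRing B'] [Algebra k B']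
    (φ : B →ₐ[k] B') : LaurentSeries B →ₐ[k] LaurentSeries B' where
  toRingHom := coeffMap (φ : B →+* B')
  commutes' r := by
    ext n
    simp [HahnSeries.algebraMap_apply, HahnSeries.coeff_single]
    split_ifs <;> simp

@[simp]
theorem coeffMapₐ_coeff {B B' : Type*} [CommRing B] [Algebra k B] [CommRing B'] [Algebra k B']
    (φ : B →ₐ[k] B') (x : LaurentSeries B) (n : ℤ) : (coeffMapₐ φ x).coeff n = φ (x.coeff n) := rfl

namespace CurveData

variable (D : CurveData k) (B : Type u) [CommRing B] [Algebra k B]

/-- Functions on the punctured curve over `B`. -/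
abbrev Coord : Type u := B ⊗[k] D.A

/-- The expansion of functions over `B`. -/
def embB : D.Coord B →ₐ[B] LaurentSeries B :=
  Algebra.TensorProduct.lift (Algebra.ofId B (LaurentSeries B))
    ((coeffMapₐ (Algebra.ofId k B)).comp D.emb) fun _ _ => mul_comm _ _

/-- The image of the expansion. -/
def reg : Subalgebra B (LaurentSeries B) := (D.embB B).range

instance isScalarTower_reg : IsScalarTower B (D.reg B) (LaurentSeries B) :=
  IsScalarTower.of_algebraMap_eq fun _ => rfl

/-- Line bundles trivialised along the formal neighbourhood of the base point. -/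
abbrev Lat : Type u := (Submodule (D.reg B) (LaurentSeries B))ˣ

variable {B} {B' : Type u} [CommRing B'] [Algebra k B']

theorem coeffMapₐ_embB (φ : B →ₐ[k] B') (x : D.Coord B) :
    coeffMapₐ φ (D.embB B x) = D.embB B' (Algebra.TensorProduct.map φ (AlgHom.id k D.A) x) := by
  induction x using TensorProduct.induction_on with
  | zero => simp
  | add x y hx hy => simp [map_add, hx, hy]
  | tmul b a =>
    simp only [embB, Algebra.TensorProduct.lift_tmul, Algebra.TensorProduct.map_tmul, AlgHom.id_apply,
      AlgHom.comp_apply, Algebra.ofId_apply, map_mul]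
    congr 1
    · ext n
      simp [HahnSeries.algebraMap_apply, HahnSeries.coeff_single]
      split_ifs <;> simp
    · ext n
      simp [Algebra.ofId_apply]

theorem coeffMapₐ_mem_reg (φ : B →ₐ[k] B') {x : LaurentSeries B} (hx : x ∈ D.reg B) :
    coeffMapₐ φ x ∈ D.reg B' := by
  obtain ⟨y, rfl⟩ := hx
  exact ⟨_, (D.coeffMapₐ_embB φ y).symm⟩

/-- The submodule generated by the image of a submodule under a change of coefficients. -/
def mapSub (φ : B →ₐ[k] B') :
    Submodule (D.reg B) (LaurentSeries B) →* Submodule (D.reg B') (LaurentSeries B') where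
  toFun W := Submodule.span (D.reg B') (coeffMapₐ φ '' (W : Set (LaurentSeries B)))
  map_one' := by
    refine le_antisymm (Submodule.span_le.mpr ?_) (Submodule.one_le.mpr (Submodule.subset_span ?_))
    · rintro _ ⟨x, hx, rfl⟩
      obtain ⟨r, rfl⟩ := Submodule.mem_one.mp hx
      exact Submodule.mem_one.mpr ⟨⟨_, D.coeffMapₐ_mem_reg φ r.2⟩, rfl⟩
    · exact ⟨1, Submodule.one_le.mp le_rfl, map_one _⟩
  map_mul' V W := by
    refine le_antisymm (Submodule.span_le.mpr ?_) ?_
    · rintro _ ⟨x, hx, rfl⟩
      refine Submodule.mul_induction_on hx (fun v hv w hw => ?_) (fun y z hy hz => ?_)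
      · rw [map_mul]
        exact Submodule.mul_mem_mul (Submodule.subset_span ⟨v, hv, rfl⟩)
          (Submodule.subset_span ⟨w, hw, rfl⟩)
      · rw [map_add]
        exact add_mem hy hz
    · rw [Submodule.span_mul_span]
      refine Submodule.span_mono ?_
      rintro _ ⟨_, ⟨v, hv, rfl⟩, _, ⟨w, hw, rfl⟩, rfl⟩
      exact ⟨v * w, Submodule.mul_mem_mul hv hw, map_mul _ v w⟩

/-- Base change of line bundles. -/
def latMap (φ : B →ₐ[k] B') : D.Lat B →* D.Lat B' := Units.map (D.mapSub φ)

theorem coeffMapₐ_mem_latMap (φ : B →ₐ[k] B') {W : D.Lat B} {x : LaurentSeries B}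
    (hx : x ∈ (W : Submodule (D.reg B) (LaurentSeries B))) :
    coeffMapₐ φ x ∈ (D.latMap φ W : Submodule (D.reg B') (LaurentSeries B')) :=
  Submodule.subset_span ⟨x, hx, rfl⟩

theorem latMap_id (W : D.Lat B) : D.latMap (AlgHom.id k B) W = W := by
  refine Units.ext ?_
  change Submodule.span (D.reg B) (coeffMapₐ (AlgHom.id k B) '' _) = _
  have : (coeffMapₐ (AlgHom.id k B) : LaurentSeries B → LaurentSeries B) = id := by
    funext x; ext n; simp
  rw [this, Set.image_id, Submodule.span_eq]

theorem latMap_latMap {B'' : Type u} [CommRing B''] [Algebra k B''] (φ : B →ₐ[k] B')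
    (ψ : B' →ₐ[k] B'') (W : D.Lat B) :
    D.latMap ψ (D.latMap φ W) = D.latMap (ψ.comp φ) W := by
  refine Units.ext (le_antisymm ?_ ?_)
  · refine Submodule.span_le.mpr ?_
    rintro _ ⟨x, hx, rfl⟩
    induction hx using Submodule.span_induction with
    | mem y hy =>
      obtain ⟨z, hz, rfl⟩ := hy
      refine Submodule.subset_span ⟨z, hz, ?_⟩
      ext n; simp
    | zero => rw [map_zero]; exact zero_mem _
    | add y z _ _ hy hz => rw [map_add]; exact add_mem hy hz
    | smul r y _ hy =>
      rw [Algebra.smul_def, map_mul]
      exact Submodule.smul_mem _ (⟨_, D.coeffMapₐ_mem_reg ψ r.2⟩ : D.reg B'') hy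
  · refine Submodule.span_le.mpr ?_
    rintro _ ⟨x, hx, rfl⟩
    refine Submodule.subset_span ⟨coeffMapₐ φ x, Submodule.subset_span ⟨x, hx, rfl⟩, ?_⟩
    ext n; simp

variable (B)

/-- Principal submodules. -/
def principal : (LaurentSeries B)ˣ →* D.Lat B :=
  Units.map (Submodule.spanSingleton (D.reg B)).toMonoidHom

/-- Change of trivialisation along the formal neighbourhood. -/
def retrivialise : (PowerSeries B)ˣ →* D.Lat B :=
  (D.principal B).comp (Units.map (HahnSeries.ofPowerSeries ℤ B).toMonoidHom)

/-- Classes of line bundles. -/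
abbrev PicGroup : Type u := D.Lat B ⧸ (D.retrivialise B).range

variable {B}

theorem latMap_principal (φ : B →ₐ[k] B') (x : (LaurentSeries B)ˣ) :
    D.latMap φ (D.principal B x) = D.principal B' (Units.map (coeffMapₐ φ).toMonoidHom x) := by
  refine Units.ext (le_antisymm (Submodule.span_le.mpr ?_) ?_)
  · rintro _ ⟨y, hy, rfl⟩
    obtain ⟨r, rfl⟩ := Submodule.mem_span_singleton.mp hy
    refine Submodule.mem_span_singleton.mpr ⟨⟨_, D.coeffMapₐ_mem_reg φ r.2⟩, ?_⟩
    rw [Algebra.smul_def, Algebra.smul_def, map_mul]
    rfl
  · refine (Submodule.span_singleton_le_iff_mem _ _).mpr ?_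
    exact Submodule.subset_span ⟨_, Submodule.mem_span_singleton_self _, rfl⟩

variable (B) in
/-- The coefficients in pole order at least `n`. -/
def polar (n : ℕ) : LaurentSeries B →ₗ[B] {j : ℕ // n ≤ j} →₀ B where
  toFun x := Finsupp.ofSupportFinite (fun j => x.coeff (-(j.1 : ℤ))) (by
    have h : (x.support ∩ Set.Iic 0).Finite := by
      rcases eq_or_ne x 0 with rfl | hx
      · simp
      · exact (Set.finite_Icc x.order 0).subset fun i hi =>
          ⟨HahnSeries.order_le_of_coeff_ne_zero hi.1, hi.2⟩
    refine Set.Finite.of_finite_image (f := fun j : {j : ℕ // n ≤ j} => -(j.1 : ℤ))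
      (h.subset ?_) ?_
    · rintro _ ⟨j, hj, rfl⟩
      exact ⟨hj, Set.mem_Iic.mpr (by simp)⟩
    · intro i _ j _ hij
      simp only [neg_inj, Nat.cast_inj] at hij
      exact Subtype.ext hij)
  map_add' x y := by ext j; rfl
  map_smul' b x := by ext j; rfl

@[simp]
theorem polar_apply (n : ℕ) (x : LaurentSeries B) (j : {j : ℕ // n ≤ j}) :
    polar B n x j = x.coeff (-(j.1 : ℤ)) := rfl

namespace Lat

variable {D}

/-- The underlying module over the base ring. -/
def toBase (W : D.Lat B) : Submodule B (LaurentSeries B) :=
  (W : Submodule (D.reg B) (LaurentSeries B)).restrictScalars B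

/-- The sections with pole order less than `n`. -/
def part (W : D.Lat B) (n : ℕ) : Submodule B (LaurentSeries B) :=
  W.toBase ⊓ LinearMap.ker (CurveData.polar B n)

/-- Degree zero on every fibre. -/
def DegZero (W : D.Lat B) : Prop :=
  ∀ (K : Type u) [Field K] [Algebra k K] (φ : B →ₐ[k] K), ∃ N : ℕ, ∀ n : ℕ, N ≤ n →
    Module.finrank K ((D.latMap φ W).part n) + D.genus = n

/-- The affine chart: no sections with pole order less than the genus, and no obstructions. -/
def InChart (W : D.Lat B) : Prop :=
  Function.Bijective ((CurveData.polar B D.genus).comp W.toBase.subtype)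

/-- The representative of a class in the chart with a monomial as distinguished section. -/
def IsNormalised (W : D.Lat B) : Prop :=
  W.InChart ∧ HahnSeries.single (-(D.genus : ℤ)) (1 : B) ∈ W.toBase

end Lat

end CurveData

end Fermat.Agent.Jac
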