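/-
S25, unit U2: polar parts of an invertible submodule, cohomology and base change, degree, chart condition.
-/
import Fermat.Agent.Jac.Lat.Split
import Mathlib.RingTheory.Spectrum.Prime.FreeLocus
import Mathlib.RingTheory.Localization.Away.Basic
import Mathlib.LinearAlgebra.Matrix.NonsingularInverse
import Mathlib.RingTheory.Nakayama
import Mathlib.RingTheory.LocalRing.ResidueField.Ideal

set_option autoImplicit false
set_option linter.style.haveILetI false

noncomputable section

universe u

namespace Fermat.Agent.Jac.CurveData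

open Submodule

variable {k : Type u} [Field k] {D : CurveData k}
variable {B B' : Type u} [CommRing B] [Algebra k B] [CommRing B'] [Algebra k B']

/-- Classes in the group of line bundles. -/
def SameClass (V W : D.Lat B) : Prop := ∃ u : (PowerSeries B)ˣ, W = D.retrivialise B u * V

theorem sameClass_refl (W : D.Lat B) : SameClass W W := ⟨1, by rw [map_one, one_mul]⟩

theorem SameClass.symm {V W : D.Lat B} (h : SameClass V W) : SameClass W V := by
  obtain ⟨u, rfl⟩ := h
  exact ⟨u⁻¹, by rw [map_inv, inv_mul_cancel_left]⟩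

theorem SameClass.trans {U V W : D.Lat B} (h : SameClass U V) (h' : SameClass V W) :
    SameClass U W := by
  obtain ⟨u, rfl⟩ := h
  obtain ⟨v, rfl⟩ := h'
  exact ⟨v * u, by rw [map_mul, mul_assoc]⟩

/-- The unit of a power series in Laurent series. -/
theorem val_retrivialise (u : (PowerSeries B)ˣ) :
    ((D.retrivialise B u : D.Lat B) : Submodule (D.reg B) (LaurentSeries B)) =
      Submodule.span (D.reg B) {HahnSeries.ofPowerSeries ℤ B u} := rfl

theorem mem_retrivialise_mul {u : (PowerSeries B)ˣ} {V : D.Lat B} {x : LaurentSeries B} :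
    x ∈ (D.retrivialise B u * V).toBase ↔
      ∃ v ∈ V.toBase, x = HahnSeries.ofPowerSeries ℤ B u * v := by
  rw [Lat.toBase, restrictScalars_mem, Units.val_mul, val_retrivialise,
    Submodule.mem_span_singleton_mul]
  exact ⟨fun ⟨z, hz, e⟩ => ⟨z, hz, e.symm⟩, fun ⟨z, hz, e⟩ => ⟨z, hz, e.symm⟩⟩

theorem ofPowerSeries_mul_inv (u : (PowerSeries B)ˣ) :
    HahnSeries.ofPowerSeries ℤ B u * HahnSeries.ofPowerSeries ℤ B (u⁻¹ : (PowerSeries B)ˣ) = 1 := by
  rw [← map_mul, Units.mul_inv, map_one]

theorem below_ofPowerSeries_mul_iff (u : (PowerSeries B)ˣ) {m : ℤ} {x : LaurentSeries B} :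
    Below m (HahnSeries.ofPowerSeries ℤ B u * x) ↔ Below m x := by
  refine ⟨fun h => ?_, fun h => by simpa using (below_ofPowerSeries (u : PowerSeries B)).mul h⟩
  have h2 := (below_ofPowerSeries ((u⁻¹ : (PowerSeries B)ˣ) : PowerSeries B)).mul h
  rw [zero_add, ← mul_assoc, mul_comm (HahnSeries.ofPowerSeries ℤ B
    ((u⁻¹ : (PowerSeries B)ˣ) : PowerSeries B)), ofPowerSeries_mul_inv, one_mul] at h2
  exact h2

theorem SameClass.latMap {V W : D.Lat B} (h : SameClass V W) (φ : B →ₐ[k] B') :
    SameClass (D.latMap φ V) (D.latMap φ W) := by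
  obtain ⟨u, rfl⟩ := h
  refine ⟨Units.map (PowerSeries.map (φ : B →+* B')).toMonoidHom u, ?_⟩
  rw [map_mul]
  refine congrArg (· * _) ?_
  rw [retrivialise, MonoidHom.comp_apply, D.latMap_principal, retrivialise, MonoidHom.comp_apply]
  refine congrArg _ (Units.ext ?_)
  refine HahnSeries.ext (funext fun i => ?_)
  show φ ((HahnSeries.ofPowerSeries ℤ B u).coeff i) =
    (HahnSeries.ofPowerSeries ℤ B' (PowerSeries.map (φ : B →+* B') u)).coeff i
  rcases lt_or_ge i 0 with hi | hi
  · rw [below_ofPowerSeries _ i hi, below_ofPowerSeries _ i hi, map_zero]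
  · obtain ⟨j, rfl⟩ := Int.eq_ofNat_of_zero_le hi
    rw [HahnSeries.ofPowerSeries_apply_coeff, HahnSeries.ofPowerSeries_apply_coeff,
      PowerSeries.coeff_map]
    rfl

/-- Vanishing of the obstruction for large pole order. -/
theorem exists_surjective_polar (W : D.Lat B) :
    ∃ N : ℕ, ∀ n : ℕ, N ≤ n → Function.Surjective ((polar B n).comp W.toBase.subtype) :=
  W.exists_polar_eq

theorem part_finite_projective (W : D.Lat B) {n : ℕ}
    (hn : Function.Surjective ((polar B n).comp W.toBase.subtype)) :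
    Module.Finite B (W.part n) ∧ Module.Projective B (W.part n) :=
  Lat.part_finite_and_projective hn

theorem latMap_surjective_polar (φ : B →ₐ[k] B') (W : D.Lat B) {n : ℕ}
    (hn : Function.Surjective ((polar B n).comp W.toBase.subtype)) :
    Function.Surjective ((polar B' n).comp (D.latMap φ W).toBase.subtype) :=
  W.surjective_polar_latMap φ hn

theorem latMap_part (φ : B →ₐ[k] B') (W : D.Lat B) {n : ℕ}
    (hn : Function.Surjective ((polar B n).comp W.toBase.subtype)) :
    (D.latMap φ W).part n = Submodule.span B' (coeffMapₐ φ '' (W.part n : Set (LaurentSeries B))) :=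
  W.part_latMap φ hn

theorem nonempty_part_baseChange [Algebra B B'] [IsScalarTower k B B'] (W : D.Lat B) {n : ℕ}
    (hn : Function.Surjective ((polar B n).comp W.toBase.subtype)) :
    Nonempty (TensorProduct B B' (W.part n) ≃ₗ[B']
      (D.latMap (IsScalarTower.toAlgHom k B B') W).part n) :=
  W.nonempty_baseChangeEquiv hn

/-! ## Ranks -/

theorem finrank_part_eq_rankAtStalk {K : Type u} [Field K] [Algebra k K] (φ : B →ₐ[k] K)
    (W : D.Lat B) {n : ℕ} (hn : Function.Surjective ((polar B n).comp W.toBase.subtype))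
    {p : PrimeSpectrum B} (hp : RingHom.ker (φ : B →+* K) = p.asIdeal) :
    Module.finrank K ((D.latMap φ W).part n) = Module.rankAtStalk (R := B) (W.part n) p := by
  letI : Algebra B K := φ.toRingHom.toAlgebra
  haveI : IsScalarTower k B K := IsScalarTower.of_algebraMap_eq fun a => (φ.commutes a).symm
  obtain ⟨e⟩ := nonempty_part_baseChange (B' := K) W hn
  have hφ : IsScalarTower.toAlgHom k B K = φ := AlgHom.ext fun _ => rfl
  rw [hφ] at e
  obtain ⟨hfin, hproj⟩ := part_finite_projective W hn
  haveI := hfin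
  haveI := hproj
  let q : PrimeSpectrum K := ⟨⊥, Ideal.isPrime_bot⟩
  have hq : q.comap (algebraMap B K) = p := PrimeSpectrum.ext hp
  rw [← e.finrank_eq, ← hq, ← Module.rankAtStalk_baseChange (S := K) q,
    Module.rankAtStalk_eq_finrank_of_free]
  rfl

theorem surjective_polar_of_le (W : D.Lat B) {n m : ℕ} (hnm : n ≤ m)
    (hn : Function.Surjective ((polar B n).comp W.toBase.subtype)) :
    Function.Surjective ((polar B m).comp W.toBase.subtype) := fun ψ => by
  obtain ⟨w, hw⟩ := hn (ψ.mapDomain fun j : {j : ℕ // m ≤ j} =>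
    (⟨j.1, hnm.trans j.2⟩ : {j : ℕ // n ≤ j}))
  refine ⟨w, Finsupp.ext fun j => ?_⟩
  have h := DFunLike.congr_fun hw ⟨j.1, hnm.trans j.2⟩
  rw [LinearMap.comp_apply, Submodule.subtype_apply, polar_apply] at h ⊢
  have hinj : Function.Injective
      fun j : {j : ℕ // m ≤ j} => (⟨j.1, hnm.trans j.2⟩ : {j : ℕ // n ≤ j}) :=
    fun a b e => Subtype.ext (congrArg (fun z : {j : ℕ // n ≤ j} => z.1) e)
  exact h.trans (Finsupp.mapDomain_apply hinj ψ j)

/-- The coefficients at the pole orders from `g` up to `n`. -/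
abbrev MidIdx (g n : ℕ) : Type := {j : Fin n // g ≤ j.1}

variable (B) in
/-- The coefficients at the pole orders from `g` up to `n`. -/
def midCoeff (g n : ℕ) : LaurentSeries B →ₗ[B] MidIdx g n → B where
  toFun x j := x.coeff (-(j.1.1 : ℤ))
  map_add' x y := funext fun j => rfl
  map_smul' b x := funext fun j => rfl

theorem midCoeff_apply (g n : ℕ) (x : LaurentSeries B) (j : MidIdx g n) :
    midCoeff B g n x j = x.coeff (-(j.1.1 : ℤ)) := rfl

theorem below_of_midCoeff {g n : ℕ} {x : LaurentSeries B} (h : Below (1 - (n : ℤ)) x)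
    (h' : midCoeff B g n x = 0) : Below (1 - (g : ℤ)) x := fun i hi => by
  rcases lt_or_ge i (1 - (n : ℤ)) with h1 | h1
  · exact h i h1
  · have h2 := congrFun h' ⟨⟨(-i).toNat, by omega⟩, by show g ≤ (-i).toNat; omega⟩
    rwa [midCoeff_apply, Pi.zero_apply, show -(((-i).toNat : ℕ) : ℤ) = i by omega] at h2

theorem card_midIdx {g n : ℕ} (h : g ≤ n) : Fintype.card (MidIdx g n) + g = n := by
  classical
  rw [Fintype.card_subtype]
  have h1 : (Finset.univ.filter fun j : Fin n => g ≤ j.1).card = (Finset.Ico g n).card :=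
    Finset.card_bij (fun j _ => j.1) (fun j hj => by simpa [j.2] using hj)
      (fun i _ j _ e => Fin.ext e)
      fun i hi => ⟨⟨i, (Finset.mem_Ico.mp hi).2⟩, by simpa using (Finset.mem_Ico.mp hi).1, rfl⟩
  rw [h1, Nat.card_Ico]
  omega

section Field

variable {K : Type u} [Field K] [Algebra k K] (W : D.Lat K)

theorem finrank_part_succ {n : ℕ} (hn : Function.Surjective ((polar K n).comp W.toBase.subtype)) :
    Module.finrank K (W.part (n + 1)) = Module.finrank K (W.part n) + 1 := by
  haveI := (part_finite_projective W (surjective_polar_of_le W n.le_succ hn)).1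
  let f : W.part (n + 1) →ₗ[K] K :=
    { toFun := fun x => (x : LaurentSeries K).coeff (-(n : ℤ))
      map_add' := fun _ _ => rfl
      map_smul' := fun _ _ => rfl }
  have hsurj : LinearMap.range f = ⊤ := LinearMap.range_eq_top.mpr fun a => by
    obtain ⟨⟨w, hw⟩, hwn⟩ := hn (Finsupp.single ⟨n, le_rfl⟩ a)
    rw [LinearMap.comp_apply, Submodule.subtype_apply] at hwn
    refine ⟨⟨w, Lat.mem_part.mpr ⟨hw, fun i hi => ?_⟩⟩, ?_⟩
    · have h := DFunLike.congr_fun hwn ⟨(-i).toNat, by push_cast at hi; omega⟩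
      rw [polar_apply, Finsupp.single_apply, if_neg (fun e => by
        have := congrArg Subtype.val e
        simp at this
        push_cast at hi
        omega)] at h
      rwa [show -((⟨(-i).toNat, by push_cast at hi; omega⟩ : {j : ℕ // n ≤ j}).1 : ℤ) = i by
        show -(((-i).toNat : ℕ) : ℤ) = i; push_cast at hi; omega] at h
    · have h := DFunLike.congr_fun hwn ⟨n, le_rfl⟩
      rwa [polar_apply, Finsupp.single_eq_same] at h
  have hker : LinearMap.ker f = Submodule.comap (W.part (n + 1)).subtype (W.part n) := by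
    ext x
    rw [LinearMap.mem_ker, Submodule.mem_comap, Submodule.subtype_apply, Lat.mem_part]
    have hx := Lat.mem_part.mp x.2
    refine ⟨fun h => ⟨hx.1, fun i hi => ?_⟩, fun h => h.2 _ (by omega)⟩
    rcases eq_or_ne i (-(n : ℤ)) with rfl | hne
    · exact h
    · exact hx.2 i (by push_cast; omega)
  have h1 := LinearMap.finrank_range_add_finrank_ker f
  rw [hsurj, finrank_top, Module.finrank_self, hker, (Submodule.comapSubtypeEquivOfLe (fun x hx =>
    Lat.mem_part.mpr ⟨(Lat.mem_part.mp hx).1, (Lat.mem_part.mp hx).2.mono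
      (by push_cast; omega)⟩)).finrank_eq] at h1
  omega

theorem finrank_part_shift {n m : ℕ} (hnm : n ≤ m)
    (hn : Function.Surjective ((polar K n).comp W.toBase.subtype)) :
    Module.finrank K (W.part m) + n = Module.finrank K (W.part n) + m := by
  induction m, hnm using Nat.le_induction with
  | base => rfl
  | succ m hm ih => rw [finrank_part_succ W (surjective_polar_of_le W hm hn)]; omega

theorem exists_finrank_part_iff {n : ℕ}
    (hn : Function.Surjective ((polar K n).comp W.toBase.subtype)) :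
    (∃ N : ℕ, ∀ m : ℕ, N ≤ m → Module.finrank K (W.part m) + D.genus = m) ↔
      Module.finrank K (W.part n) + D.genus = n := by
  refine ⟨fun ⟨N, hN⟩ => ?_, fun h => ⟨n, fun m hm => ?_⟩⟩
  · have h1 := hN (max N n) (le_max_left _ _)
    have h2 := finrank_part_shift W (le_max_right N n) hn
    omega
  · have h2 := finrank_part_shift W hm hn
    omega

end Field

theorem degZero_iff_finrank {W : D.Lat B} {n : ℕ}
    (hn : Function.Surjective ((polar B n).comp W.toBase.subtype)) :
    W.DegZero ↔ ∀ (K : Type u) [Field K] [Algebra k K] (φ : B →ₐ[k] K),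
      Module.finrank K ((D.latMap φ W).part n) + D.genus = n :=
  ⟨fun h K _ _ φ => (exists_finrank_part_iff _ (latMap_surjective_polar φ W hn)).mp (h K φ),
    fun h K _ _ φ => (exists_finrank_part_iff _ (latMap_surjective_polar φ W hn)).mpr (h K φ)⟩

theorem toBase_one_eq : ((1 : D.Lat B).toBase : Set (LaurentSeries B)) = D.reg B := by
  ext x
  rw [SetLike.mem_coe, Lat.toBase, restrictScalars_mem, Units.val_one, Submodule.mem_one]
  exact ⟨fun ⟨r, hr⟩ => hr ▸ r.2, fun hx => ⟨⟨x, hx⟩, rfl⟩⟩

theorem latMap_one (φ : B →ₐ[k] B') : D.latMap φ (1 : D.Lat B) = 1 := map_one _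

theorem degZero_one : (1 : D.Lat B).DegZero := by
  intro K _ _ φ
  refine ⟨D.gapBound, fun n hn => ?_⟩
  rw [latMap_one]
  have h : (1 : D.Lat K).part n = LinearMap.range (D.regPart K n) := by
    ext x
    rw [Lat.mem_part, ← SetLike.mem_coe, toBase_one_eq, SetLike.mem_coe]
    refine ⟨fun hx => D.exists_regPart hx.1 hx.2, ?_⟩
    rintro ⟨c, rfl⟩
    exact ⟨D.regPart_mem_reg n c, D.regPart_below n c⟩
  rw [h, LinearMap.finrank_range_of_inj (D.regPart_injective n), Module.finrank_pi,
    D.card_regIdx hn]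

theorem DegZero.latMap {W : D.Lat B} (hW : W.DegZero) (φ : B →ₐ[k] B') :
    (D.latMap φ W).DegZero := by
  intro K _ _ ψ
  rw [latMap_latMap]
  exact hW K (ψ.comp φ)

theorem part_retrivialise_mul (u : (PowerSeries B)ˣ) (V : D.Lat B) (n : ℕ) :
    (D.retrivialise B u * V).part n =
      (V.part n).map (LinearMap.mulLeft B (HahnSeries.ofPowerSeries ℤ B u)) := by
  ext x
  rw [Lat.mem_part, mem_retrivialise_mul, Submodule.mem_map]
  constructor
  · rintro ⟨⟨v, hv, rfl⟩, hb⟩
    exact ⟨v, Lat.mem_part.mpr ⟨hv, (below_ofPowerSeries_mul_iff u).mp hb⟩, rfl⟩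
  · rintro ⟨v, hv, rfl⟩
    exact ⟨⟨v, (Lat.mem_part.mp hv).1, rfl⟩,
      (below_ofPowerSeries_mul_iff u).mpr (Lat.mem_part.mp hv).2⟩

theorem DegZero.of_sameClass {V W : D.Lat B} (hV : V.DegZero) (h : SameClass V W) : W.DegZero := by
  intro K _ _ φ
  obtain ⟨N, hN⟩ := hV K φ
  obtain ⟨u, hu⟩ := h.latMap φ
  refine ⟨N, fun n hn => ?_⟩
  rw [hu, part_retrivialise_mul, ← (Submodule.equivMapOfInjective _ (fun a b e => ?_) _).finrank_eq]
  · exact hN n hn
  · have e' := congrArg (HahnSeries.ofPowerSeries ℤ K ((u⁻¹ : (PowerSeries K)ˣ) : PowerSeries K) * ·) e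
    simp only [LinearMap.mulLeft_apply, ← mul_assoc] at e'
    rwa [mul_comm (HahnSeries.ofPowerSeries ℤ K ((u⁻¹ : (PowerSeries K)ˣ) : PowerSeries K)),
      ofPowerSeries_mul_inv, one_mul, one_mul] at e'

/-- The residue field of a prime, as a point. -/
theorem exists_point_of_prime (p : Ideal B) [p.IsPrime] :
    ∃ (K : Type u) (_ : Field K) (_ : Algebra k K) (φ : B →ₐ[k] K),
      RingHom.ker (φ : B →+* K) = p :=
  ⟨p.ResidueField, inferInstance, inferInstance, IsScalarTower.toAlgHom k B p.ResidueField,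
    Ideal.ker_algebraMap_residueField p⟩

/-- Degree zero may be tested at the primes. -/
theorem degZero_iff_forall_prime (W : D.Lat B) :
    W.DegZero ↔ ∀ p : Ideal B, p.IsPrime → ∃ (K : Type u) (_ : Field K) (_ : Algebra k K)
      (φ : B →ₐ[k] K), RingHom.ker (φ : B →+* K) = p ∧ ∃ N : ℕ, ∀ n : ℕ, N ≤ n →
        Module.finrank K ((D.latMap φ W).part n) + D.genus = n := by
  refine ⟨fun h p hp => ?_, fun h => ?_⟩
  · obtain ⟨K, hK, hA, φ, hφ⟩ := exists_point_of_prime (k := k) p
    exact ⟨K, hK, hA, φ, hφ, h K φ⟩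
  · obtain ⟨n, hn⟩ := exists_surjective_polar W
    rw [degZero_iff_finrank (hn n le_rfl)]
    intro K _ _ φ
    have hp : (RingHom.ker (φ : B →+* K)).IsPrime := RingHom.ker_isPrime _
    obtain ⟨K', hK', hA', φ', hφ', hN⟩ := h _ hp
    have h' := (exists_finrank_part_iff _ (latMap_surjective_polar φ' W (hn n le_rfl))).mp hN
    rw [finrank_part_eq_rankAtStalk φ W (hn n le_rfl) (p := ⟨_, hp⟩) rfl]
    rwa [finrank_part_eq_rankAtStalk φ' W (hn n le_rfl) (p := ⟨_, hp⟩) hφ'] at h'

/-- The degree is constant on a connected base. -/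
theorem degZero_of_point [PreconnectedSpace (PrimeSpectrum B)] (W : D.Lat B) {K : Type u} [Field K]
    [Algebra k K] (φ : B →ₐ[k] K) (hW : (D.latMap φ W).DegZero) : W.DegZero := by
  obtain ⟨n, hn⟩ := exists_surjective_polar W
  obtain ⟨hfin, hproj⟩ := part_finite_projective W (hn n le_rfl)
  haveI := hfin
  haveI := hproj
  haveI := Module.finitePresentation_of_projective B (W.part n)
  have hK := hW K (AlgHom.id k K)
  rw [latMap_latMap, AlgHom.id_comp, exists_finrank_part_iff _
    (latMap_surjective_polar φ W (hn n le_rfl))] at hK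
  rw [degZero_iff_finrank (hn n le_rfl)]
  intro L _ _ ψ
  rw [finrank_part_eq_rankAtStalk ψ W (hn n le_rfl) (p := ⟨_, RingHom.ker_isPrime _⟩) rfl]
  rw [finrank_part_eq_rankAtStalk φ W (hn n le_rfl) (p := ⟨_, RingHom.ker_isPrime _⟩) rfl] at hK
  rwa [Module.isLocallyConstant_rankAtStalk.apply_eq_of_preconnectedSpace _
    ⟨RingHom.ker (φ : B →+* K), RingHom.ker_isPrime _⟩]

/-! ## The chart -/

theorem inChart_iff {W : D.Lat B} :
    W.InChart ↔ Function.Surjective ((polar B D.genus).comp W.toBase.subtype) ∧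
      ∀ x ∈ W.part D.genus, x = 0 := by
  rw [Lat.InChart, Function.Bijective, and_comm]
  refine and_congr Iff.rfl ⟨fun h x hx => ?_, fun h => (injective_iff_map_eq_zero _).mpr fun x hx => ?_⟩
  · have h1 : (⟨x, hx.1⟩ : W.toBase) = 0 := h (by
      rw [LinearMap.comp_apply, Submodule.subtype_apply, map_zero]
      exact LinearMap.mem_ker.mp hx.2)
    exact congrArg Subtype.val h1
  · exact Subtype.ext (h _ ⟨x.2, hx⟩)

theorem InChart.latMap {W : D.Lat B} (hW : W.InChart) (φ : B →ₐ[k] B') :
    (D.latMap φ W).InChart := by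
  rw [inChart_iff] at hW ⊢
  refine ⟨latMap_surjective_polar φ W hW.1, fun x hx => ?_⟩
  rw [latMap_part φ W hW.1] at hx
  induction hx using Submodule.span_induction with
  | mem y hy =>
    obtain ⟨z, hz, rfl⟩ := hy
    rw [hW.2 z hz, map_zero]
  | zero => rfl
  | add y z _ _ hy hz => rw [hy, hz, add_zero]
  | smul b y _ hy => rw [hy, smul_zero]

theorem InChart.degZero {W : D.Lat B} (hW : W.InChart) : W.DegZero := by
  intro K _ _ φ
  have h := InChart.latMap hW φ
  rw [inChart_iff] at h
  refine (exists_finrank_part_iff _ h.1).mpr ?_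
  rw [(Submodule.eq_bot_iff _).mpr h.2, finrank_bot, zero_add]

theorem InChart.of_sameClass {V W : D.Lat B} (hV : V.InChart) (h : SameClass V W) : W.InChart := by
  obtain ⟨u, rfl⟩ := h
  rw [inChart_iff] at hV ⊢
  refine ⟨fun ψ => ?_, fun x hx => ?_⟩
  · set x : LaurentSeries B := ∑ j ∈ ψ.support, HahnSeries.single (-(j.1 : ℤ)) (ψ j)
    have hx : polar B D.genus x = ψ := Finsupp.ext fun j => by
      rw [polar_apply, HahnSeries.coeff_sum, Finset.sum_eq_single j (fun i _ hne => ?_) (fun h => ?_),
        HahnSeries.coeff_single_same]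
      · rw [HahnSeries.coeff_single_of_ne fun e => hne (Subtype.ext (by omega))]
      · rw [Finsupp.notMem_support_iff.mp h, map_zero, HahnSeries.coeff_zero]
    obtain ⟨⟨v, hv⟩, hvx⟩ :=
      hV.1 (polar B D.genus (HahnSeries.ofPowerSeries ℤ B (u⁻¹ : (PowerSeries B)ˣ) * x))
    rw [LinearMap.comp_apply, Submodule.subtype_apply, ← sub_eq_zero, ← map_sub,
      polar_eq_zero_iff] at hvx
    refine ⟨⟨_, mem_retrivialise_mul.mpr ⟨v, hv, rfl⟩⟩, ?_⟩
    rw [LinearMap.comp_apply, Submodule.subtype_apply, ← hx, ← sub_eq_zero, ← map_sub,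
      polar_eq_zero_iff]
    have h2 := (below_ofPowerSeries_mul_iff u).mpr hvx
    rwa [mul_sub, ← mul_assoc, ofPowerSeries_mul_inv, one_mul] at h2
  · rw [part_retrivialise_mul] at hx
    obtain ⟨v, hv, rfl⟩ := hx
    rw [hV.2 v hv, map_zero]

theorem surjective_polar_genus {W : D.Lat B} {n : ℕ}
    (hn : Function.Surjective ((polar B n).comp W.toBase.subtype))
    (hh : Function.Surjective ((midCoeff B D.genus n).comp (W.part n).subtype)) :
    Function.Surjective ((polar B D.genus).comp W.toBase.subtype) := fun ψ => by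
  classical
  let ψ' : {j : ℕ // n ≤ j} →₀ B := Finsupp.ofSupportFinite
    (fun j => if h : D.genus ≤ j.1 then ψ ⟨j.1, h⟩ else 0) ((ψ.support.image Subtype.val).finite_toSet.preimage
      (Subtype.val_injective.injOn) |>.subset fun j hj => by
        simp only [Function.mem_support] at hj
        split_ifs at hj with h
        · exact Finset.mem_image.mpr ⟨⟨j.1, h⟩, Finsupp.mem_support_iff.mpr hj, rfl⟩
        · exact absurd rfl hj)
  obtain ⟨⟨w, hw⟩, hwψ⟩ := hn ψ'
  rw [LinearMap.comp_apply, Submodule.subtype_apply] at hwψ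
  obtain ⟨⟨m, hm⟩, hmc⟩ := hh fun j : MidIdx D.genus n => ψ ⟨j.1.1, j.2⟩ - w.coeff (-(j.1.1 : ℤ))
  rw [LinearMap.comp_apply, Submodule.subtype_apply] at hmc
  have hm' := Lat.mem_part.mp hm
  refine ⟨⟨w + m, add_mem hw hm'.1⟩, Finsupp.ext fun j => ?_⟩
  rw [LinearMap.comp_apply, Submodule.subtype_apply, polar_apply, HahnSeries.coeff_add]
  rcases lt_or_ge j.1 n with hlt | hge
  · have h2 := congrFun hmc ⟨⟨j.1, hlt⟩, j.2⟩
    rw [midCoeff_apply] at h2
    simp only at h2
    rw [h2, add_sub_cancel]
  · rw [hm'.2 _ (by omega), add_zero]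
    have h2 := DFunLike.congr_fun hwψ ⟨j.1, hge⟩
    rw [polar_apply] at h2
    rw [h2]
    show (if h : D.genus ≤ j.1 then ψ ⟨j.1, h⟩ else 0) = ψ j
    rw [dif_pos j.2]

/-- A class of degree zero whose middle coefficients are onto lies in the chart. -/
theorem inChart_of_surjective {W : D.Lat B} (hW : W.DegZero) {n : ℕ} (hgn : D.genus ≤ n)
    (hn : Function.Surjective ((polar B n).comp W.toBase.subtype))
    (hh : Function.Surjective ((midCoeff B D.genus n).comp (W.part n).subtype)) : W.InChart := by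
  classical
  have hg := surjective_polar_genus hn hh
  rw [inChart_iff]
  refine ⟨hg, fun x hx => ?_⟩
  set h := (midCoeff B D.genus n).comp (W.part n).subtype with hh_def
  obtain ⟨hfin, hproj⟩ := part_finite_projective W hn
  haveI := hfin
  obtain ⟨σ, hσ⟩ := Module.projective_lifting_property h LinearMap.id hh
  let q : W.part n →ₗ[B] LinearMap.ker h := LinearMap.codRestrict _ (LinearMap.id - σ.comp h)
    fun y => by
      rw [LinearMap.mem_ker]
      show h (y - σ (h y)) = 0
      rw [map_sub, show h (σ (h y)) = h y from LinearMap.congr_fun hσ (h y), sub_self]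
  have hq : ∀ y : LinearMap.ker h, q y = y := fun y => Subtype.ext (by
    show (y : W.part n) - σ (h y) = y
    rw [LinearMap.mem_ker.mp y.2, map_zero, sub_zero])
  haveI : Module.Finite B (LinearMap.ker h) := Module.Finite.of_surjective q fun y => ⟨y, hq y⟩
  obtain ⟨G⟩ := W.nonempty_gens
  obtain ⟨c, s, hs, hc⟩ := G.exists_split hn
  have key : ∀ y : LinearMap.ker h, ∀ i j, c (y : W.part n) i j ∈ nilradical B := fun y i j => by
    rw [mem_nilradical, nilpotent_iff_mem_prime]
    intro p hp
    haveI := hp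
    obtain ⟨K, _, _, φ, hφ⟩ := exists_point_of_prime (k := k) p
    have hK := (degZero_iff_finrank hn).mp hW K φ
    set hK' := (midCoeff K D.genus n).comp ((D.latMap φ W).part n).subtype
    haveI := (part_finite_projective _ (latMap_surjective_polar φ W hn)).1
    have hsurj : Function.Surjective hK' := by
      rw [← LinearMap.range_eq_top, eq_top_iff]
      rintro z -
      rw [show z = ∑ a, z a • (Pi.single a 1 : MidIdx D.genus n → K) from
        pi_eq_sum_univ' z]
      refine sum_mem fun a _ => Submodule.smul_mem _ _ ?_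
      obtain ⟨⟨m, hm⟩, hma⟩ := hh (Pi.single a 1)
      refine ⟨⟨coeffMapₐ φ m, ?_⟩, funext fun b => ?_⟩
      · rw [latMap_part φ W hn]; exact Submodule.subset_span ⟨m, hm, rfl⟩
      · have h2 := congrFun hma b
        rw [hh_def, LinearMap.comp_apply, Submodule.subtype_apply, midCoeff_apply] at h2
        show φ (m.coeff (-(b.1.1 : ℤ))) = _
        rw [h2]
        rcases eq_or_ne b a with rfl | hne
        · simp
        · simp [Pi.single_eq_of_ne hne]
    have hinj : Function.Injective hK' := (LinearMap.injective_iff_surjective_of_finrank_eq_finrank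
      (by rw [Module.finrank_pi]; have := card_midIdx hgn; omega)).mpr hsurj
    have hy0 : coeffMapₐ φ ((y : W.part n) : LaurentSeries B) = 0 := by
      have hmem : coeffMapₐ φ ((y : W.part n) : LaurentSeries B) ∈ (D.latMap φ W).part n := by
        rw [latMap_part φ W hn]; exact Submodule.subset_span ⟨_, (y : W.part n).2, rfl⟩
      refine congrArg Subtype.val (hinj (a₁ := ⟨_, hmem⟩) (a₂ := 0) ?_)
      rw [map_zero]
      funext b
      have h2 : ((y : W.part n) : LaurentSeries B).coeff (-(b.1.1 : ℤ)) = 0 :=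
        congrFun (LinearMap.mem_ker.mp y.2) b
      show φ (((y : W.part n) : LaurentSeries B).coeff (-(b.1.1 : ℤ))) = 0
      rw [h2, map_zero]
    have h3 := congrArg (· * coeffMapₐ φ (G.v i)) hy0
    simp only [zero_mul, ← map_mul, ← hc, coeffMap_regPart] at h3
    have h4 := congrFun (D.regPart_injective (B := K) (n + G.e) (h3.trans (map_zero _).symm)) j
    rw [← hφ]
    exact h4
  have hbot : LinearMap.ker h = ⊥ := by
    refine Submodule.eq_bot_of_le_smul_of_le_jacobson_bot (nilradical B) _
      (Module.Finite.iff_fg.mp inferInstance) (fun y₀ hy₀ => ?_)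
      (by rw [nilradical]; exact Ideal.radical_le_jacobson)
    obtain ⟨y, rfl⟩ : ∃ y : LinearMap.ker h, (y : W.part n) = y₀ := ⟨⟨y₀, hy₀⟩, rfl⟩
    have hy : y = ∑ p : Fin G.r × D.RegIdx (n + G.e),
        c (y : W.part n) p.1 p.2 • q (s (Pi.single p.1 (Pi.single p.2 1))) := by
      have e1 : y = q (s (c (y : W.part n))) := by
        rw [show s (c (y : W.part n)) = y from LinearMap.congr_fun hs _, hq y]
      have hcy : c (y : W.part n) = ∑ p : Fin G.r × D.RegIdx (n + G.e),
          c (y : W.part n) p.1 p.2 • Pi.single p.1 (Pi.single p.2 1) := by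
        funext i j
        simp only [Finset.sum_apply, Pi.smul_apply, smul_eq_mul]
        rw [Finset.sum_eq_single (i, j)]
        · simp
        · rintro ⟨a, b⟩ _ hne
          rcases eq_or_ne a i with rfl | ha
          · rcases eq_or_ne b j with rfl | hb
            · exact absurd rfl hne
            · simp [Pi.single_eq_of_ne (Ne.symm hb)]
          · simp [Pi.single_eq_of_ne (Ne.symm ha)]
        · exact fun h => absurd (Finset.mem_univ _) h
      refine e1.trans ((congrArg (fun z => q (s z)) hcy).trans ?_)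
      simp [map_sum, map_smul]
    rw [hy, AddSubmonoidClass.coe_finsetSum]
    exact sum_mem fun p _ => Submodule.smul_mem_smul (key y p.1 p.2) (Subtype.mem _)
  have hxn : x ∈ W.part n := Lat.mem_part.mpr ⟨(Lat.mem_part.mp hx).1,
    (Lat.mem_part.mp hx).2.mono (by omega)⟩
  have hxk : (⟨x, hxn⟩ : W.part n) ∈ LinearMap.ker h := LinearMap.mem_ker.mpr (funext fun b => by
    show x.coeff (-(b.1.1 : ℤ)) = 0
    exact (Lat.mem_part.mp hx).2 _ (by have := b.2; omega))
  rw [hbot, Submodule.mem_bot] at hxk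
  exact congrArg Subtype.val hxk

theorem exists_det_ne_zero {W : D.Lat B} {n : ℕ} (hgn : D.genus ≤ n)
    (hn : Function.Surjective ((polar B n).comp W.toBase.subtype)) {K : Type u} [Field K]
    [Algebra k K] (φ : B →ₐ[k] K) (h : (D.latMap φ W).InChart) :
    ∃ m : MidIdx D.genus n → W.part n,
      φ (Matrix.of fun a => midCoeff B D.genus n (m a : LaurentSeries B)).det ≠ 0 := by
  classical
  set hK' := (midCoeff K D.genus n).comp ((D.latMap φ W).part n).subtype
  have hsurj : Function.Surjective hK' := fun z => by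
    let ψ : {j : ℕ // D.genus ≤ j} →₀ K := Finsupp.ofSupportFinite
      (fun j => if h : j.1 < n then z ⟨⟨j.1, h⟩, j.2⟩ else 0)
      (((Set.finite_Iio n).preimage Subtype.val_injective.injOn).subset fun j hj => by
        simp only [Function.mem_support] at hj
        split_ifs at hj with h
        · exact h
        · exact absurd rfl hj)
    obtain ⟨⟨w, hw⟩, hwz⟩ := h.2 ψ
    rw [LinearMap.comp_apply, Submodule.subtype_apply] at hwz
    refine ⟨⟨w, Lat.mem_part.mpr ⟨hw, fun i hi => ?_⟩⟩, funext fun j => ?_⟩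
    · have h2 := DFunLike.congr_fun hwz ⟨(-i).toNat, by omega⟩
      rw [polar_apply] at h2
      change _ = (if h : (-i).toNat < n then z ⟨⟨(-i).toNat, h⟩, _⟩ else 0) at h2
      rw [dif_neg (by omega)] at h2
      rwa [show -((⟨(-i).toNat, by omega⟩ : {j : ℕ // D.genus ≤ j}).1 : ℤ) = i by
        show -(((-i).toNat : ℕ) : ℤ) = i; omega] at h2
    · have h2 := DFunLike.congr_fun hwz ⟨j.1.1, j.2⟩
      rw [polar_apply] at h2
      change _ = (if h : j.1.1 < n then z ⟨⟨j.1.1, h⟩, _⟩ else 0) at h2
      rw [dif_pos j.1.2] at h2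
      exact h2
  set S := Set.range fun x : W.part n => fun a => φ (midCoeff B D.genus n (x : LaurentSeries B) a)
  have hspan : Submodule.span K S = ⊤ := by
    rw [eq_top_iff]
    rintro z -
    obtain ⟨⟨w, hw⟩, rfl⟩ := hsurj z
    have key : ∀ y ∈ Submodule.span K (coeffMapₐ φ '' (W.part n : Set (LaurentSeries B))),
        midCoeff K D.genus n y ∈ Submodule.span K S := fun y hy => by
      induction hy using Submodule.span_induction with
      | mem y hy =>
        obtain ⟨x, hx, rfl⟩ := hy
        exact Submodule.subset_span ⟨⟨x, hx⟩, funext fun a => rfl⟩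
      | zero => rw [map_zero]; exact zero_mem _
      | add y z _ _ hy hz => rw [map_add]; exact add_mem hy hz
      | smul b y _ hy => rw [map_smul]; exact Submodule.smul_mem _ b hy
    exact key w (latMap_part φ W hn ▸ hw)
  obtain ⟨b, hbS, hbspan, hbli⟩ := exists_linearIndependent K S
  let e := (Module.Basis.mk hbli (by rw [Subtype.range_coe, hbspan, hspan])).indexEquiv
    (Pi.basisFun K (MidIdx D.genus n))
  have hb' : ∀ a, ∃ x : W.part n,
      (fun a' => φ (midCoeff B D.genus n (x : LaurentSeries B) a')) = (e.symm a : MidIdx D.genus n → K) :=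
    fun a => hbS (e.symm a).2
  choose m hm using hb'
  refine ⟨m, ?_⟩
  have hdet : φ (Matrix.of fun a => midCoeff B D.genus n (m a : LaurentSeries B)).det =
      (Matrix.of fun a => ((e.symm a : b) : MidIdx D.genus n → K)).det := by
    rw [← AlgHom.coe_toRingHom, RingHom.map_det]
    refine congrArg Matrix.det (Matrix.ext fun a a' => ?_)
    exact congrFun (hm a) a'
  rw [hdet]
  refine IsUnit.ne_zero ((Matrix.isUnit_iff_isUnit_det _).mp
    (Matrix.linearIndependent_rows_iff_isUnit.mp ?_))
  exact hbli.comp e.symm e.symm.injective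

theorem det_smul_mem_range {W : D.Lat B} {n : ℕ} (m : MidIdx D.genus n → W.part n)
    (ψ : MidIdx D.genus n → B) :
    (Matrix.of fun a => midCoeff B D.genus n (m a : LaurentSeries B)).det • ψ ∈
      LinearMap.range ((midCoeff B D.genus n).comp (W.part n).subtype) := by
  classical
  set M := Matrix.of fun a => midCoeff B D.genus n (m a : LaurentSeries B)
  refine ⟨∑ a, (Matrix.vecMul ψ M.adjugate) a • m a, ?_⟩
  have h1 : Matrix.vecMul (Matrix.vecMul ψ M.adjugate) M = M.det • ψ := by
    rw [Matrix.vecMul_vecMul, Matrix.adjugate_mul, Matrix.vecMul_smul, Matrix.vecMul_one]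
  rw [← h1, map_sum]
  funext j
  rw [Finset.sum_apply]
  simp only [map_smul, Pi.smul_apply, smul_eq_mul, Matrix.vecMul, dotProduct]
  rfl

/-- The chart is open. -/
theorem exists_inChart_away {W : D.Lat B} (hW : W.DegZero) (p : Ideal B) [p.IsPrime] {K : Type u}
    [Field K] [Algebra k K] (φ : B →ₐ[k] K) (hp : RingHom.ker (φ : B →+* K) = p)
    (h : (D.latMap φ W).InChart) :
    ∃ f : B, f ∉ p ∧
      (D.latMap (IsScalarTower.toAlgHom k B (Localization.Away f)) W).InChart := by
  classical
  obtain ⟨N, hN⟩ := exists_surjective_polar W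
  set n := max N D.genus
  have hn := hN n (le_max_left _ _)
  obtain ⟨m, hm⟩ := exists_det_ne_zero (le_max_right _ _) hn φ h
  set f := (Matrix.of fun a => midCoeff B D.genus n (m a : LaurentSeries B)).det
  refine ⟨f, fun hf => hm (by rwa [← hp] at hf), ?_⟩
  set ψ := IsScalarTower.toAlgHom k B (Localization.Away f)
  refine inChart_of_surjective (DegZero.latMap hW ψ) (le_max_right _ _)
    (latMap_surjective_polar ψ W hn) ?_
  let m' : MidIdx D.genus n → (D.latMap ψ W).part n := fun a =>
    ⟨coeffMapₐ ψ (m a : LaurentSeries B), by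
      rw [latMap_part ψ W hn]; exact Submodule.subset_span ⟨_, (m a).2, rfl⟩⟩
  have hdet : (Matrix.of fun a => midCoeff (Localization.Away f) D.genus n
      (m' a : LaurentSeries (Localization.Away f))).det = algebraMap B (Localization.Away f) f := by
    rw [RingHom.map_det]
    exact congrArg Matrix.det (Matrix.ext fun a a' => rfl)
  intro z
  obtain ⟨u, hu⟩ : IsUnit (algebraMap B (Localization.Away f) f) :=
    IsLocalization.Away.algebraMap_isUnit f
  obtain ⟨x, hx⟩ := det_smul_mem_range m' z
  rw [hdet, ← hu] at hx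
  refine ⟨((u⁻¹ : (Localization.Away f)ˣ) : Localization.Away f) • x, ?_⟩
  rw [map_smul, hx, smul_smul, Units.inv_mul, one_smul]

/-- The chart condition may be tested at the primes. -/
theorem inChart_of_forall_prime {W : D.Lat B} (hW : W.DegZero)
    (h : ∀ p : Ideal B, p.IsPrime → ∃ (K : Type u) (_ : Field K) (_ : Algebra k K) (φ : B →ₐ[k] K),
      RingHom.ker (φ : B →+* K) = p ∧ (D.latMap φ W).InChart) : W.InChart := by
  classical
  obtain ⟨N, hN⟩ := exists_surjective_polar W
  set n := max N D.genus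
  have hn := hN n (le_max_left _ _)
  set h' := (midCoeff B D.genus n).comp (W.part n).subtype
  let I : Ideal B :=
    { carrier := {b | ∀ ψ, b • ψ ∈ LinearMap.range h'}
      add_mem' := fun ha hb ψ => by rw [add_smul]; exact add_mem (ha ψ) (hb ψ)
      zero_mem' := fun ψ => by rw [zero_smul]; exact zero_mem _
      smul_mem' := fun a b hb ψ => by rw [smul_assoc]; exact Submodule.smul_mem _ a (hb ψ) }
  have htop : I = ⊤ := by
    by_contra hne
    obtain ⟨p, hp, hIp⟩ := Ideal.exists_le_maximal I hne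
    obtain ⟨K, _, _, φ, hφ, hK⟩ := h p hp.isPrime
    obtain ⟨m, hm⟩ := exists_det_ne_zero (le_max_right _ _) hn φ hK
    apply hm
    have hmem := hIp (show _ ∈ I from fun ψ => det_smul_mem_range m ψ)
    rwa [← hφ] at hmem
  refine inChart_of_surjective hW (le_max_right _ _) hn fun ψ => ?_
  have h1 : (1 : B) ∈ I := htop ▸ Submodule.mem_top
  simpa [h'] using h1 ψ

theorem exists_normalised {W : D.Lat B} (hW : W.InChart) :
    ∃ W' : D.Lat B, W'.IsNormalised ∧ SameClass W W' := by
  obtain ⟨⟨m, hm⟩, hmg⟩ := hW.2 (Finsupp.single ⟨D.genus, le_rfl⟩ 1)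
  rw [LinearMap.comp_apply, Submodule.subtype_apply] at hmg
  have hmc : ∀ i : ℤ, i ≤ -(D.genus : ℤ) → m.coeff i = if i = -(D.genus : ℤ) then 1 else 0 :=
    fun i hi => by
      have h2 := DFunLike.congr_fun hmg ⟨(-i).toNat, by omega⟩
      rw [polar_apply, Finsupp.single_apply] at h2
      rw [show -((⟨(-i).toNat, by omega⟩ : {j : ℕ // D.genus ≤ j}).1 : ℤ) = i by
        show -(((-i).toNat : ℕ) : ℤ) = i; omega] at h2
      rw [h2]
      refine if_congr ?_ rfl rfl
      simp only [Subtype.mk.injEq]
      omega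
  let P : PowerSeries B := PowerSeries.mk fun j => m.coeff ((j : ℤ) - D.genus)
  have hP : m = HahnSeries.single (-(D.genus : ℤ)) (1 : B) * HahnSeries.ofPowerSeries ℤ B P := by
    refine HahnSeries.ext (funext fun i => ?_)
    obtain ⟨e, rfl⟩ : ∃ e, i = e + (-(D.genus : ℤ)) := ⟨i + D.genus, by omega⟩
    rw [HahnSeries.coeff_single_mul_add, one_mul]
    rcases lt_or_ge e 0 with he | he
    · rw [below_ofPowerSeries _ e he, hmc _ (by omega), if_neg (by omega)]
    · obtain ⟨j, rfl⟩ := Int.eq_ofNat_of_zero_le he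
      rw [HahnSeries.ofPowerSeries_apply_coeff, PowerSeries.coeff_mk]
      congr 1
  have hu : IsUnit P := by
    rw [PowerSeries.isUnit_iff_constantCoeff, ← PowerSeries.coeff_zero_eq_constantCoeff_apply,
      PowerSeries.coeff_mk, hmc _ (by simp), if_pos (by simp)]
    exact isUnit_one
  obtain ⟨u, hu⟩ := hu
  refine ⟨D.retrivialise B u⁻¹ * W, ⟨InChart.of_sameClass hW ⟨u⁻¹, rfl⟩, ?_⟩, u⁻¹, rfl⟩
  refine mem_retrivialise_mul.mpr ⟨m, hm, ?_⟩
  rw [hP, ← hu, mul_left_comm, mul_comm (HahnSeries.ofPowerSeries ℤ B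
    ((u⁻¹ : (PowerSeries B)ˣ) : PowerSeries B)), ofPowerSeries_mul_inv, mul_one]

theorem normalised_unique {V W : D.Lat B} (hV : V.IsNormalised) (hW : W.IsNormalised)
    (h : SameClass V W) : V = W := by
  obtain ⟨u, rfl⟩ := h
  set t := HahnSeries.single (-(D.genus : ℤ)) (1 : B) with ht
  obtain ⟨v, hv, hve⟩ := mem_retrivialise_mul.mp hW.2
  set c := v.coeff (-(D.genus : ℤ))
  set U := HahnSeries.ofPowerSeries ℤ B ((u⁻¹ : (PowerSeries B)ˣ) : PowerSeries B) with hU
  have hvt : v = U * t := by
    rw [hU, ht, hve, ← mul_assoc, mul_comm (HahnSeries.ofPowerSeries ℤ B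
      ((u⁻¹ : (PowerSeries B)ˣ) : PowerSeries B)), ofPowerSeries_mul_inv, one_mul]
  have hd : v - c • t = 0 := (inChart_iff.mp hV.1).2 _ (Lat.mem_part.mpr
    ⟨sub_mem hv (V.toBase.smul_mem c hV.2), fun i hi => by
      rw [HahnSeries.coeff_sub, HahnSeries.coeff_smul, ht]
      rcases eq_or_ne i (-(D.genus : ℤ)) with rfl | hne
      · rw [HahnSeries.coeff_single_same, smul_eq_mul, mul_one, sub_self]
      · rw [HahnSeries.coeff_single_of_ne hne, smul_zero, sub_zero, hvt]
        have h1 := (below_ofPowerSeries ((u⁻¹ : (PowerSeries B)ˣ) : PowerSeries B)).mul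
          (below_single (-(D.genus : ℤ)) (1 : B))
        exact h1 i (by omega)⟩)
  have hUC : U = HahnSeries.C c := by
    have h1 : U * t * HahnSeries.single (D.genus : ℤ) (1 : B) =
        c • t * HahnSeries.single (D.genus : ℤ) (1 : B) := by rw [← hvt, sub_eq_zero.mp hd]
    rw [mul_assoc, smul_mul_assoc, ht, HahnSeries.single_mul_single, neg_add_cancel, one_mul] at h1
    rw [HahnSeries.C_apply]
    refine (mul_one U).symm.trans (h1.trans ?_)
    ext i
    simp [HahnSeries.coeff_single]
  have hCreg : HahnSeries.C c ∈ D.reg B := by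
    convert (D.reg B).algebraMap_mem c using 1
    simp [HahnSeries.algebraMap_apply]
  refine Units.ext ?_
  rw [Units.val_mul, val_retrivialise]
  refine le_antisymm (fun x hx => ?_) (fun x hx => ?_)
  · refine Submodule.mem_span_singleton_mul.mpr ⟨U * x, ?_, ?_⟩
    · rw [hUC]; exact Submodule.smul_mem _ (⟨_, hCreg⟩ : D.reg B) hx
    · rw [hU, ← mul_assoc, ofPowerSeries_mul_inv, one_mul]
  · obtain ⟨z, hz, rfl⟩ := Submodule.mem_span_singleton_mul.mp hx
    have hu0 : HahnSeries.ofPowerSeries ℤ B (u : PowerSeries B) =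
        HahnSeries.C (PowerSeries.constantCoeff (u : PowerSeries B)) := by
      have h1 : HahnSeries.ofPowerSeries ℤ B (u : PowerSeries B) * HahnSeries.C c = 1 := by
        rw [← hUC, hU, ofPowerSeries_mul_inv]
      have h2 := congrArg (fun z => HahnSeries.coeff z 0) h1
      have h0 : (HahnSeries.ofPowerSeries ℤ B (u : PowerSeries B)).coeff 0 =
          PowerSeries.constantCoeff (u : PowerSeries B) := by
        rw [← PowerSeries.coeff_zero_eq_constantCoeff_apply]
        exact HahnSeries.ofPowerSeries_apply_coeff (u : PowerSeries B) 0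
      simp only [HahnSeries.C_apply, HahnSeries.coeff_mul_single_zero, h0, HahnSeries.coeff_one,
        if_pos] at h2
      calc HahnSeries.ofPowerSeries ℤ B (u : PowerSeries B)
          = HahnSeries.ofPowerSeries ℤ B (u : PowerSeries B) * (HahnSeries.C c *
            HahnSeries.C (PowerSeries.constantCoeff (u : PowerSeries B))) := by
            rw [← map_mul, mul_comm c, h2, map_one, mul_one]
        _ = HahnSeries.C (PowerSeries.constantCoeff (u : PowerSeries B)) := by
            rw [← mul_assoc, h1, one_mul]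
    rw [hu0]
    have hreg : HahnSeries.C (PowerSeries.constantCoeff (u : PowerSeries B)) ∈ D.reg B := by
      convert (D.reg B).algebraMap_mem (PowerSeries.constantCoeff (u : PowerSeries B)) using 1
      simp [HahnSeries.algebraMap_apply]
    exact Submodule.smul_mem _ (⟨_, hreg⟩ : D.reg B) hz

theorem IsNormalised.latMap {W : D.Lat B} (hW : W.IsNormalised) (φ : B →ₐ[k] B') :
    (D.latMap φ W).IsNormalised := by
  refine ⟨InChart.latMap hW.1 φ, ?_⟩
  have e : coeffMapₐ φ (HahnSeries.single (-(D.genus : ℤ)) (1 : B)) =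
      HahnSeries.single (-(D.genus : ℤ)) (1 : B') := by
    ext i
    rw [coeffMapₐ_coeff]
    simp [HahnSeries.coeff_single]
  rw [← e]
  exact D.coeffMapₐ_mem_latMap φ hW.2

/-- Sections of the trivial bundle. -/
theorem exists_const_of_mem_reg {x : LaurentSeries B} (hx : x ∈ D.reg B)
    (h : ∀ i : ℤ, i < 0 → x.coeff i = 0) : ∃ b : B, x = HahnSeries.C b := by
  have hone : D.monoA ⟨0, D.zero_notMem_gaps⟩ = 1 := by
    obtain ⟨r, hr⟩ := D.eq_const (D.monoA ⟨0, D.zero_notMem_gaps⟩)
      fun i hi => D.monoA_below ⟨0, D.zero_notMem_gaps⟩ i (by simpa using hi)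
    have h1 := D.monoA_coeff ⟨0, D.zero_notMem_gaps⟩
    rw [hr] at h1 ⊢
    simp [HahnSeries.algebraMap_apply, HahnSeries.C_apply] at h1
    rw [h1, map_one]
  obtain ⟨c, rfl⟩ := D.exists_regPart (m := 1) hx (fun i hi => h i (by omega))
  refine ⟨c ⟨0, D.zero_notMem_gaps⟩, ?_⟩
  rw [regPart_apply, Finset.sum_eq_single (⟨0, D.zero_notMem_gaps⟩ : D.RegIdx 1)
    (fun j _ hj => absurd (Subtype.ext (Subsingleton.elim _ _)) hj)
    (fun h => absurd (Finset.mem_univ _) h)]
  simp only [monoB, hone, map_one, Fin.val_zero]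
  ext i
  simp [HahnSeries.C_apply, HahnSeries.coeff_single, HahnSeries.coeff_one]

theorem embB_injective : Function.Injective (D.embB B) := D.embB_injective_aux

end Fermat.Agent.Jac.CurveData
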