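/-
S25, unit U3: the affine chart of normalised submodules, its coordinate ring, finiteness and smoothness.
-/
import Fermat.Agent.Jac.Lat
import Fermat.Agent.Jac.Chart.Smooth
import Mathlib.RingTheory.Smooth.Basic

set_option autoImplicit false

noncomputable section

universe u

namespace Fermat.Agent.Jac.CurveData

variable {k : Type u} [Field k] (D : CurveData k)

/-- The coordinate ring of the chart, with its universal line bundle (use explicit definitions if convenient). -/
theorem exists_chart [IsAlgClosed k] :
    ∃ (R : Type u) (_ : CommRing R) (_ : Algebra k R) (W₀ : D.Lat R),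
      Algebra.FiniteType k R ∧ Algebra.FormallySmooth k R ∧ W₀.IsNormalised ∧
      ∀ (B : Type u) [CommRing B] [Algebra k B] (W : D.Lat B), W.IsNormalised →
        ∃! φ : R →ₐ[k] B, D.latMap φ W₀ = W :=
  ⟨D.chartRing, inferInstance, inferInstance, D.univLat, inferInstance, D.formallySmooth_chartRing,
    D.isNormalised_univLat, fun _ _ _ _ hW => D.existsUnique_latMap_univLat hW⟩

end Fermat.Agent.Jac.CurveData
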