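/-
S25, the curve as glued from the punctured affine piece and an affine neighbourhood of the base point.
-/
import Fermat.Agent.Jac.Base
import Fermat.Prelude.Def_AlgebraicGeometry_RelPicardAlgEquivZeroCut

set_option autoImplicit false

noncomputable section

universe u

open CategoryTheory AlgebraicGeometry NeronModelInfra AlgebraicGeometry.RelPicard

namespace Fermat.Agent.Jac

variable (k : Type u) [Field k]

/-- The structure morphism of an affine scheme over `k`. -/
def specBase (B : Type u) [CommRing B] [Algebra k B] :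
    Spec (CommRingCat.of B) ⟶ Spec (CommRingCat.of k) :=
  Spec.map (CommRingCat.ofHom (algebraMap k B))

variable {k}

/-- The morphism over `k` given by a homomorphism of algebras. -/
def specMap {B B' : Type u} [CommRing B] [Algebra k B] [CommRing B'] [Algebra k B']
    (φ : B →ₐ[k] B') : SchemeHomOver (specBase k B') (specBase k B) :=
  ⟨Spec.map (CommRingCat.ofHom (φ : B →+* B')), by
    rw [specBase, specBase, ← Spec.map_comp, ← CommRingCat.ofHom_comp, AlgHom.comp_algebraMap]⟩

/-- Two affine pieces of a curve, with compatible expansions at the base point. -/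
structure CurveModel {C : Scheme.{u}} (c : C ⟶ Spec (CommRingCat.of k))
    (ε : SchemeHomOver (𝟙 (Spec (CommRingCat.of k))) c) : Type (u + 1) where
  D : CurveData k
  A₁ : Type u
  [commRing₁ : CommRing A₁]
  [algebra₁ : Algebra k A₁]
  [isDomain₁ : IsDomain A₁]
  [finiteType₁ : Algebra.FiniteType k A₁]
  emb₁ : A₁ →ₐ[k] PowerSeries k
  emb₁_injective : Function.Injective emb₁
  h : A₁
  coeff_zero_h : PowerSeries.constantCoeff (emb₁ h) = 0
  coeff_one_h : PowerSeries.coeff 1 (emb₁ h) = 1
  dvd_of_coeff_zero : ∀ x : A₁, PowerSeries.constantCoeff (emb₁ x) = 0 → h ∣ x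
  j₀ : Spec (CommRingCat.of D.A) ⟶ C
  j₁ : Spec (CommRingCat.of A₁) ⟶ C
  [isOpenImmersion₀ : IsOpenImmersion j₀]
  [isOpenImmersion₁ : IsOpenImmersion j₁]
  j₀_c : j₀ ≫ c = specBase k D.A
  j₁_c : j₁ ≫ c = specBase k A₁
  covers : Set.range j₀ ∪ Set.range j₁ = Set.univ
  preimage_range : j₁ ⁻¹' Set.range j₀ = (PrimeSpectrum.basicOpen h : Set (PrimeSpectrum A₁))
  agree : Spec.map (CommRingCat.ofHom (D.emb : D.A →+* LaurentSeries k)) ≫ j₀ =
    Spec.map (CommRingCat.ofHom
      ((HahnSeries.ofPowerSeries ℤ k).comp (emb₁ : A₁ →+* PowerSeries k))) ≫ j₁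
  section_eq : ε.1 =
    Spec.map (CommRingCat.ofHom ((PowerSeries.constantCoeff (R := k)).comp (emb₁ : A₁ →+* PowerSeries k))) ≫ j₁

namespace CurveModel

attribute [instance] commRing₁ algebra₁ isDomain₁ finiteType₁ isOpenImmersion₀ isOpenImmersion₁

end CurveModel

end Fermat.Agent.Jac
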