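/-
S25, unit U4: line bundles on the curve over an affine base versus invertible submodules of Laurent series.
-/
import Fermat.Agent.Jac.Dictionary.Build

set_option autoImplicit false

noncomputable section

universe u

open CategoryTheory CategoryTheory.Limits AlgebraicGeometry TopologicalSpace NeronModelInfra
  AlgebraicGeometry.RelPicard

namespace Fermat.Agent.Jac.CurveModel

variable {k : Type u} [Field k] {C : Scheme.{u}} {c : C ⟶ Spec (CommRingCat.of k)}
  {ε : SchemeHomOver (𝟙 (Spec (CommRingCat.of k))) c}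

/-- The line bundle of an invertible submodule. -/
def bundle [IsProper c] (M : CurveModel c ε) {B : Type u} [CommRing B] [Algebra k B]
    (W : M.D.Lat B) : RigidifiedLineBundle c ε (specBase k B) where
  L := (Classical.choice (M.nonempty_infData W)).cocycle.toModules
  isInvertible := Shf.Cocycle.isInvertible_toModules _
  rigidified := (Classical.choice (M.nonempty_infData W)).exists_rigid

variable [IsProper c] (M : CurveModel c ε) {B B' : Type u} [CommRing B] [Algebra k B] [CommRing B']
  [Algebra k B']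

/-- The bundle of a submodule has a frame near the section whose expansions have the same class. -/
theorem exists_frame_bundle (W : M.D.Lat B) :
    ∃ (U : (M.XB B).Opens) (e : Γ((M.bundle W).L, U)) (he : Shf.IsFrame (M.bundle W).L e)
      (hU : M.θ B ⁻¹ᵁ U = ⊤) (V : M.D.Lat B),
      (V : Submodule (M.D.reg B) (LaurentSeries B)) = M.latSub B he hU ∧ CurveData.SameClass W V := by
  set d := Classical.choice (M.nonempty_infData W) with hd
  exact ⟨d.cocycle.U none, d.cocycle.frame none, d.isFrame_inf, d.preimage_inf,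
    M.D.retrivialise B d.u⁻¹ * W, d.latSub_eq.symm, d.u⁻¹, rfl⟩

theorem bundle_iso_iff (V W : M.D.Lat B) :
    Nonempty ((M.bundle V).L ≅ (M.bundle W).L) ↔ CurveData.SameClass V W := by
  obtain ⟨U, e, he, hU, V', hV', hVV'⟩ := M.exists_frame_bundle V
  obtain ⟨U', e', he', hU', W', hW', hWW'⟩ := M.exists_frame_bundle W
  refine ⟨fun ⟨φ⟩ => ?_, fun h => ?_⟩
  · exact hVV'.trans ((M.sameClass_of_iso B φ he he' hU hU' hV' hW').trans hWW'.symm)
  · exact M.nonempty_iso_of_latSub B (M.bundle V).isInvertible (M.bundle W).isInvertible he he' hU hU'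
      hV' hW' (hVV'.symm.trans (h.trans hWW'))

theorem latSub_one (h : M.θ B ⁻¹ᵁ (⊤ : (M.XB B).Opens) = ⊤) :
    ((1 : M.D.Lat B) : Submodule (M.D.reg B) (LaurentSeries B)) =
      M.latSub B (Shf.isFrame_one (X := M.XB B) ⊤) h := by
  have hex : ∀ s : Γ(M.XB B, M.V₀ B), M.ex B (Shf.isFrame_one (X := M.XB B) ⊤) h s =
      M.D.embB B ((M.coord₀ B).symm s) := fun s => by
    rw [M.ex_eq B (Shf.isFrame_one (X := M.XB B) ⊤) h s le_rfl le_top (M.preimage_θ'_V₀ B) (f := s) (by
      change s * Shf.resO _ (1 : Γ(M.XB B, ⊤)) = Shf.resO _ s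
      rw [map_one]
      exact (mul_one _).trans (Shf.resO_self _ _).symm)]
    conv_lhs => rw [← (M.coord₀ B).apply_symm_apply s, M.evalAt_coord₀]
  refine SetLike.ext fun x => ?_
  change x ∈ (1 : Submodule (M.D.reg B) (LaurentSeries B)) ↔ _
  rw [Submodule.mem_one, mem_latSub]
  constructor
  · rintro ⟨⟨_, r, rfl⟩, rfl⟩
    exact ⟨M.coord₀ B r, (hex _).trans (by rw [RingEquiv.symm_apply_apply]; rfl)⟩
  · rintro ⟨s, rfl⟩
    exact ⟨⟨_, (M.coord₀ B).symm s, rfl⟩, (hex s).symm⟩

theorem bundle_one :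
    Nonempty ((M.bundle (1 : M.D.Lat B)).L ≅ (RigidifiedLineBundle.unit (c := c) (ε := ε) (specBase k B)).L) := by
  obtain ⟨U, e, he, hU, V, hV, hVV⟩ := M.exists_frame_bundle (1 : M.D.Lat B)
  exact M.nonempty_iso_of_latSub B (M.bundle 1).isInvertible
    (RigidifiedLineBundle.unit (c := c) (ε := ε) (specBase k B)).isInvertible he
    (Shf.isFrame_one (X := M.XB B) ⊤) hU rfl hV (M.latSub_one rfl) hVV.symm

theorem bundle_pullbackAlong (φ : B →ₐ[k] B') (W : M.D.Lat B) :
    Nonempty (((M.bundle W).pullbackAlong (specMap φ)).L ≅ (M.bundle (M.D.latMap φ W)).L) := by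
  obtain ⟨U, e, he, hU, V, hV, hVW⟩ := M.exists_frame_bundle W
  obtain ⟨U', e', he', hU', V', hV', hVW'⟩ := M.exists_frame_bundle (M.D.latMap φ W)
  exact M.nonempty_iso_of_latSub B' ((M.bundle W).pullbackAlong (specMap φ)).isInvertible
    (M.bundle (M.D.latMap φ W)).isInvertible (he.pb (M.bc φ)) he' (M.preimage_θ_bc φ hU) hU'
    (M.latSub_pb φ (M.bundle W).isInvertible he hU hV) hV' ((hVW.latMap φ).symm.trans hVW')

/-- Every line bundle comes from Laurent series locally on the base. -/
theorem exists_bundle_iso (L : RigidifiedLineBundle c ε (specBase k B)) (p : Ideal B) [p.IsPrime] :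
    ∃ f : B, f ∉ p ∧ ∃ W : M.D.Lat (Localization.Away f),
      Nonempty ((L.pullbackAlong (specMap (IsScalarTower.toAlgHom k B (Localization.Away f)))).L ≅
        (M.bundle W).L) := by
  let σ := rigSection c (specBase k B) ε
  let P : PrimeSpectrum B := ⟨p, inferInstance⟩
  obtain ⟨U, hxU, e, he⟩ := Shf.exists_frame L.isInvertible (σ P)
  let O : TopologicalSpace.Opens (PrimeSpectrum B) := σ ⁻¹ᵁ U
  obtain ⟨_, ⟨_, ⟨f, rfl⟩, rfl⟩, hPf, hfU⟩ :=
    (PrimeSpectrum.isBasis_basic_opens (R := B)).exists_subset_of_mem_open (a := P)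
      (u := (O : Set (PrimeSpectrum B))) hxU O.2
  refine ⟨f, hPf, ?_⟩
  set φ := IsScalarTower.toAlgHom k B (Localization.Away f)
  have hσ : rigSection c (specBase k (Localization.Away f)) ε ⁻¹ᵁ (M.bc φ ⁻¹ᵁ U) = ⊤ := by
    rw [← Scheme.Hom.comp_preimage, rigSection_baseChangeSnd, Scheme.Hom.comp_preimage]
    refine top_le_iff.mp fun q _ => ?_
    refine hfU ?_
    change algebraMap B (Localization.Away f) f ∉ (q : PrimeSpectrum (Localization.Away f)).asIdeal
    exact fun h => (q : PrimeSpectrum (Localization.Away f)).isPrime.ne_top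
      (Ideal.eq_top_of_isUnit_mem _ h (IsLocalization.Away.algebraMap_isUnit f))
  have hθ := M.preimage_θ_eq_top (Localization.Away f) hσ
  obtain ⟨W, hW⟩ := M.exists_lat (Localization.Away f)
    (L.pullbackAlong (specMap φ)).isInvertible (he.pb (M.bc φ)) hθ
  obtain ⟨U', e', he', hU', W', hW', hWW'⟩ := M.exists_frame_bundle W
  exact ⟨W, M.nonempty_iso_of_latSub (Localization.Away f) (L.pullbackAlong (specMap φ)).isInvertible
    (M.bundle W).isInvertible (he.pb (M.bc φ)) he' hθ hU' hW hW' hWW'⟩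

end Fermat.Agent.Jac.CurveModel
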