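/-
S25 U5: rigidified line bundles of degree zero on every geometric fibre, and the data of a Jacobian.
-/
import Fermat.Agent.Jac.Dictionary
import Fermat.Prelude.Def_AlgebraicGeometry_RepresentsRelSubPic

set_option autoImplicit false

noncomputable section

universe u

open CategoryTheory CategoryTheory.Limits AlgebraicGeometry NeronModelInfra AlgebraicGeometry.RelPicard
  GoodReductionJacobian

namespace Fermat.Agent.Jac.CurveModel

variable {k : Type u} [Field k] {C : Scheme.{u}} {c : C ⟶ Spec (CommRingCat.of k)}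
  {ε : SchemeHomOver (𝟙 (Spec (CommRingCat.of k))) c} [IsProper c]

/-- Degree zero on every geometric fibre, read off in Laurent series. -/
def DegFibrewise (M : CurveModel c ε) {T : Scheme.{u}} {t : T ⟶ Spec (CommRingCat.of k)}
    (L : RigidifiedLineBundle c ε t) : Prop :=
  ∀ (K : Type u) [Field K] [IsAlgClosed K] [Algebra k K] (s : SchemeHomOver (specBase k K) t)
    (W : M.D.Lat K), Nonempty ((L.pullbackAlong s).L ≅ (M.bundle W).L) → W.DegZero

theorem DegFibrewise.congr {M : CurveModel c ε} {T : Scheme.{u}} {t : T ⟶ Spec (CommRingCat.of k)}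
    {L L' : RigidifiedLineBundle c ε t} (hL : M.DegFibrewise L) (h : Nonempty (L.L ≅ L'.L)) :
    M.DegFibrewise L' :=
  fun K _ _ _ s W hW => hL K s W
    ⟨(RigidifiedLineBundle.pullbackAlong_congr s h).some ≪≫ hW.some⟩

theorem DegFibrewise.pullback {M : CurveModel c ε} {T T' : Scheme.{u}}
    {t : T ⟶ Spec (CommRingCat.of k)} {t' : T' ⟶ Spec (CommRingCat.of k)}
    {L : RigidifiedLineBundle c ε t} (hL : M.DegFibrewise L) (ψ : SchemeHomOver t' t) :
    M.DegFibrewise (L.pullbackAlong ψ) :=
  fun K _ _ _ s W hW => hL K (postComp ψ s) W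
    ⟨(Scheme.Modules.pullbackCongr (baseChangeSnd_comp c ψ s).symm).app L.L ≪≫
      ((Scheme.Modules.pullbackComp _ _).app L.L).symm ≪≫ hW.some⟩

/-- A scheme representing the rigidified bundles of degree zero. -/
structure PicData (M : CurveModel c ε) : Type (u + 1) where
  D : RelativePic0Designation k c
  P : RigidifiedLineBundle c ε D.toBase
  degFibrewise : M.DegFibrewise P
  univ : ∀ {T : Scheme.{u}} (t : T ⟶ Spec (CommRingCat.of k)) (L : RigidifiedLineBundle c ε t),
    M.DegFibrewise L → ∃! g : SchemeHomOver t D.toBase, Nonempty ((P.pullbackAlong g).L ≅ L.L)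
  zero : Nonempty ((P.pullbackAlong ⟨D.zeroSection, D.zeroSection_toBase⟩).L ≅
    (RigidifiedLineBundle.unit (c := c) (ε := ε) (𝟙 _)).L)

end Fermat.Agent.Jac.CurveModel
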