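/-
S25, unit U4b: functions on the curve over an arbitrary base, rigidified bundles glue.
-/
import Fermat.Agent.Jac.Global.Const
import Fermat.Agent.Jac.Global.Rig

set_option autoImplicit false

noncomputable section

universe u

open CategoryTheory CategoryTheory.Limits AlgebraicGeometry NeronModelInfra AlgebraicGeometry.RelPicard

namespace Fermat.Agent.Jac

namespace Shf

variable {X : Scheme.{u}} {L L' : X.Modules}

theorem frames_ofHom (φ : L ≅ L') (V : X.Opens) : (LocHom.ofHom φ.hom V).Frames :=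
  fun _ _ _ he => he.map φ

theorem isFrame_unit_of_isUnit {U : X.Opens} {a : Γ(X, U)} (ha : IsUnit a) :
    IsFrame (SheafOfModules.unit X.ringCatSheaf : X.Modules) (U := U) a := by
  have h := (isFrame_one (X := X) U).smul_unit ha
  let one' : Γ(X, U) := 1
  change IsFrame (SheafOfModules.unit X.ringCatSheaf : X.Modules) (U := U) (a * one') at h
  rw [show a * one' = a from mul_one a] at h
  exact h

/-- An isomorphism after pullback along an open immersion, as a morphism over its image. -/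
theorem exists_locHom_self {Z : Scheme.{u}} (G : Z ⟶ X) [IsOpenImmersion G]
    (φ : (Scheme.Modules.pullback G).obj L ≅ (Scheme.Modules.pullback G).obj L') {V : X.Opens}
    (hV : V ≤ G.opensRange) : ∃ Φ : LocHom L L' V, Φ.Frames := by
  obtain ⟨Φ, hΦ⟩ := exists_locHom G G (𝟙 X) (𝟙 X) rfl L L' φ
    (by simpa only [Category.comp_id] using hV)
  exact ⟨((LocHom.ofHom ((Scheme.Modules.pushforwardId X).app L).symm.hom V).comp Φ).comp
    (LocHom.ofHom ((Scheme.Modules.pushforwardId X).app L').hom V),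
    ((frames_ofHom _ V).comp hΦ).comp (frames_ofHom _ V)⟩

end Shf

namespace CurveModel

variable {k : Type u} [Field k] {C : Scheme.{u}} {c : C ⟶ Spec (CommRingCat.of k)}
  {ε : SchemeHomOver (𝟙 (Spec (CommRingCat.of k))) c}
variable [IsProper c] (M : CurveModel c ε)

include M in
/-- A function equal to one along the section is one. -/
theorem eq_one_of_rigSection {T : Scheme.{u}} (t : T ⟶ Spec (CommRingCat.of k)) (U : T.Opens)
    (a : Γ(pullback c t, pullback.snd c t ⁻¹ᵁ U))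
    (h : (rigSection c t ε).appLE (pullback.snd c t ⁻¹ᵁ U) U
      (by rw [← Scheme.Hom.comp_preimage, rigSection, pullback.lift_snd]; exact le_rfl) a = 1) :
    a = 1 :=
  M.eq_one_of_section t U a h

include M in
theorem rigid_rigSection {T : Scheme.{u}} (t : T ⟶ Spec (CommRingCat.of k)) :
    Shf.Rig.Rigid (rigSection c t ε) (pullback.snd c t) :=
  fun U _ a h => M.eq_one_of_section t U a h

omit [IsProper c] in
theorem rigSection_snd {T : Scheme.{u}} (t : T ⟶ Spec (CommRingCat.of k)) :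
    rigSection c t ε ≫ pullback.snd c t = 𝟙 T :=
  pullback.lift_snd _ _ _

include M in
/-- An invertible module is locally rigidified. -/
theorem exists_rigidified {T : Scheme.{u}} (t : T ⟶ Spec (CommRingCat.of k))
    {L : (pullback c t).Modules} (hL : Scheme.Modules.IsInvertible L) (x : T) :
    ∃ U : T.Opens, x ∈ U ∧
      Nonempty ((Scheme.Modules.pullback (U.ι ≫ rigSection c t ε)).obj L ≅
        SheafOfModules.unit U.toScheme.ringCatSheaf) := by
  obtain ⟨W, hxW, e, he⟩ := Shf.exists_frame hL (rigSection c t ε x)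
  refine ⟨rigSection c t ε ⁻¹ᵁ W, hxW, ?_⟩
  let g := (rigSection c t ε ⁻¹ᵁ W).ι ≫ rigSection c t ε
  obtain ⟨φ, -⟩ := Shf.nonempty_iso_of_frames
    (N := (SheafOfModules.unit (rigSection c t ε ⁻¹ᵁ W).toScheme.ringCatSheaf :
      (rigSection c t ε ⁻¹ᵁ W).toScheme.Modules))
    (U := fun _ : Unit => g ⁻¹ᵁ W) (fun y => ⟨(), y.2⟩)
    (fun _ => he.pb g) (fun _ => Shf.isFrame_one _)
    (fun i j r hr => by
      have h1 : (1 : Γ((rigSection c t ε ⁻¹ᵁ W).toScheme, g ⁻¹ᵁ W ⊓ g ⁻¹ᵁ W)) = r :=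
        ((he.pb g).res inf_le_right).smul_cancel le_rfl (by simpa using hr)
      subst h1
      change _ = (1 : Γ((rigSection c t ε ⁻¹ᵁ W).toScheme, _)) * _
      rw [one_mul])
  exact ⟨φ⟩

include M in
/-- Rigidified bundles isomorphic locally on the base are isomorphic. -/
theorem iso_of_locally {T : Scheme.{u}} (t : T ⟶ Spec (CommRingCat.of k))
    (L L' : RigidifiedLineBundle c ε t)
    (h : ∀ x : T, ∃ U : T.Opens, x ∈ U ∧
      Nonempty ((L.pullbackAlong (⟨U.ι, rfl⟩ : SchemeHomOver (U.ι ≫ t) t)).L ≅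
        (L'.pullbackAlong (⟨U.ι, rfl⟩ : SchemeHomOver (U.ι ≫ t) t)).L)) :
    Nonempty (L.L ≅ L'.L) := by
  choose U hxU hiso using h
  have hσ := rigSection_snd (ε := ε) (c := c) t
  let R := fun x : T => Shf.Rig.ofIso (pr := pullback.snd c t) L.isInvertible L.rigidified.some (U x)
  let R' := fun x : T => Shf.Rig.ofIso (pr := pullback.snd c t) L'.isInvertible L'.rigidified.some (U x)
  have hloc : ∀ x : T, ∃ ψ : Shf.LocHom L.L L'.L (pullback.snd c t ⁻¹ᵁ U x),
      ψ.Frames ∧ Shf.Rig.Normalised (R x) (R' x) ψ := fun x => by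
    let s : SchemeHomOver ((U x).ι ≫ t) t := ⟨(U x).ι, rfl⟩
    haveI : IsOpenImmersion s.1 := inferInstanceAs (IsOpenImmersion (U x).ι)
    obtain ⟨Φ, hΦ⟩ := Shf.exists_locHom_self (baseChangeSnd c s) (hiso x).some
      (V := pullback.snd c t ⁻¹ᵁ U x)
      (le_of_eq (by rw [opensRange_baseChangeSnd, show s.1.opensRange = U x from Scheme.Opens.opensRange_ι _]))
    exact Shf.Rig.exists_normalised hσ (R x) (R' x) Φ hΦ
  choose ψ hψ nψ using hloc
  choose W hpW hW e he using fun p : (pullback c t : Scheme.{u}) =>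
    (R (pullback.snd c t p)).exists_frame p (hxU _)
  obtain ⟨φ, -⟩ := Shf.nonempty_iso_of_frames (M := L.L) (N := L'.L) (U := W)
    (fun p => ⟨p, hpW p⟩) he (fun p => hψ _ _ (hW p) _ (he p)) fun p q r hr => by
      set a := pullback.snd c t p
      set b := pullback.snd c t q
      have hab : W p ⊓ W q ≤ pullback.snd c t ⁻¹ᵁ (U a ⊓ U b) :=
        fun y hy => ⟨hW p hy.1, hW q hy.2⟩
      have key := Shf.Rig.Normalised.app_eq hσ (M.rigid_rigSection t)
        ((hψ b).restrict ((pullback.snd c t).preimage_mono (inf_le_right : U a ⊓ U b ≤ U b)))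
        ((nψ a).restrict (inf_le_left : U a ⊓ U b ≤ U a))
        ((nψ b).restrict (inf_le_right : U a ⊓ U b ≤ U b)) (W p ⊓ W q) hab
        (Shf.resM L.L inf_le_left (e p))
      rw [(ψ a).res _ _ (hW p) inf_le_left, (ψ b).res _ _ (hW q) inf_le_right]
      refine key.trans ?_
      change (ψ b).app _ _ (Shf.resM L.L inf_le_left (e p)) = _
      rw [hr, (ψ b).smul]
  exact ⟨φ⟩

include M in
/-- Rigidified bundles glue along open covers of the base. -/
theorem exists_glue {T : Scheme.{u}} (t : T ⟶ Spec (CommRingCat.of k)) {ι : Type u}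
    (U : ι → T.Opens) (hU : ∀ x : T, ∃ i, x ∈ U i)
    (L : ∀ i, RigidifiedLineBundle c ε ((U i).ι ≫ t))
    (hL : ∀ i j, Nonempty
      (((L i).pullbackAlong (⟨T.homOfLE inf_le_left, by rw [← Category.assoc, Scheme.homOfLE_ι]⟩ :
          SchemeHomOver ((U i ⊓ U j).ι ≫ t) ((U i).ι ≫ t))).L ≅
        ((L j).pullbackAlong (⟨T.homOfLE inf_le_right, by rw [← Category.assoc, Scheme.homOfLE_ι]⟩ :
          SchemeHomOver ((U i ⊓ U j).ι ≫ t) ((U j).ι ≫ t))).L)) :
    ∃ L₀ : RigidifiedLineBundle c ε t, ∀ i,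
      Nonempty ((L₀.pullbackAlong (⟨(U i).ι, rfl⟩ : SchemeHomOver ((U i).ι ≫ t) t)).L ≅ (L i).L) := by
  set pr := pullback.snd c t with hpr
  have hσ : rigSection c t ε ≫ pr = 𝟙 T := rigSection_snd t
  let s : ∀ V : T.Opens, SchemeHomOver (V.ι ≫ t) t := fun V => ⟨V.ι, rfl⟩
  haveI hs : ∀ V, IsOpenImmersion (s V).1 := fun V => inferInstanceAs (IsOpenImmersion V.ι)
  let F : ∀ V : T.Opens, pullback c (V.ι ≫ t) ⟶ pullback c t := fun V => baseChangeSnd c (s V)
  haveI hF : ∀ V, IsOpenImmersion (F V) := fun V =>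
    inferInstanceAs (IsOpenImmersion (baseChangeSnd c (s V)))
  have hrange : ∀ V, (F V).opensRange = pr ⁻¹ᵁ V := fun V => by
    rw [opensRange_baseChangeSnd, show (s V).1.opensRange = V from Scheme.Opens.opensRange_ι _]
  let P := fun i => (Scheme.Modules.pushforward (F (U i))).obj (L i).L
  have hR : ∀ i, Nonempty (Shf.Rig (rigSection c t ε) pr (P i) (U i)) := fun i =>
    Shf.Rig.nonempty_pushforward hσ (F (U i)) (U i).ι (rigSection c ((U i).ι ≫ t) ε)
      (rigSection_baseChangeSnd c ε (s (U i))) (Scheme.Opens.opensRange_ι _).ge (hrange _).ge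
      (L i).isInvertible (L i).rigidified.some
  let R := fun i => (hR i).some
  have hloc : ∀ i j, ∃ ψ : Shf.LocHom (P i) (P j) (pr ⁻¹ᵁ (U i ⊓ U j)),
      ψ.Frames ∧ Shf.Rig.Normalised ((R i).restrict inf_le_left) ((R j).restrict inf_le_right) ψ := by
    intro i j
    let a : SchemeHomOver ((U i ⊓ U j).ι ≫ t) ((U i).ι ≫ t) :=
      ⟨T.homOfLE inf_le_left, by rw [← Category.assoc, Scheme.homOfLE_ι]⟩
    let b : SchemeHomOver ((U i ⊓ U j).ι ≫ t) ((U j).ι ≫ t) :=
      ⟨T.homOfLE inf_le_right, by rw [← Category.assoc, Scheme.homOfLE_ι]⟩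
    haveI : IsOpenImmersion a.1 :=
      inferInstanceAs (IsOpenImmersion (T.homOfLE (inf_le_left : U i ⊓ U j ≤ U i)))
    haveI : IsOpenImmersion b.1 :=
      inferInstanceAs (IsOpenImmersion (T.homOfLE (inf_le_right : U i ⊓ U j ≤ U j)))
    have ha : baseChangeSnd c a ≫ F (U i) = F (U i ⊓ U j) :=
      (baseChangeSnd_comp c (s (U i)) a).trans
        (congrArg (baseChangeSnd c) (Subtype.ext (Scheme.homOfLE_ι T (inf_le_left : U i ⊓ U j ≤ U i))))
    have hb : baseChangeSnd c b ≫ F (U j) = F (U i ⊓ U j) :=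
      (baseChangeSnd_comp c (s (U j)) b).trans
        (congrArg (baseChangeSnd c) (Subtype.ext (Scheme.homOfLE_ι T (inf_le_right : U i ⊓ U j ≤ U j))))
    obtain ⟨Φ, hΦ⟩ := Shf.exists_locHom (baseChangeSnd c a) (baseChangeSnd c b) (F (U i)) (F (U j))
      (ha.trans hb.symm) (L i).L (L j).L (hL i j).some (V := pr ⁻¹ᵁ (U i ⊓ U j))
      (fun x hx => by
        obtain ⟨z, hz⟩ := (hrange (U i ⊓ U j)).ge hx
        exact ⟨z, (congr(($ha) z)).trans hz⟩)
    exact Shf.Rig.exists_normalised hσ _ _ Φ hΦ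
  choose ψ hψ nψ using hloc
  have hrig := M.rigid_rigSection t
  have hle2 : ∀ {i j : ι} {W : (pullback c t).Opens}, W ≤ pr ⁻¹ᵁ U i → W ≤ pr ⁻¹ᵁ U j →
      W ≤ pr ⁻¹ᵁ (U i ⊓ U j) := fun hi hj y hy => ⟨hi hy, hj hy⟩
  have hself : ∀ i W (hi : W ≤ pr ⁻¹ᵁ U i) (x : Γ(P i, W)), (ψ i i).app W (hle2 hi hi) x = x :=
    fun i W hi x => Shf.Rig.Normalised.app_eq hσ hrig Shf.LocHom.frames_id (nψ i i)
      (Shf.Rig.normalised_id _) W (hle2 hi hi) x
  have htriple : ∀ i j l W (hi : W ≤ pr ⁻¹ᵁ U i) (hj : W ≤ pr ⁻¹ᵁ U j) (hl : W ≤ pr ⁻¹ᵁ U l)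
      (x : Γ(P i, W)),
      (ψ j l).app W (hle2 hj hl) ((ψ i j).app W (hle2 hi hj) x) = (ψ i l).app W (hle2 hi hl) x := by
    intro i j l W hi hj hl x
    have h1 : U i ⊓ U j ⊓ U l ≤ U i ⊓ U j := inf_le_left
    have h2 : U i ⊓ U j ⊓ U l ≤ U j ⊓ U l := le_inf (inf_le_left.trans inf_le_right) inf_le_right
    have h3 : U i ⊓ U j ⊓ U l ≤ U i ⊓ U l := le_inf (inf_le_left.trans inf_le_left) inf_le_right
    exact Shf.Rig.Normalised.app_eq hσ hrig
      (φ := ((ψ i j).restrict (pr.preimage_mono h1)).comp ((ψ j l).restrict (pr.preimage_mono h2)))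
      (ψ := (ψ i l).restrict (pr.preimage_mono h3))
      ((hψ i l).restrict (pr.preimage_mono h3))
      (((nψ i j).restrict h1).comp ((nψ j l).restrict h2)) ((nψ i l).restrict h3)
      W (fun y hy => ⟨⟨hi hy, hj hy⟩, hl hy⟩) x
  let idx : ↥(pullback c t) → ι := fun p => (hU (pr p)).choose
  choose W hpW hW e he using fun p : (pullback c t : Scheme.{u}) =>
    (R (idx p)).exists_frame p (hU (pr p)).choose_spec
  let g : ∀ p q, Γ(pullback c t, W p ⊓ W q) := fun p q =>
    (he q).coeff inf_le_right ((ψ (idx p) (idx q)).app (W p ⊓ W q)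
      (hle2 (inf_le_left.trans (hW p)) (inf_le_right.trans (hW q)))
      (Shf.resM (P (idx p)) inf_le_left (e p)))
  have hg : ∀ p q V (hp : V ≤ W p) (hq : V ≤ W q),
      (ψ (idx p) (idx q)).app V (hle2 (hp.trans (hW p)) (hq.trans (hW q)))
          (Shf.resM (P (idx p)) hp (e p)) =
        Shf.resO (le_inf hp hq) (g p q) • Shf.resM (P (idx q)) hq (e q) := fun p q V hp hq => by
    have h1 := congrArg (Shf.resM (P (idx q)) (le_inf hp hq)) ((he q).coeff_spec
      (inf_le_right : W p ⊓ W q ≤ W q) ((ψ (idx p) (idx q)).app (W p ⊓ W q)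
        (hle2 (inf_le_left.trans (hW p)) (inf_le_right.trans (hW q)))
        (Shf.resM (P (idx p)) inf_le_left (e p))))
    rw [Shf.resM_smul, Shf.resM_resM,
      (ψ (idx p) (idx q)).res (W p ⊓ W q) V
        (hle2 (inf_le_left.trans (hW p)) (inf_le_right.trans (hW q))) (le_inf hp hq),
      Shf.resM_resM] at h1
    exact h1.symm
  let cc : Shf.Cocycle (pullback c t) :=
    { ι := (pullback c t : Scheme.{u})
      U := W
      covers := fun p => ⟨p, hpW p⟩
      g := g
      g_self := fun p => (he p).coeff_eq _ (by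
        rw [hself _ _ (inf_le_left.trans (hW p)), one_smul])
      g_mul := fun p q l => by
        have hp : W p ⊓ W q ⊓ W l ≤ W p := inf_le_left.trans inf_le_left
        have hq : W p ⊓ W q ⊓ W l ≤ W q := inf_le_left.trans inf_le_right
        have hl : W p ⊓ W q ⊓ W l ≤ W l := inf_le_right
        have h1 := htriple (idx p) (idx q) (idx l) _ (hp.trans (hW p)) (hq.trans (hW q))
          (hl.trans (hW l)) (Shf.resM (P (idx p)) hp (e p))
        rw [hg p q _ hp hq, (ψ (idx q) (idx l)).smul, hg q l _ hq hl, hg p l _ hp hl, ← mul_smul]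
          at h1
        exact (he l).smul_cancel hl h1 }
  obtain ⟨ρ, -⟩ := Shf.nonempty_iso_of_frames
    (M := (Scheme.Modules.pullback (rigSection c t ε)).obj cc.toModules)
    (N := (SheafOfModules.unit T.ringCatSheaf : T.Modules))
    (U := fun p => rigSection c t ε ⁻¹ᵁ W p) (fun y => ⟨rigSection c t ε y, hpW _⟩)
    (fun p => (cc.isFrame_frame p).pb (rigSection c t ε))
    (fun p => Shf.isFrame_unit_of_isUnit ((R (idx p)).isUnit _ (hW p) _ (he p)))
    fun p q r hr => by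
      have h1 := congrArg (Shf.pb (rigSection c t ε) cc.toModules _) (cc.frame_rel p q)
      rw [Shf.pb_smul, ← Shf.resM_pb, ← Shf.resM_pb] at h1
      have hr' := ((cc.isFrame_frame q).pb (rigSection c t ε)).smul_cancel _ (h1.symm.trans hr)
      rw [← hr']
      let x₁ : Γ(T, rigSection c t ε ⁻¹ᵁ (W p ⊓ W q)) :=
        Shf.resO ((rigSection c t ε).preimage_mono inf_le_left) ((R (idx p)).val _ (hW p) (e p))
      let x₂ : Γ(T, rigSection c t ε ⁻¹ᵁ (W p ⊓ W q)) :=
        Shf.resO ((rigSection c t ε).preimage_mono inf_le_right) ((R (idx q)).val _ (hW q) (e q))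
      let x₃ : Γ(T, rigSection c t ε ⁻¹ᵁ (W p ⊓ W q)) := (rigSection c t ε).app _ (g p q)
      change x₁ = x₃ * x₂
      dsimp only [x₁, x₂, x₃]
      rw [(R (idx p)).res _ _ (hW p) inf_le_left, (R (idx q)).res _ _ (hW q) inf_le_right,
        ← (R (idx q)).smul]
      refine (nψ (idx p) (idx q) (W p ⊓ W q)
        (hle2 (inf_le_left.trans (hW p)) (inf_le_right.trans (hW q))) _).symm.trans ?_
      rw [hg p q _ inf_le_left inf_le_right, Shf.resO_self]
      rfl
  refine ⟨⟨cc.toModules, cc.isInvertible_toModules, ⟨ρ⟩⟩, fun i => ?_⟩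
  have hV : ∀ p, W p ⊓ pr ⁻¹ᵁ U i ≤ (F (U i)).opensRange := fun p => inf_le_right.trans (hrange _).ge
  obtain ⟨φ, -⟩ := Shf.nonempty_iso_of_frames
    (M := (Scheme.Modules.pullback (F (U i))).obj cc.toModules) (N := (L i).L)
    (U := fun p => F (U i) ⁻¹ᵁ (W p ⊓ pr ⁻¹ᵁ U i))
    (fun y => ⟨F (U i) y, hpW _, (hrange (U i)).le ⟨y, rfl⟩⟩)
    (fun p => ((cc.isFrame_frame p).res (inf_le_left : W p ⊓ pr ⁻¹ᵁ U i ≤ W p)).pb (F (U i)))
    (fun p => (Shf.isFrame_pushforward_iff (F (U i)) (L i).L (hV p) _).mp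
      (hψ (idx p) i _ (hle2 (inf_le_left.trans (hW p)) inf_le_right) _
        ((he p).res (inf_le_left : W p ⊓ pr ⁻¹ᵁ U i ≤ W p))))
    fun p q r hr => by
      set Vp := W p ⊓ pr ⁻¹ᵁ U i
      set Vq := W q ⊓ pr ⁻¹ᵁ U i
      have hp : Vp ⊓ Vq ≤ W p := inf_le_left.trans inf_le_left
      have hq : Vp ⊓ Vq ≤ W q := inf_le_right.trans inf_le_left
      have hi : Vp ⊓ Vq ≤ pr ⁻¹ᵁ U i := inf_le_left.trans inf_le_right
      have h1 := congrArg (fun z => Shf.pb (F (U i)) cc.toModules _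
        (Shf.resM cc.toModules (le_inf hp hq) z)) (cc.frame_rel p q)
      simp only [Shf.resM_smul, Shf.resM_resM] at h1
      rw [Shf.pb_smul, ← Shf.resM_resM cc.toModules (inf_le_left : Vp ≤ W p) inf_le_left,
        ← Shf.resM_resM cc.toModules (inf_le_left : Vq ≤ W q) inf_le_right,
        ← Shf.resM_pb (F (U i)) cc.toModules (inf_le_left : Vp ⊓ Vq ≤ Vp),
        ← Shf.resM_pb (F (U i)) cc.toModules (inf_le_right : Vp ⊓ Vq ≤ Vq)] at h1
      have hr' := (((cc.isFrame_frame q).res inf_le_left).pb (F (U i))).smul_cancel _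
        (h1.symm.trans hr)
      rw [← hr']
      change Shf.resM (P i) (inf_le_left : Vp ⊓ Vq ≤ Vp) _ =
        Shf.resO (le_inf hp hq) (g p q) • Shf.resM (P i) (inf_le_right : Vp ⊓ Vq ≤ Vq) _
      rw [(ψ (idx p) i).res _ _ _ inf_le_left, (ψ (idx q) i).res _ _ _ inf_le_right, Shf.resM_resM,
        Shf.resM_resM, ← htriple (idx p) (idx q) i _ (hp.trans (hW p)) (hq.trans (hW q)) hi,
        hg p q _ hp hq, (ψ (idx q) i).smul]
  exact ⟨φ⟩

end CurveModel

end Fermat.Agent.Jac
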