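/-
S25 U5b: algebraic equivalence to zero on the fibres is degree zero.
-/
import Fermat.Agent.Jac.Deg0
import Fermat.Agent.Jac.Global
import Fermat.Prelude.Def_AlgebraicGeometry_RelPicardAlgEquivZeroCut

set_option autoImplicit false
set_option linter.style.haveILetI false
set_option linter.unusedSimpArgs false
set_option linter.unusedSectionVars false

noncomputable section

universe u

open CategoryTheory CategoryTheory.Limits AlgebraicGeometry NeronModelInfra AlgebraicGeometry.RelPicard
  GoodReductionJacobian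

namespace Fermat.Agent.Jac.CurveModel

variable {k : Type u} [Field k] {C : Scheme.{u}} {c : C ⟶ Spec (CommRingCat.of k)}
  {ε : SchemeHomOver (𝟙 (Spec (CommRingCat.of k))) c} [IsProper c]

/-- Pullback along a composite. -/
def pullbackIsoOfEq {X Y Z : Scheme.{u}} {f : X ⟶ Y} {g : Y ⟶ Z} {h : X ⟶ Z} (w : f ≫ g = h)
    (N : Z.Modules) :
    (Scheme.Modules.pullback f).obj ((Scheme.Modules.pullback g).obj N) ≅
      (Scheme.Modules.pullback h).obj N :=
  (Scheme.Modules.pullbackComp f g).app N ≪≫ (Scheme.Modules.pullbackCongr w).app N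

/-- The first projection after a base change. -/
@[reassoc]
theorem baseChangeSnd_fst {R : Type u} [CommRing R] {A T T' : Scheme.{u}}
    (a : A ⟶ Spec (CommRingCat.of R)) {t : T ⟶ Spec (CommRingCat.of R)}
    {t' : T' ⟶ Spec (CommRingCat.of R)} (s : SchemeHomOver t' t) :
    baseChangeSnd a s ≫ pullback.fst a t = pullback.fst a t' :=
  (pullback.lift_fst _ _ _).trans (Category.comp_id _)

/-- The second projection after a base change. -/
@[reassoc]
theorem baseChangeSnd_snd {R : Type u} [CommRing R] {A T T' : Scheme.{u}}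
    (a : A ⟶ Spec (CommRingCat.of R)) {t : T ⟶ Spec (CommRingCat.of R)}
    {t' : T' ⟶ Spec (CommRingCat.of R)} (s : SchemeHomOver t' t) :
    baseChangeSnd a s ≫ pullback.snd a t = pullback.snd a t' ≫ s.1 :=
  pullback.lift_snd _ _ _

/-- A morphism from an affine scheme makes the ring an algebra. -/
theorem exists_algebra_of_hom {B : Type u} [CommRing B]
    (f : Spec (CommRingCat.of B) ⟶ Spec (CommRingCat.of k)) :
    ∃ _ : Algebra k B, specBase k B = f := by
  letI : Algebra k B := (Spec.preimage f).hom.toAlgebra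
  exact ⟨this, by rw [specBase]; exact Spec.map_preimage f⟩

/-- A point lying in an affine open piece comes from a homomorphism of algebras. -/
theorem exists_algHom_of_range_subset {T : Scheme.{u}} {t : T ⟶ Spec (CommRingCat.of k)}
    {B B' : Type u} [CommRing B] [Algebra k B] [CommRing B'] [Algebra k B']
    (j : SchemeHomOver (specBase k B) t) [IsOpenImmersion j.1] (P : SchemeHomOver (specBase k B') t)
    (h : Set.range P.1 ⊆ Set.range j.1) :
    ∃ φ : B →ₐ[k] B', postComp j (specMap φ) = P := by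
  obtain ⟨g, hg⟩ := Spec.map_surjective (IsOpenImmersion.lift j.1 P.1 h)
  have hP : Spec.map g ≫ j.1 = P.1 := by rw [hg]; exact IsOpenImmersion.lift_fac _ _ _
  have hk : CommRingCat.ofHom (algebraMap k B) ≫ g = CommRingCat.ofHom (algebraMap k B') := by
    apply Spec.map_injective
    rw [Spec.map_comp, ← specBase.eq_def k B', ← P.2, ← hP, Category.assoc, j.2]
    rfl
  refine ⟨{ toRingHom := g.hom, commutes' := fun r => ?_ }, Subtype.ext ?_⟩
  · exact congrArg (fun e => e.hom r) hk
  · exact hP

/-- Near every point of an integral base a line bundle on the curve is given by Laurent series. -/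
theorem exists_latticeChart (M : CurveModel c ε) {T : Scheme.{u}} [IsIntegral T]
    (t : T ⟶ Spec (CommRingCat.of k)) {N : (pullback c t).Modules}
    (hN : Scheme.Modules.IsInvertible N) (x : T) :
    ∃ (B : Type u) (_ : CommRing B) (_ : IsDomain B) (_ : Algebra k B)
      (j : SchemeHomOver (specBase k B) t), IsOpenImmersion j.1 ∧ x ∈ Set.range j.1 ∧
      ∃ W : M.D.Lat B,
        Nonempty ((Scheme.Modules.pullback (baseChangeSnd c j)).obj N ≅ (M.bundle W).L) := by
  obtain ⟨U, hxU, ⟨eU⟩⟩ := M.exists_rigidified t hN x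
  obtain ⟨V, hV, hxV, hVU⟩ := exists_isAffineOpen_mem_and_subset hxU
  haveI : Nonempty V := ⟨⟨x, hxV⟩⟩
  obtain ⟨hA, hbase⟩ := exists_algebra_of_hom (B := Γ(T, V)) (hV.fromSpec ≫ t)
  let j : SchemeHomOver (specBase k Γ(T, V)) t := ⟨hV.fromSpec, hbase.symm⟩
  have hle : V ≤ U := hVU
  let i : Spec (CommRingCat.of Γ(T, V)) ⟶ U.toScheme := hV.isoSpec.inv ≫ T.homOfLE hle
  have hi : i ≫ U.ι = j.1 :=
    (Category.assoc _ _ _).trans (congrArg (hV.isoSpec.inv ≫ ·) (T.homOfLE_ι hle))
  let L : RigidifiedLineBundle c ε (specBase k Γ(T, V)) :=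
    { L := (Scheme.Modules.pullback (baseChangeSnd c j)).obj N
      isInvertible := hN.pullback _
      rigidified := ⟨pullbackIsoOfEq (h := i ≫ U.ι ≫ rigSection c t ε)
          (by rw [rigSection_baseChangeSnd, ← hi, Category.assoc]) N ≪≫
        (pullbackIsoOfEq rfl N).symm ≪≫ (Scheme.Modules.pullback i).mapIso eU ≪≫
        Scheme.Modules.pullbackUnitIso i⟩ }
  obtain ⟨f, hf, W, ⟨eW⟩⟩ := M.exists_bundle_iso L (hV.primeIdealOf ⟨x, hxV⟩).asIdeal
  have hf0 : f ≠ 0 := fun h => hf (h ▸ Ideal.zero_mem _)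
  haveI : IsDomain (Localization.Away f) :=
    IsLocalization.isDomain_localization (powers_le_nonZeroDivisors_of_noZeroDivisors hf0)
  haveI ho : IsOpenImmersion (specMap (k := k)
      (IsScalarTower.toAlgHom k Γ(T, V) (Localization.Away f))).1 :=
    IsOpenImmersion.of_isLocalization f
  refine ⟨Localization.Away f, inferInstance, inferInstance, inferInstance,
    postComp j (specMap (IsScalarTower.toAlgHom k Γ(T, V) (Localization.Away f))), ?_, ?_, W, ⟨?_⟩⟩
  · exact @IsOpenImmersion.comp _ _ _ _ _ ho (inferInstanceAs (IsOpenImmersion hV.fromSpec))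
  · have hp : hV.primeIdealOf ⟨x, hxV⟩ ∈
        Set.range (PrimeSpectrum.comap (algebraMap Γ(T, V) (Localization.Away f))) := by
      rw [PrimeSpectrum.localization_away_comap_range (Localization.Away f) f]
      exact hf
    obtain ⟨q, hq⟩ := hp
    refine ⟨q, ?_⟩
    exact (congrArg (fun z => hV.fromSpec z) hq).trans (hV.fromSpec_primeIdealOf ⟨x, hxV⟩)
  · exact (pullbackIsoOfEq (baseChangeSnd_comp c j _) N).symm ≪≫ eW

/-- The value of a chart at a point. -/
theorem bundle_at_point (M : CurveModel c ε) {T : Scheme.{u}} {t : T ⟶ Spec (CommRingCat.of k)}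
    {N : (pullback c t).Modules} {B B' : Type u} [CommRing B] [Algebra k B] [CommRing B']
    [Algebra k B'] (j : SchemeHomOver (specBase k B) t) (W : M.D.Lat B)
    (e : Nonempty ((Scheme.Modules.pullback (baseChangeSnd c j)).obj N ≅ (M.bundle W).L))
    (φ : B →ₐ[k] B') (P : SchemeHomOver (specBase k B') t) (hP : postComp j (specMap φ) = P) :
    Nonempty ((Scheme.Modules.pullback (baseChangeSnd c P)).obj N ≅
      (M.bundle (M.D.latMap φ W)).L) :=
  ⟨(pullbackIsoOfEq (by rw [baseChangeSnd_comp, hP]) N).symm ≪≫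
    (Scheme.Modules.pullback (baseChangeSnd c (specMap φ))).mapIso e.some ≪≫
    (M.bundle_pullbackAlong φ W).some⟩

/-- In an integral family the degree does not jump between points. -/
theorem degZero_of_family (M : CurveModel c ε) {T : Scheme.{u}} [IsIntegral T]
    {t : T ⟶ Spec (CommRingCat.of k)} {N : (pullback c t).Modules}
    (hN : Scheme.Modules.IsInvertible N) {K : Type u} [Field K] [Algebra k K]
    (P₀ P₁ : SchemeHomOver (specBase k K) t) {W₀ W₁ : M.D.Lat K} (h₀ : W₀.DegZero)
    (e₀ : Nonempty ((Scheme.Modules.pullback (baseChangeSnd c P₀)).obj N ≅ (M.bundle W₀).L))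
    (e₁ : Nonempty ((Scheme.Modules.pullback (baseChangeSnd c P₁)).obj N ≅ (M.bundle W₁).L)) :
    W₁.DegZero := by
  obtain ⟨pt⟩ : Nonempty (Spec (CommRingCat.of K)) := ⟨⟨⊥, Ideal.isPrime_bot⟩⟩
  obtain ⟨B, _, _, _, j, hj, hx, W, eW⟩ := M.exists_latticeChart t hN (P₀.1 pt)
  obtain ⟨B', _, _, _, j', hj', hx', W', eW'⟩ := M.exists_latticeChart t hN (P₁.1 pt)
  have range_le : ∀ (P : SchemeHomOver (specBase k K) t) (S : Set T), P.1 pt ∈ S →
      Set.range P.1 ⊆ S := by
    rintro P S hS _ ⟨q, rfl⟩
    rwa [Subsingleton.elim q pt]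
  obtain ⟨φ₀, hφ₀⟩ := exists_algHom_of_range_subset j P₀ (range_le P₀ _ hx)
  obtain ⟨φ₁, hφ₁⟩ := exists_algHom_of_range_subset j' P₁ (range_le P₁ _ hx')
  have hW : W.DegZero := by
    refine CurveData.degZero_of_point W φ₀ (CurveData.DegZero.of_sameClass h₀ ?_)
    exact (M.bundle_iso_iff _ _).mp
      ⟨e₀.some.symm ≪≫ (M.bundle_at_point j W eW φ₀ P₀ hφ₀).some⟩
  obtain ⟨y, ⟨q, hq⟩, hy'⟩ : (Set.range j.1 ∩ Set.range j'.1).Nonempty :=
    nonempty_preirreducible_inter hj.base_open.isOpen_range hj'.base_open.isOpen_range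
      ⟨_, hx⟩ ⟨_, hx'⟩
  haveI : q.asIdeal.IsPrime := q.isPrime
  obtain ⟨K', _, _, ψ₀, hψ⟩ := CurveData.exists_point_of_prime (k := k) q.asIdeal
  let Q : SchemeHomOver (specBase k K') t := postComp j (specMap ψ₀)
  have hQ : Set.range Q.1 ⊆ Set.range j'.1 := by
    rintro _ ⟨z, rfl⟩
    have hz : (Spec.map (CommRingCat.ofHom (ψ₀ : B →+* K'))) z = q := by
      apply PrimeSpectrum.ext
      show Ideal.comap (ψ₀ : B →+* K') z.asIdeal = q.asIdeal
      rw [← hψ, (Ideal.eq_bot_or_top z.asIdeal).resolve_right z.isPrime.ne_top]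
      rfl
    show j.1 ((Spec.map (CommRingCat.ofHom (ψ₀ : B →+* K'))) z) ∈ Set.range j'.1
    rw [hz, hq]
    exact hy'
  have hψ₀ : postComp j (specMap ψ₀) = Q := rfl
  obtain ⟨ψ₁, hψ₁⟩ := exists_algHom_of_range_subset j' Q hQ
  have hW' : W'.DegZero := by
    refine CurveData.degZero_of_point W' ψ₁
      (CurveData.DegZero.of_sameClass (CurveData.DegZero.latMap hW ψ₀) ?_)
    exact (M.bundle_iso_iff _ _).mp
      ⟨(M.bundle_at_point j W eW ψ₀ Q hψ₀).some.symm ≪≫
        (M.bundle_at_point j' W' eW' ψ₁ Q hψ₁).some⟩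
  refine CurveData.DegZero.of_sameClass (CurveData.DegZero.latMap hW' φ₁) ((M.bundle_iso_iff _ _).mp ?_)
  exact ⟨(M.bundle_at_point j' W' eW' φ₁ P₁ hφ₁).some.symm ≪≫ e₁.some⟩

/-- A bundle algebraically equivalent to zero has degree zero. -/
theorem degZero_of_isAlgEquivZero (M : CurveModel c ε) {K : Type u} [Field K] [Algebra k K]
    (W : M.D.Lat K) (hW : IsAlgEquivZero (pullback.snd c (specBase k K)) (M.bundle W).L) :
    W.DegZero := by
  obtain ⟨T', h, hft, hgi, N, hN, t₀, t₁, ⟨e₀⟩, ⟨e₁⟩⟩ := hW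
  haveI : IsIntegral T' := GeometricallyIntegral.isIntegral_of_subsingleton h
  let d : pullback c (specBase k K) ⟶ pullback (pullback.snd c (specBase k K)) (𝟙 (Spec (CommRingCat.of K))) :=
    pullback.lift (𝟙 _) (pullback.snd c (specBase k K)) (by rw [Category.id_comp, Category.comp_id])
  let q : pullback c (h ≫ (specBase k K)) ⟶ pullback (pullback.snd c (specBase k K)) h :=
    pullback.lift (baseChangeSnd c (⟨h, rfl⟩ : SchemeHomOver (h ≫ (specBase k K)) (specBase k K)))
      (pullback.snd c (h ≫ (specBase k K))) (by exact baseChangeSnd_snd _ _)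
  let P : SchemeHomOver (𝟙 (Spec (CommRingCat.of K))) h → SchemeHomOver (specBase k K) (h ≫ (specBase k K)) := fun s =>
    ⟨s.1, by rw [← Category.assoc, s.2, Category.id_comp]⟩
  have hP : ∀ s, baseChangeSnd c (P s) ≫ q = d ≫ baseChangeSnd (pullback.snd c (specBase k K)) s := by
    intro s
    apply pullback.hom_ext
    · apply pullback.hom_ext
      · simp [pullback.lift_fst, pullback.lift_fst_assoc, pullback.lift_snd, pullback.lift_snd_assoc,
          baseChangeSnd_fst, baseChangeSnd_fst_assoc, baseChangeSnd_snd,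
          baseChangeSnd_snd_assoc, q, d, P]
      · simp [pullback.lift_fst, pullback.lift_fst_assoc, pullback.lift_snd, pullback.lift_snd_assoc,
          baseChangeSnd_fst, baseChangeSnd_fst_assoc, baseChangeSnd_snd,
          baseChangeSnd_snd_assoc, q, d, P, s.2]
    · simp [pullback.lift_fst, pullback.lift_fst_assoc, pullback.lift_snd, pullback.lift_snd_assoc,
          baseChangeSnd_fst, baseChangeSnd_fst_assoc, baseChangeSnd_snd,
          baseChangeSnd_snd_assoc, q, d, P]
  let e : ∀ s, (Scheme.Modules.pullback (baseChangeSnd c (P s))).obj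
      ((Scheme.Modules.pullback q).obj N) ≅
      (Scheme.Modules.pullback d).obj
        ((Scheme.Modules.pullback (baseChangeSnd (pullback.snd c (specBase k K)) s)).obj N) := fun s =>
    pullbackIsoOfEq (hP s) N ≪≫ (pullbackIsoOfEq rfl N).symm
  refine M.degZero_of_family (hN.pullback q) (P t₀) (P t₁) (W₀ := 1) CurveData.degZero_one
    ⟨?_⟩ ⟨?_⟩
  · exact e t₀ ≪≫ (Scheme.Modules.pullback d).mapIso e₀ ≪≫ Scheme.Modules.pullbackUnitIso d ≪≫
      (M.bundle_one).some.symm
  · exact e t₁ ≪≫ (Scheme.Modules.pullback d).mapIso e₁ ≪≫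
      pullbackIsoOfEq (pullback.lift_fst _ _ _) _ ≪≫ (Scheme.Modules.pullbackId _).app _

variable [IsAlgClosed k]

theorem degFibrewise_of_fibrewiseAlgEquivZero (M : CurveModel c ε) {T : Scheme.{u}}
    {t : T ⟶ Spec (CommRingCat.of k)} (L : RigidifiedLineBundle c ε t)
    (hL : FibrewiseAlgEquivZero L) : M.DegFibrewise L := by
  intro K _ _ _ s W hW
  refine M.degZero_of_isAlgEquivZero W ?_
  let e : pullback c (specBase k K) ⟶ pullback (pullback.snd c t) s.1 :=
    pullback.lift (baseChangeSnd c s) (pullback.snd c (specBase k K))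
      (by exact baseChangeSnd_snd _ _)
  refine IsAlgEquivZero.of_iso (pullbackIsoOfEq (pullback.lift_fst _ _ _) L.L ≪≫ hW.some)
    ((hL K s.1).pullback e (pullback.lift_snd _ _ _))

/-- A bundle of degree zero over a field is connected to the trivial one through the Jacobian. -/
theorem isAlgEquivZero_of_degFibrewise {M : CurveModel c ε} (J : M.PicData)
    [LocallyOfFiniteType J.D.toBase] [GeometricallyIntegral J.D.toBase] {K : Type u} [Field K]
    [Algebra k K] (L : RigidifiedLineBundle c ε (specBase k K)) (hL : M.DegFibrewise L) :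
    IsAlgEquivZero (pullback.snd c (specBase k K)) L.L := by
  obtain ⟨g, ⟨eg⟩, -⟩ := J.univ _ L hL
  let h : pullback J.D.toBase (specBase k K) ⟶ Spec (CommRingCat.of K) := pullback.snd _ _
  let sec : SchemeHomOver (specBase k K) J.D.toBase → SchemeHomOver (𝟙 (Spec (CommRingCat.of K))) h := fun s =>
    ⟨pullback.lift s.1 (𝟙 _) (by rw [s.2, Category.id_comp]), pullback.lift_snd _ _ _⟩
  let r : pullback (pullback.snd c (specBase k K)) h ⟶ pullback c J.D.toBase :=
    pullback.lift (pullback.fst _ _ ≫ pullback.fst c (specBase k K)) (pullback.snd _ _ ≫ pullback.fst _ _) (by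
      rw [Category.assoc, Category.assoc, pullback.condition, pullback.condition (f := J.D.toBase),
        pullback.condition_assoc])
  have hr : ∀ s, baseChangeSnd (pullback.snd c (specBase k K)) (sec s) ≫ r =
      pullback.fst (pullback.snd c (specBase k K)) (𝟙 (Spec (CommRingCat.of K))) ≫ baseChangeSnd c s := by
    intro s
    apply pullback.hom_ext
    · simp [pullback.lift_fst, pullback.lift_fst_assoc, pullback.lift_snd, pullback.lift_snd_assoc,
          baseChangeSnd_fst, baseChangeSnd_fst_assoc, baseChangeSnd_snd,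
          baseChangeSnd_snd_assoc, r, sec]
    · simp [pullback.lift_fst, pullback.lift_fst_assoc, pullback.lift_snd, pullback.lift_snd_assoc,
          baseChangeSnd_fst, baseChangeSnd_fst_assoc, baseChangeSnd_snd,
          baseChangeSnd_snd_assoc, r, sec, pullback.condition_assoc]
  let e : ∀ s, (Scheme.Modules.pullback (baseChangeSnd (pullback.snd c (specBase k K)) (sec s))).obj
      ((Scheme.Modules.pullback r).obj J.P.L) ≅
      (Scheme.Modules.pullback (pullback.fst (pullback.snd c (specBase k K)) (𝟙 _))).obj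
        (J.P.pullbackAlong s).L := fun s =>
    pullbackIsoOfEq (hr s) J.P.L ≪≫ (pullbackIsoOfEq rfl J.P.L).symm
  let z : SchemeHomOver (𝟙 (Spec (CommRingCat.of k))) J.D.toBase :=
    ⟨J.D.zeroSection, J.D.zeroSection_toBase⟩
  let σ' : SchemeHomOver (specBase k K) (𝟙 (Spec (CommRingCat.of k))) := ⟨(specBase k K), Category.comp_id _⟩
  let e₀ : (J.P.pullbackAlong (postComp z σ')).L ≅
      SheafOfModules.unit (pullback c (specBase k K)).ringCatSheaf :=
    (pullbackIsoOfEq (baseChangeSnd_comp c z σ') J.P.L).symm ≪≫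
      (Scheme.Modules.pullback (baseChangeSnd c σ')).mapIso J.zero.some ≪≫
      Scheme.Modules.pullbackUnitIso _
  exact ⟨pullback J.D.toBase (specBase k K), h, inferInstance, inferInstance,
    (Scheme.Modules.pullback r).obj J.P.L, J.P.isInvertible.pullback r,
    sec (postComp z σ'), sec g,
    ⟨e _ ≪≫ (Scheme.Modules.pullback _).mapIso e₀ ≪≫ Scheme.Modules.pullbackUnitIso _⟩,
    ⟨e g ≪≫ (Scheme.Modules.pullback _).mapIso eg⟩⟩

theorem fibrewiseAlgEquivZero_of_degFibrewise {M : CurveModel c ε} (J : M.PicData)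
    [LocallyOfFiniteType J.D.toBase] [GeometricallyIntegral J.D.toBase] {T : Scheme.{u}}
    {t : T ⟶ Spec (CommRingCat.of k)} (L : RigidifiedLineBundle c ε t)
    (hL : M.DegFibrewise L) : FibrewiseAlgEquivZero L := by
  intro K _ _ s
  obtain ⟨hA, hbase⟩ := exists_algebra_of_hom (B := K) (s ≫ t)
  let s' : SchemeHomOver (specBase k K) t := ⟨s, hbase.symm⟩
  have h := isAlgEquivZero_of_degFibrewise J (L.pullbackAlong s') (hL.pullback s')
  let e : pullback (pullback.snd c t) s ⟶ pullback c (specBase k K) :=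
    pullback.lift (pullback.fst _ _ ≫ pullback.fst c t) (pullback.snd _ _)
      (by rw [hbase, Category.assoc, pullback.condition, pullback.condition_assoc])
  refine IsAlgEquivZero.of_iso (pullbackIsoOfEq ?_ L.L) (h.pullback e (pullback.lift_snd _ _ _))
  apply pullback.hom_ext
  · simp [e, s', pullback.lift_fst, pullback.lift_snd, baseChangeSnd_fst, baseChangeSnd_snd]
  · simp [e, s', pullback.lift_fst, pullback.lift_fst_assoc, pullback.lift_snd, pullback.lift_snd_assoc,
          baseChangeSnd_fst, baseChangeSnd_fst_assoc, baseChangeSnd_snd,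
          baseChangeSnd_snd_assoc, pullback.condition]

end Fermat.Agent.Jac.CurveModel
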