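/-
S25, unit U1: the two affine pieces of a proper smooth integral curve.
-/
import Fermat.Agent.Jac.Model
import Fermat.Agent.Jac.FromCurve.Punct
import Fermat.Agent.Jac.FromCurve.Expansion

set_option autoImplicit false

noncomputable section

universe u

open CategoryTheory AlgebraicGeometry NeronModelInfra AlgebraicCurve

namespace Fermat.Agent.Jac

open FromCurve Fermat.Agent.AbVar.Sch Fermat.Agent.MCurve

variable {k : Type u} [Field k] {C : Scheme.{u}} [AlgebraicGeometry.IsIntegral C]
  (c : C ⟶ Spec (CommRingCat.of k))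

theorem exists_place_section [IsAlgClosed k] [IsProper c] [SmoothOfRelativeDimension 1 c]
    (ε : SchemeHomOver (𝟙 (Spec (CommRingCat.of k))) c) :
    ∃ v₀ : Place k (FunField c), center c v₀ = ε.1 (IsLocalRing.closedPoint k) := by
  obtain ⟨x, hx⟩ := exists_isFinOver c
  obtain ⟨-, -, ⟨v⟩⟩ := RR.curve_props hx
  refine exists_center c _ fun hgen => center_ne_generic c v ?_
  haveI : IsClosedImmersion (ε.1 ≫ c) := by rw [ε.2]; infer_instance
  haveI : IsClosedImmersion ε.1 := IsClosedImmersion.of_comp ε.1 c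
  have hcl : IsClosed (Set.range ε.1) := ε.1.isClosedEmbedding.isClosed_range
  have hmem : center c v ∈ closure {genericPoint C} := by
    rw [(genericPoint_spec C).def]; trivial
  obtain ⟨p, hp⟩ := closure_minimal
    (Set.singleton_subset_iff.mpr (show genericPoint C ∈ Set.range ε.1 from ⟨_, hgen⟩)) hcl hmem
  rw [← hp, ← hgen]
  exact congrArg _ (Subsingleton.elim (α := PrimeSpectrum k) _ _)

theorem exists_curveModel (k : Type u) [Field k] [IsAlgClosed k] {C : Scheme.{u}}
    (c : C ⟶ Spec (CommRingCat.of k)) [IsProper c] [SmoothOfRelativeDimension 1 c] [IsIntegral C]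
    (ε : SchemeHomOver (𝟙 (Spec (CommRingCat.of k))) c) : Nonempty (CurveModel c ε) := by
  classical
  obtain ⟨x, hx⟩ := exists_isFinOver c
  obtain ⟨hP, hF, hne⟩ := RR.curve_props hx
  obtain ⟨g, N, hR⟩ := RR.exists_isRiemann hx
  obtain ⟨v₀, hv₀⟩ := exists_place_section c ε
  obtain ⟨π, hπ0, hπ⟩ := exists_ord_eq_one v₀
  -- the punctured curve
  let W : C.Opens := ⟨{center c v₀}ᶜ, (isClosed_center c v₀).isOpen_compl⟩
  have hWgen : genericPoint C ∈ W := (center_ne_generic c v₀).symm
  have hWmem : ∀ w, center c w ∈ W ↔ w ≠ v₀ := fun w => (center_injective c).ne_iff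
  let ch₀ : Chart C := ⟨W, isAffineOpen_punct c v₀ W rfl, hWgen⟩
  letI : Algebra k Γ(C, ch₀.U) := (chartHom c ch₀.U).toAlgebra
  haveI : Algebra.FiniteType k Γ(C, ch₀.U) := finiteType_chart c ch₀
  haveI := ch₀.isDomain
  haveI := isDedekindDomain_chart c ch₀
  have hreg : ∀ (a : Γ(C, ch₀.U)) w, w ≠ v₀ → germF c ch₀ a ∈ w.toValuationSubring :=
    fun a w hw => (center_spec c ((hWmem w).mpr hw)).1 a
  -- the neighbourhood of the point
  set T := ((RR.finite_ord_ne_zero hx hπ0).toFinset.erase v₀).image (center c) with hTdef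
  have hTcl : IsClosed (T : Set C) := by
    rw [← Set.biUnion_of_singleton (T : Set C)]
    refine T.finite_toSet.isClosed_biUnion fun y hy => ?_
    obtain ⟨w, -, rfl⟩ := Finset.mem_image.mp hy
    exact isClosed_center c w
  obtain ⟨ch₁, hch₁, hle₁⟩ := exists_chart_mem (x := center c v₀)
    (W := (⟨(T : Set C)ᶜ, hTcl.isOpen_compl⟩ : C.Opens)) (fun hmem => by
      obtain ⟨w, hw, he⟩ := Finset.mem_image.mp (Finset.mem_coe.mp hmem)
      exact Finset.ne_of_mem_erase hw (center_injective c he))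
  have hordπ : ∀ w, center c w ∈ ch₁.U → w ≠ v₀ → w.ord π = 0 := fun w hw hw0 => by
    by_contra hne'
    exact hle₁ hw (Finset.mem_coe.mpr (Finset.mem_image_of_mem _
      (Finset.mem_erase.mpr ⟨hw0, (Set.Finite.mem_toFinset _).mpr hne'⟩)))
  letI : Algebra k Γ(C, ch₁.U) := (chartHom c ch₁.U).toAlgebra
  haveI : Algebra.FiniteType k Γ(C, ch₁.U) := finiteType_chart c ch₁
  haveI := ch₁.isDomain
  obtain ⟨h, hh⟩ := exists_germF_eq c ch₁ (f := π) fun w hw => by
    refine (mem_iff_ord_nonneg w hπ0).mpr ?_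
    by_cases hw0 : w = v₀
    · subst hw0; omega
    · rw [hordπ w hw hw0]
  let θ : Γ(C, ch₁.U) →ₐ[k] v₀.toValuationSubring :=
    { (germF c ch₁).codRestrict _ (center_spec c hch₁).1 with
      commutes' := fun r => Subtype.ext (germF_chartHom c ch₁ r) }
  have hθ : ∀ a, ((θ a : v₀.toValuationSubring) : FunField c) = germF c ch₁ a := fun a => rfl
  let emb₁ : Γ(C, ch₁.U) →ₐ[k] PowerSeries k := (taylor v₀ hπ).comp θ
  let emb : Γ(C, ch₀.U) →ₐ[k] LaurentSeries k :=
    (laurent v₀ hπ).comp { germF c ch₀ with commutes' := germF_chartHom c ch₀ }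
  have hemb : ∀ a, emb a = laurent v₀ hπ (germF c ch₀ a) := fun a => rfl
  have hθh : θ h = unif v₀ hπ := Subtype.ext (by rw [hθ, hh]; rfl)
  -- the prime of the point
  have hP₁ : ∀ a, a ∈ (ch₁.affine.primeIdealOf ⟨_, hch₁⟩).asIdeal ↔
      PowerSeries.constantCoeff (emb₁ a) = 0 := fun a => by
    rw [(center_spec c hch₁).2, ← hθ, ValuationSubring.coe_mem_nonunits_iff,
      IsLocalRing.mem_maximalIdeal, mem_nonunits_iff]
    show _ ↔ PowerSeries.constantCoeff (taylor v₀ hπ (θ a)) = 0
    rw [← unif_dvd_iff_constantCoeff]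
    constructor
    · intro hu
      rcases eq_or_ne (θ a) 0 with h0 | h0
      · rw [h0]; exact dvd_zero _
      have h1 : v₀.ord ((θ a : v₀.toValuationSubring) : FunField c) ≠ 0 := fun e => hu
        (isUnit_iff_exists_inv.mpr ⟨⟨_, (mem_iff_ord_nonneg v₀
          (inv_ne_zero fun z => h0 (Subtype.ext z))).mpr (by rw [v₀.ord_inv]; omega)⟩,
          Subtype.ext (mul_inv_cancel₀ fun z => h0 (Subtype.ext z))⟩)
      have := ord_nonneg_of_mem' v₀ (θ a).2
      rw [← pow_one (unif v₀ hπ), unif_dvd_iff v₀ hπ 1 h0]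
      omega
    · rintro ⟨e, he⟩ hu
      rw [he, IsUnit.mul_iff] at hu
      have := (unif_dvd_iff v₀ hπ 1 (f := 1) one_ne_zero).mp (by simpa using hu.1.dvd)
      simp at this
  let Pr : ℕ → Prop := fun n =>
    ∃ a : Γ(C, ch₀.U), (emb a).coeff (-n : ℤ) = 1 ∧ ∀ i : ℤ, i < -n → (emb a).coeff i = 0
  have hscale : ∀ (a : Γ(C, ch₀.U)) (n : ℕ), (∀ i : ℤ, i < -n → (emb a).coeff i = 0) →
      (emb a).coeff (-n : ℤ) ≠ 0 → Pr n := fun a n hz hne' =>
    ⟨((emb a).coeff (-n : ℤ))⁻¹ • a,
      by rw [map_smul, HahnSeries.coeff_smul, smul_eq_mul, inv_mul_cancel₀ hne'],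
      fun i hi => by rw [map_smul, HahnSeries.coeff_smul, hz i hi, smul_zero]⟩
  refine ⟨{
    D :=
    { A := Γ(C, ch₀.U)
      emb := emb
      emb_injective := (laurent v₀ hπ).toRingHom.injective.comp (germF_injective c ch₀)
      gaps := (Finset.range (N + 1)).filter fun n => ¬ Pr n
      exists_monic := fun n hn => ?_
      coeff_gap := fun a n hn hz => by
        by_contra hne'
        exact (Finset.mem_filter.mp hn).2 (hscale a n hz hne')
      eq_const := fun a ha => ?_ }
    A₁ := Γ(C, ch₁.U)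
    emb₁ := emb₁
    emb₁_injective := (taylor_injective v₀ hπ).comp fun a b hab =>
      germF_injective c ch₁ (congrArg Subtype.val hab)
    h := h
    coeff_zero_h := by
      show PowerSeries.constantCoeff (taylor v₀ hπ (θ h)) = 0
      rw [hθh, taylor_unif, PowerSeries.constantCoeff_X]
    coeff_one_h := by
      show PowerSeries.coeff 1 (taylor v₀ hπ (θ h)) = 1
      rw [hθh, taylor_unif, PowerSeries.coeff_one_X]
    dvd_of_coeff_zero := fun b hb => ?_
    j₀ := ch₀.affine.fromSpec
    j₁ := ch₁.affine.fromSpec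
    isOpenImmersion₀ := ch₀.affine.isOpenImmersion_fromSpec
    isOpenImmersion₁ := ch₁.affine.isOpenImmersion_fromSpec
    j₀_c := fromSpec_comp c ch₀.affine
    j₁_c := fromSpec_comp c ch₁.affine
    covers := ?_
    preimage_range := ?_
    agree := ?_
    section_eq := ?_ }⟩
  · by_contra hcon
    have hn' : N + 1 ≤ n := by
      by_contra hle
      exact hn (Finset.mem_filter.mpr ⟨Finset.mem_range.mpr (by omega), hcon⟩)
    obtain ⟨f, hf, hf0, hfv⟩ := hR.exists_ord_eq (D := Finsupp.single v₀ (n : ℤ))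
      (by rw [Divisor.degree_single, RR.deg_one]; push_cast; omega) v₀
    rw [Finsupp.single_eq_same] at hfv
    obtain ⟨a, ha⟩ := exists_germF_eq c ch₀ (f := f) fun w hw => by
      have := (RR.mem_space_iff.mp hf).resolve_left hf0 w
      rw [Finsupp.single_eq_of_ne ((hWmem w).mp hw)] at this
      exact (mem_iff_ord_nonneg w hf0).mpr (by omega)
    obtain ⟨h1, h2⟩ := coeff_laurent v₀ hπ hf0
    rw [hfv] at h1 h2
    exact hcon (hscale a n (fun i hi => by rw [hemb, ha]; exact h1 i hi) (by rw [hemb, ha]; exact h2))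
  · rcases eq_or_ne (germF c ch₀ a) 0 with h0 | h0
    · exact ⟨0, by rw [map_zero]; exact germF_injective c ch₀ (h0.trans (map_zero _).symm)⟩
    have hord : 0 ≤ v₀.ord (germF c ch₀ a) := by
      by_contra hlt
      exact (coeff_laurent v₀ hπ h0).2 (ha _ (not_le.mp hlt))
    obtain ⟨r, hr⟩ := RR.exists_const_of_regular hx (RR.mem_space_iff.mpr (Or.inr fun w => by
      rw [Finsupp.zero_apply, neg_zero]
      by_cases hw : w = v₀
      · rw [hw]; exact hord
      · exact ord_nonneg_of_mem' w (hreg a w hw)))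
    exact ⟨r, germF_injective c ch₀ (hr.symm.trans (germF_chartHom c ch₀ r).symm)⟩
  · rw [← hP₁, (center_spec c hch₁).2, mem_nonunits_iff_ord c] at hb
    rcases hb with h0 | hpos
    · exact ⟨0, by rw [mul_zero]; exact germF_injective c ch₁ (h0.trans (map_zero _).symm)⟩
    have hb0 : germF c ch₁ b ≠ 0 := fun e => by rw [e] at hpos; simp at hpos
    obtain ⟨e, he⟩ := exists_germF_eq c ch₁ (f := germF c ch₁ b / π) fun w hw => by
      refine (mem_iff_ord_nonneg w (div_ne_zero hb0 hπ0)).mpr ?_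
      rw [div_eq_mul_inv, w.ord_mul hb0 (inv_ne_zero hπ0), w.ord_inv]
      by_cases hw0 : w = v₀
      · subst hw0; omega
      · have := hordπ w hw hw0
        have := ord_nonneg_of_mem' w ((center_spec c hw).1 b)
        omega
    exact ⟨e, germF_injective c ch₁ (by rw [map_mul, hh, he, mul_div_cancel₀ _ hπ0])⟩
  · rw [ch₀.affine.range_fromSpec, ch₁.affine.range_fromSpec]
    refine Set.eq_univ_of_forall fun y => ?_
    by_cases hy : y = center c v₀
    · subst hy; exact Or.inr hch₁
    · exact Or.inl hy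
  · rw [ch₀.affine.range_fromSpec]
    ext p
    have hpU : ch₁.affine.fromSpec p ∈ ch₁.U := by
      rw [← SetLike.mem_coe, ← ch₁.affine.range_fromSpec]; exact ⟨p, rfl⟩
    have hp : ch₁.affine.primeIdealOf ⟨_, hpU⟩ = p := by
      have := ch₁.affine.isOpenImmersion_fromSpec
      exact ch₁.affine.fromSpec.isOpenEmbedding.injective
        (ch₁.affine.fromSpec_primeIdealOf ⟨_, hpU⟩)
    show ch₁.affine.fromSpec p ≠ center c v₀ ↔ h ∉ p.asIdeal
    constructor
    · intro hy hhp
      haveI := p.isPrime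
      have hh0 : h ≠ 0 := fun e => hπ0 (by rw [← hh, e, map_zero])
      obtain ⟨w, hw, hwp⟩ := exists_center_of_prime c ch₁ p.asIdeal
        fun e => hh0 (Ideal.mem_bot.mp (e ▸ hhp))
      refine hy ?_
      have hwv : w = v₀ := by
        by_contra hwv
        rw [← hwp, (center_spec c hw).2, hh, mem_nonunits_iff_ord c] at hhp
        have := hordπ w hw hwv
        rcases hhp with e | e
        · exact hπ0 e
        · omega
      subst hwv
      have := congrArg ch₁.affine.fromSpec (PrimeSpectrum.ext hwp)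
      rw [ch₁.affine.fromSpec_primeIdealOf] at this
      exact this.symm
    · intro hhp hy
      refine hhp ?_
      rw [← hp]
      have e : (⟨_, hpU⟩ : ch₁.U) = ⟨center c v₀, hch₁⟩ := Subtype.ext hy
      rw [e, (center_spec c hch₁).2, hh, mem_nonunits_iff_ord c]
      exact Or.inr (by omega)
  · have e₀ : (emb : Γ(C, ch₀.U) →+* LaurentSeries k) =
        (laurent v₀ hπ).toRingHom.comp (germF c ch₀) := rfl
    have e₁ : (HahnSeries.ofPowerSeries ℤ k).comp (emb₁ : Γ(C, ch₁.U) →+* PowerSeries k) =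
        (laurent v₀ hπ).toRingHom.comp (germF c ch₁) :=
      RingHom.ext fun a => (laurent_coe v₀ hπ (θ a)).symm
    show Spec.map (CommRingCat.ofHom (emb : Γ(C, ch₀.U) →+* LaurentSeries k)) ≫ ch₀.affine.fromSpec =
      Spec.map (CommRingCat.ofHom ((HahnSeries.ofPowerSeries ℤ k).comp
        (emb₁ : Γ(C, ch₁.U) →+* PowerSeries k))) ≫ ch₁.affine.fromSpec
    rw [e₀, e₁, ← specMap_ofHom_comp, ← specMap_ofHom_comp, Category.assoc, Category.assoc,
      fromSpecStalk_eq, fromSpecStalk_eq]
  · obtain ⟨χ, hχ⟩ := exists_chartHom ch₁.affine ε.1 (fun y hy => by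
      obtain ⟨p, rfl⟩ := hy
      rw [show p = IsLocalRing.closedPoint k from Subsingleton.elim (α := PrimeSpectrum k) _ _,
        ← hv₀]
      exact hch₁)
    have hid : specK (RingHom.id k) = 𝟙 (Spec (CommRingCat.of k)) := by
      show Spec.map (CommRingCat.ofHom (RingHom.id k)) = _
      rw [CommRingCat.ofHom_id, Spec.map_id]
    have hχk : χ.comp (chartHom c ch₁.U) = RingHom.id k :=
      chartHom_of_comp c ch₁.affine χ ⟨ε.1, by rw [ε.2, hid]⟩ hχ
    have hker : ∀ a, a ∈ (ch₁.affine.primeIdealOf ⟨_, hch₁⟩).asIdeal ↔ χ a = 0 := fun a => by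
      have e : ch₁.affine.primeIdealOf ⟨_, hch₁⟩ =
          Spec.map (CommRingCat.ofHom χ) (IsLocalRing.closedPoint k) := by
        have := ch₁.affine.isOpenImmersion_fromSpec
        refine ch₁.affine.fromSpec.isOpenEmbedding.injective ?_
        rw [ch₁.affine.fromSpec_primeIdealOf]
        exact hv₀.trans (congrArg (fun m : Spec (CommRingCat.of k) ⟶ C =>
          m (IsLocalRing.closedPoint k)) hχ).symm
      rw [e]
      show χ a ∈ IsLocalRing.maximalIdeal k ↔ _
      rw [IsLocalRing.mem_maximalIdeal, mem_nonunits_iff, isUnit_iff_ne_zero, not_not]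
    rw [← hχ]
    refine congrArg (fun m => Spec.map (CommRingCat.ofHom m) ≫ ch₁.affine.fromSpec)
      (RingHom.ext fun a => ?_)
    show χ a = PowerSeries.constantCoeff (emb₁ a)
    set r := PowerSeries.constantCoeff (emb₁ a)
    have hr : PowerSeries.constantCoeff (emb₁ (a - algebraMap k Γ(C, ch₁.U) r)) = 0 := by
      rw [map_sub, map_sub, AlgHom.commutes, PowerSeries.algebraMap_eq,
        PowerSeries.constantCoeff_C, sub_self]
    rw [← hP₁, hker, map_sub, sub_eq_zero] at hr
    exact hr.trans (RingHom.congr_fun hχk r)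

end Fermat.Agent.Jac
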