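/-
S25, unit U6a: classes of points, effective representatives, the finite covering by translates of the chart.
-/
import Fermat.Agent.Jac.Lat
import Fermat.Agent.Jac.Points.Effective

set_option autoImplicit false
set_option linter.style.haveILetI false
set_option linter.unusedSectionVars false


noncomputable section

universe u

open TensorProduct

namespace Fermat.Agent.Jac.CurveData

variable {k : Type u} [Field k] {D : CurveData k}
variable {B B' : Type u} [CommRing B] [Algebra k B] [CommRing B'] [Algebra k B']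

/-- The class of a point minus the base point, inverted. -/
def pointClass [IsAlgClosed k] (σ : D.A →ₐ[k] B) : D.Lat B :=
  D.principal B (xPow B 1) * (isUnit_pointKer σ).unit

theorem latMap_pointClass [IsAlgClosed k] (σ : D.A →ₐ[k] B) (φ : B →ₐ[k] B') :
    D.latMap φ (pointClass σ) = pointClass (φ.comp σ) := by
  rw [pointClass, pointClass, map_mul, latMap_principal]
  congr 1
  · congr 1
    refine Units.ext ?_
    show coeffMapₐ φ (HahnSeries.single (1 : ℤ) (1 : B)) = HahnSeries.single (1 : ℤ) (1 : B')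
    ext i
    simp only [coeffMapₐ_coeff, HahnSeries.coeff_single]
    split_ifs <;> simp
  · exact Units.ext (mapSub_pointKer σ φ)

theorem hasDeg_pointClass [IsAlgClosed k] {K : Type u} [Field K] [Algebra k K] (σ : D.A →ₐ[k] K) :
    HasDeg (pointClass σ) 0 := by
  have h := ((hasDeg_one (D := D) (K := K)).pointKer_mul σ).principal_mul (xPow K 1)
  rw [mul_one, show (0 : ℤ) - 1 + (xPow K 1).1.order = 0 by
    rw [show (xPow K 1).1 = HahnSeries.single (1 : ℤ) (1 : K) from rfl,
      HahnSeries.order_single one_ne_zero]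
    rfl] at h
  exact h

theorem degZero_pointClass [IsAlgClosed k] (σ : D.A →ₐ[k] B) : (pointClass σ).DegZero :=
  degZero_of_hasDeg fun L _ _ φ => by
    rw [latMap_pointClass]
    exact hasDeg_pointClass _

theorem degZero_prod_pointClass [IsAlgClosed k] {ι : Type*} (t : Finset ι)
    (σ : ι → (D.A →ₐ[k] B)) : (∏ i ∈ t, pointClass (σ i)).DegZero := by
  classical
  induction t using Finset.induction_on with
  | empty => rw [Finset.prod_empty]; exact degZero_one
  | insert i t hi ih => rw [Finset.prod_insert hi]; exact DegZero.mul (degZero_pointClass _) ih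

theorem prod_pointClass [IsAlgClosed k] (s : Multiset (D.A →ₐ[k] B)) :
    (s.map pointClass).prod = D.principal B (xPow B s.card) * (s.map pointLat).prod := by
  have e : (pointClass : (D.A →ₐ[k] B) → D.Lat B) =
      fun σ => D.principal B (xPow B 1) * pointLat σ := rfl
  rw [e, Multiset.prod_map_mul, Multiset.map_const', Multiset.prod_replicate, ← map_pow, xPow_pow,
    mul_one]

theorem prod_pointLat_le_one [IsAlgClosed k] {K : Type u} [Field K] [Algebra k K]
    (s : Multiset (D.A →ₐ[k] K)) : ((s.map pointLat).prod : D.Lat K).1 ≤ 1 := by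
  induction s using Multiset.induction_on with
  | empty => simp
  | cons c s ih =>
    rw [Multiset.map_cons, Multiset.prod_cons]
    exact mul_le_one' (pointKer_le_one c) ih

theorem prod_pointLat_le [IsAlgClosed k] {K : Type u} [Field K] [Algebra k K]
    {s : Multiset (D.A →ₐ[k] K)} {σ : D.A →ₐ[k] K} (h : σ ∈ s) :
    ((s.map pointLat).prod : D.Lat K).1 ≤ pointKer σ := by
  obtain ⟨t, rfl⟩ := Multiset.exists_cons_of_mem h
  rw [Multiset.map_cons, Multiset.prod_cons]
  exact (mul_le_mul_right (prod_pointLat_le_one t) _).trans (mul_one _).le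

theorem mul_mem_toBase_mul {V W : D.Lat B} {v w : LaurentSeries B} (hv : v ∈ V.toBase)
    (hw : w ∈ W.toBase) : v * w ∈ (V * W : D.Lat B).toBase :=
  Submodule.mul_mem_mul (M := (V : Submodule (D.reg B) (LaurentSeries B)))
    (N := (W : Submodule (D.reg B) (LaurentSeries B))) hv hw

theorem self_mem_principal (x : (LaurentSeries B)ˣ) : x.1 ∈ (D.principal B x).toBase :=
  Submodule.mem_span_singleton_self x.1

theorem mem_inv_of_le_one {P : D.Lat B} (h : P.1 ≤ 1) {x : LaurentSeries B} (hx : x ∈ D.reg B) :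
    x ∈ (P⁻¹ : D.Lat B).toBase := by
  have h1 : (1 : Submodule (D.reg B) (LaurentSeries B)) ≤ (P⁻¹ : D.Lat B).1 :=
    calc (1 : Submodule (D.reg B) (LaurentSeries B)) = (P⁻¹ : D.Lat B).1 * P.1 := P.inv_mul.symm
      _ ≤ (P⁻¹ : D.Lat B).1 * 1 := mul_le_mul_right h _
      _ = _ := mul_one _
  exact h1 (Submodule.mem_one.mpr ⟨⟨x, hx⟩, rfl⟩)

theorem toBase_mul_le {V V' : D.Lat B} (h : V.1 ≤ V'.1) (W : D.Lat B) :
    (V * W : D.Lat B).toBase ≤ (V' * W : D.Lat B).toBase :=
  fun _ hx => (mul_le_mul_left h (W : Submodule (D.reg B) (LaurentSeries B))) hx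

/-- Effective representatives with boundedly many points. -/
theorem exists_points_card [IsAlgClosed k] {K : Type u} [Field K] [IsAlgClosed K] [Algebra k K]
    (W : D.Lat K) (hW : W.DegZero) :
    ∃ s : Multiset (D.A →ₐ[k] K), s.card ≤ D.genus ∧
      SameClass W ((s.map fun σ => (pointClass σ)⁻¹).prod) := by
  have hd := hasDeg_zero_iff.mpr hW
  have hne : W.part (D.genus + 1) ≠ ⊥ := fun h => by
    obtain ⟨N, hN⟩ := hd
    have := hN (N + D.genus + 1) (by omega)
    have := finrank_part_le_add W (show D.genus + 1 ≤ N + D.genus + 1 by omega)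
    rw [h, finrank_bot] at this
    omega
  obtain ⟨m, hm, hm0⟩ := Submodule.exists_mem_ne_zero_of_ne_bot hne
  obtain ⟨hmW, hlow⟩ := mem_part.mp hm
  obtain ⟨s, hs, hc⟩ := exists_eq_divisor hd (m := Units.mk0 m hm0) hmW
  rw [Units.val_mk0] at hc
  have hord := (low_iff.mp hlow).resolve_left hm0
  refine ⟨s, by omega, ?_⟩
  obtain ⟨u, hu⟩ := exists_powerSeries_unit (xPow K s.card * Units.mk0 m hm0) (by
    rw [Units.val_mul, Units.val_mk0, HahnSeries.order_mul (xPow K s.card).ne_zero hm0,
      show (xPow K s.card).1 = HahnSeries.single (s.card : ℤ) (1 : K) from rfl,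
      HahnSeries.order_single one_ne_zero]
    omega)
  refine SameClass.symm ⟨u, ?_⟩
  rw [Multiset.prod_map_inv (f := (pointClass : (D.A →ₐ[k] K) → D.Lat K)), prod_pointClass, retrivialise, MonoidHom.comp_apply, hu, map_mul, ← hs,
    ← mul_assoc, mul_comm _ W, mul_assoc, mul_inv_cancel, mul_one]

/-- Over an algebraically closed field every class is an effective divisor minus a multiple of the
base point. -/
theorem exists_points [IsAlgClosed k] {K : Type u} [Field K] [IsAlgClosed K] [Algebra k K]
    (W : D.Lat K) (hW : W.DegZero) :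
    ∃ s : Multiset (D.A →ₐ[k] K), SameClass W ((s.map fun σ => (pointClass σ)⁻¹).prod) :=
  (exists_points_card W hW).imp fun _ h => h.2

theorem not_isField [IsAlgClosed k] : ¬ IsField D.A := fun hA => by
  letI := hA.toField
  haveI : Module.Finite k D.A := finite_of_finite_type_of_isJacobsonRing k D.A
  obtain ⟨n, hn, hn0⟩ : ∃ n, n ∉ D.gaps ∧ 0 < n := by
    obtain ⟨n, hn⟩ := Infinite.exists_notMem_finset (insert 0 D.gaps)
    simp at hn
    exact ⟨n, hn.2, by omega⟩
  obtain ⟨a, h1, -⟩ := D.exists_monic n hn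
  obtain ⟨c, hc⟩ := (IsAlgClosed.algebraMap_bijective_of_isIntegral (k := k) (K := D.A)).2 a
  rw [← hc, AlgHom.commutes, HahnSeries.algebraMap_apply] at h1
  simp [show n ≠ 0 by omega] at h1

theorem infinite_points [IsAlgClosed k] : Infinite (D.A →ₐ[k] k) := by
  refine not_finite_iff_infinite.mp fun hfin => ?_
  haveI := Fintype.ofFinite (D.A →ₐ[k] k)
  have h0 : ∀ a ∈ ∏ σ : D.A →ₐ[k] k, RingHom.ker (σ : D.A →+* k), a = 0 := fun a ha => by
    have : a ∈ Ideal.jacobson (⊥ : Ideal D.A) := by
      rw [Ideal.jacobson, Submodule.mem_sInf]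
      rintro P ⟨-, hP⟩
      haveI := hP
      obtain ⟨σ, hσ⟩ := exists_algHom_ker (K := k) P
      rw [← hσ]
      exact (Ideal.prod_le_inf.trans (Finset.inf_le (Finset.mem_univ σ))) ha
    haveI hJac : IsJacobsonRing D.A := isJacobsonRing_of_finiteType (A := k)
    rwa [IsJacobsonRing.out' _ Ideal.isPrime_bot.isRadical, Ideal.mem_bot] at this
  refine Finset.prod_ne_zero_iff.mpr (fun σ _ => ?_) ((Submodule.eq_bot_iff _).mpr h0)
  haveI : (RingHom.ker (σ : D.A →+* k)).IsMaximal := RingHom.ker_isMaximal_of_surjective _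
    fun r => ⟨algebraMap k D.A r, σ.commutes r⟩
  exact Ring.ne_bot_of_isMaximal_of_not_isField this not_isField

section Twist

variable {K : Type u} [Field K] [Algebra k K]

theorem eq_of_delta_mem {σ σ' : D.A →ₐ[k] K} (h : ∀ a, delta σ' a ∈ pointKer σ) : σ' = σ := by
  refine AlgHom.ext fun a => ?_
  obtain ⟨hreg, h0⟩ := mem_pointKer_iff.mp (h a)
  have e : (⟨_, hreg⟩ : D.reg K) = ⟨_, embB_mem_reg (Algebra.TensorProduct.includeRight a)⟩ -
      ⟨_, C_mem_reg (σ' a)⟩ := rfl
  rw [show evReg σ ⟨_, hreg⟩ = _ from congrArg _ e, map_sub, evReg_includeRight, evReg_C,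
    sub_eq_zero] at h0
  exact h0.symm

/-- The ideal of a point is prime. -/
theorem mem_of_prod_le [IsAlgClosed k] {s : Multiset (D.A →ₐ[k] K)} {σ : D.A →ₐ[k] K}
    (h : ((s.map pointLat).prod : D.Lat K).1 ≤ pointKer σ) : σ ∈ s := by
  induction s using Multiset.induction_on with
  | empty =>
    obtain ⟨h', h0⟩ := mem_pointKer_iff.mp (h (show (1 : LaurentSeries K) ∈ _ by
      rw [Multiset.map_zero, Multiset.prod_zero, Units.val_one]
      exact Submodule.one_le.mp le_rfl))
    exact (one_ne_zero (α := K) ((map_one (evReg σ)).symm.trans h0)).elim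
  | cons a s ih =>
    rcases eq_or_ne a σ with rfl | hne
    · exact Multiset.mem_cons_self _ _
    refine Multiset.mem_cons_of_mem (ih fun x hx => ?_)
    obtain ⟨b, hb⟩ : ∃ b, delta a b ∉ pointKer σ := by
      by_contra hall
      push Not at hall
      exact hne (eq_of_delta_mem hall)
    have hmem : delta a b * x ∈ pointKer σ := h (by
      rw [Multiset.map_cons, Multiset.prod_cons]
      exact Submodule.mul_mem_mul (delta_mem_pointKer a b) hx)
    have hxr : x ∈ D.reg K := by
      have hle : ((s.map pointLat).prod : D.Lat K).1 ≤ 1 := by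
        clear ih h hx hmem
        induction s using Multiset.induction_on with
        | empty => simp
        | cons c s ih' =>
          rw [Multiset.map_cons, Multiset.prod_cons]
          exact mul_le_one' (pointKer_le_one c) ih'
      obtain ⟨r, hr⟩ := Submodule.mem_one.mp (hle hx)
      rw [← hr]
      exact r.2
    obtain ⟨h', h0⟩ := mem_pointKer_iff.mp hmem
    have h1 : evReg σ ⟨_, delta_mem_reg a b⟩ * evReg σ ⟨x, hxr⟩ = 0 := by
      rw [← map_mul]
      exact h0
    refine mem_pointKer_iff.mpr ⟨hxr, (mul_eq_zero.mp h1).resolve_left fun h2 => hb ?_⟩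
    exact mem_pointKer_iff.mpr ⟨_, h2⟩

/-- Sections vanishing at many distinct points vanish. -/
theorem eq_zero_of_forall_mem [IsAlgClosed k] [IsAlgClosed K] {W : D.Lat K} (hW : HasDeg W 0)
    {n : ℕ} (S : Finset (D.A →ₐ[k] K)) (hS : n ≤ S.card) {x : LaurentSeries K}
    (hx : x ∈ W.part n) (hσ : ∀ σ ∈ S, x ∈ (pointLat σ * W : D.Lat K).toBase) : x = 0 := by
  classical
  by_contra hx0
  obtain ⟨hxW, hlow⟩ := mem_part.mp hx
  obtain ⟨s, hs, hc⟩ := exists_eq_divisor hW (m := Units.mk0 x hx0) hxW
  rw [Units.val_mk0] at hc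
  have hord := (low_iff.mp hlow).resolve_left hx0
  have hsub : S ⊆ s.toFinset := fun σ hσS => by
    refine Multiset.mem_toFinset.mpr (mem_of_prod_le ?_)
    have h1 : (D.principal K (Units.mk0 x hx0) * W⁻¹ : D.Lat K).1 ≤
        (pointLat σ * W : D.Lat K).1 * (W⁻¹ : D.Lat K).1 :=
      mul_le_mul_left (principal_le_of_mem (hσ σ hσS)) _
    rw [← Units.val_mul, mul_inv_cancel_right, ← hs, mul_inv_cancel_right] at h1
    exact h1
  have := Finset.card_le_card hsub
  have := Multiset.toFinset_card_le s
  omega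

theorem exists_fun_inter_eq_bot {N : ℕ} (hN : 0 < N)
    (M : Fin N → Submodule K (LaurentSeries K)) :
    ∀ (r : ℕ) (U : Submodule K (LaurentSeries K)) [FiniteDimensional K U], Module.finrank K U ≤ r →
      (∀ x ∈ U, (∀ i, x ∈ M i) → x = 0) →
      ∃ f : Fin r → Fin N, ∀ x ∈ U, (∀ j, x ∈ M (f j)) → x = 0 := by
  intro r
  induction r with
  | zero =>
    intro U _ hU _
    have : U = ⊥ := Submodule.finrank_eq_zero.mp (by omega)
    exact ⟨Fin.elim0, fun x hx _ => by rw [this] at hx; exact (Submodule.mem_bot K).mp hx⟩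
  | succ r ih =>
    intro U _ hU hsep
    by_cases hb : ∀ x ∈ U, x = 0
    · exact ⟨fun _ => ⟨0, hN⟩, fun x hx _ => hb x hx⟩
    push Not at hb
    obtain ⟨x, hx, hx0⟩ := hb
    obtain ⟨i, hi⟩ : ∃ i, x ∉ M i := by
      by_contra hall
      push Not at hall
      exact hx0 (hsep x hx hall)
    have hlt : U ⊓ M i < U := lt_of_le_of_ne inf_le_left fun e => hi (e.ge hx).2
    haveI : FiniteDimensional K (U ⊓ M i : Submodule K (LaurentSeries K)) :=
      Submodule.finiteDimensional_of_le inf_le_left
    have := Submodule.finrank_lt_finrank_of_lt hlt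
    obtain ⟨f, hf⟩ := ih (U ⊓ M i) (by omega) fun y hy h => hsep y hy.1 h
    exact ⟨Fin.cons i f, fun y hy h => hf y ⟨hy, by simpa using h 0⟩ fun j => by
      simpa using h j.succ⟩

theorem finrank_part_eq [IsAlgClosed k] [IsAlgClosed K] {W : D.Lat K} (hW : W.DegZero) {n : ℕ}
    (hn : D.genus + (D.gaps.sup id + 1) ≤ n) :
    Module.finrank K (W.part n) + D.genus = n := by
  obtain ⟨N, hN⟩ := hasDeg_zero_iff.mpr hW
  have htop : ∀ m, n ≤ m → ∃ x ∈ W.part (m + 1), x.coeff (-(m : ℤ)) ≠ 0 := by
    intro m hm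
    obtain ⟨s, hs, u, hu⟩ := exists_points_card W hW
    have hng : m - s.card ∉ D.gaps := fun h => by
      have := Finset.le_sup (f := id) h
      simp only [id_eq] at this
      omega
    obtain ⟨a, h1, hlow⟩ := D.exists_monic _ hng
    let a' := D.embB K (Algebra.TensorProduct.includeRight a)
    let x : LaurentSeries K :=
      (Units.map (HahnSeries.ofPowerSeries ℤ K).toMonoidHom u⁻¹).1 *
        ((xPow K (-(s.card : ℤ))).1 * a')
    have hx : x ∈ W.toBase := by
      rw [show W = D.retrivialise K u⁻¹ * (s.map fun σ => (pointClass σ)⁻¹).prod by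
        rw [hu, map_inv, inv_mul_cancel_left], Multiset.prod_map_inv (f := (pointClass : (D.A →ₐ[k] K) → D.Lat K)), prod_pointClass, mul_inv_rev,
        ← map_inv, mul_comm _ (D.principal K _)]
      exact mul_mem_toBase_mul (self_mem_principal _) (mul_mem_toBase_mul
        (by
          rw [show (D.principal K (xPow K (s.card : ℤ))⁻¹) = D.principal K (xPow K (-(s.card : ℤ))) from
            congrArg _ (Units.ext rfl)]
          exact self_mem_principal _)
        (mem_inv_of_le_one (prod_pointLat_le_one s) (embB_mem_reg _)))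
    have ha0 : a' ≠ 0 := fun h => by
      have := congrArg (fun z : LaurentSeries K => z.coeff (-((m - s.card : ℕ) : ℤ))) h
      simp only [a', Algebra.TensorProduct.includeRight_apply, embB_one_tmul_coeff, h1, map_one,
        HahnSeries.coeff_zero] at this
      exact one_ne_zero this
    have hord : a'.order = -((m - s.card : ℕ) : ℤ) := by
      refine le_antisymm (HahnSeries.order_le_of_coeff_ne_zero ?_) ?_
      · simp [a', embB_one_tmul_coeff, h1]
      · by_contra h
        refine ha0 (HahnSeries.coeff_order_eq_zero.mp ?_)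
        have hz := hlow _ (not_le.mp h)
        show (D.embB K ((1 : K) ⊗ₜ[k] a)).coeff a'.order = 0
        rw [embB_one_tmul_coeff, hz, map_zero]
    have hu0 : (HahnSeries.ofPowerSeries ℤ K (u⁻¹ : (PowerSeries K)ˣ).1).order = 0 := by
      refine le_antisymm (HahnSeries.order_le_of_coeff_ne_zero ?_) ?_
      · rw [show (0 : ℤ) = ((0 : ℕ) : ℤ) from rfl, HahnSeries.ofPowerSeries_apply_coeff,
          PowerSeries.coeff_zero_eq_constantCoeff_apply]
        exact ((u⁻¹).isUnit.map PowerSeries.constantCoeff).ne_zero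
      · by_contra h
        refine (Units.map (HahnSeries.ofPowerSeries ℤ K).toMonoidHom u⁻¹).ne_zero
          (HahnSeries.coeff_order_eq_zero.mp ?_)
        show (HahnSeries.ofPowerSeries ℤ K (u⁻¹ : (PowerSeries K)ˣ).1).coeff
          (HahnSeries.ofPowerSeries ℤ K (u⁻¹ : (PowerSeries K)ˣ).1).order = 0
        rw [PowerSeries.coeff_coe, if_pos (not_le.mp h)]
    have hy0 : (xPow K (-(s.card : ℤ))).1 * a' ≠ 0 := mul_ne_zero (Units.ne_zero _) ha0
    have hxord : x.order = -(m : ℤ) := by
      show (HahnSeries.ofPowerSeries ℤ K (u⁻¹ : (PowerSeries K)ˣ).1 *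
        ((xPow K (-(s.card : ℤ))).1 * a')).order = -(m : ℤ)
      rw [HahnSeries.order_mul ((u⁻¹).isUnit.map (HahnSeries.ofPowerSeries ℤ K)).ne_zero hy0, HahnSeries.order_mul (Units.ne_zero _) ha0,
        hord, show (xPow K (-(s.card : ℤ))).1 = HahnSeries.single (-(s.card : ℤ)) (1 : K) from rfl,
        HahnSeries.order_single one_ne_zero]
      rw [hu0]
      omega
    have hx0 : x ≠ 0 := mul_ne_zero (Units.ne_zero _) hy0
    exact ⟨x, mem_part.mpr ⟨hx, low_iff.mpr (Or.inr (by omega))⟩,
      fun h => hx0 (HahnSeries.coeff_order_eq_zero.mp (hxord ▸ h))⟩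
  have := hasDeg_of_forall_top W htop (max n N) (le_max_left _ _)
  have := hN (max n N) (le_max_right _ _)
  have := le_max_left n N
  omega

theorem inChart_of_part_eq_bot {W : D.Lat K} (hW : HasDeg W 0) (h : W.part D.genus = ⊥) :
    W.InChart := by
  refine ⟨LinearMap.ker_eq_bot.mp (LinearMap.ker_eq_bot'.mpr fun x hx =>
    Subtype.ext ((Submodule.eq_bot_iff _).mp h x.1 ⟨x.2, hx⟩)), ?_⟩
  obtain ⟨N, hN⟩ := hW
  have h0 : Module.finrank K (W.part D.genus) = 0 := by rw [h, finrank_bot]
  have htop : ∀ n, D.genus ≤ n → ∃ x ∈ W.part (n + 1), x.coeff (-(n : ℤ)) ≠ 0 := by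
    intro n hn
    by_contra hall
    push Not at hall
    have he : W.part (n + 1) ≤ W.part n := fun x hx => by
      obtain ⟨hxW, hlow⟩ := mem_part.mp hx
      refine mem_part.mpr ⟨hxW, fun i hi => ?_⟩
      rcases eq_or_lt_of_le hi with rfl | hlt
      · exact hall x hx
      · exact hlow i (by omega)
    haveI := finite_part W n
    have := Submodule.finrank_mono he
    have := finrank_part_le_add W hn
    have := finrank_part_le_add W (show n + 1 ≤ n + 1 + N by omega)
    have := hN (n + 1 + N) (by omega)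
    omega
  rw [← LinearMap.range_eq_top, eq_top_iff]
  rintro f -
  suffices hs : ∀ (n : ℕ) (hn : D.genus ≤ n), Finsupp.single ⟨n, hn⟩ (1 : K) ∈
      LinearMap.range ((polar K D.genus).comp W.toBase.subtype) by
    induction f using Finsupp.induction_linear with
    | zero => exact zero_mem _
    | add f g hf hg => exact add_mem hf hg
    | single j c =>
      rw [← mul_one c, ← smul_eq_mul, ← Finsupp.smul_single]
      exact Submodule.smul_mem _ c (hs j.1 j.2)
  intro n
  induction n using Nat.strong_induction_on with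
  | _ n ih =>
    intro hn
    obtain ⟨x, hx, hx0⟩ := htop n hn
    obtain ⟨hxW, hlow⟩ := mem_part.mp hx
    let j₀ : {j : ℕ // D.genus ≤ j} := ⟨n, hn⟩
    have h1 : (polar K D.genus x).erase j₀ ∈
        LinearMap.range ((polar K D.genus).comp W.toBase.subtype) := by
      rw [← Finsupp.sum_single ((polar K D.genus x).erase j₀)]
      refine Submodule.sum_mem _ fun j hj => ?_
      rw [Finsupp.support_erase, Finset.mem_erase, Finsupp.mem_support_iff, polar_apply] at hj
      have hjn : j.1 < n := by
        rcases lt_trichotomy j.1 n with h | h | h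
        · exact h
        · exact absurd (Subtype.ext h) hj.1
        · exact absurd (hlow _ (by omega)) hj.2
      rw [← mul_one ((Finsupp.erase j₀ (polar K D.genus x)) j), ← smul_eq_mul,
        ← Finsupp.smul_single]
      exact Submodule.smul_mem _ _ (ih j.1 hjn j.2)
    have h2 : polar K D.genus x ∈ LinearMap.range ((polar K D.genus).comp W.toBase.subtype) :=
      ⟨⟨x, hxW⟩, rfl⟩
    have h3 := sub_mem h2 h1
    have e : polar K D.genus x - (polar K D.genus x).erase j₀ =
        Finsupp.single j₀ (polar K D.genus x j₀) :=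
      sub_eq_of_eq_add (Finsupp.single_add_erase j₀ _).symm
    rw [e] at h3
    have h4 := Submodule.smul_mem _ (x.coeff (-(n : ℤ)))⁻¹ h3
    rwa [Finsupp.smul_single, polar_apply, smul_eq_mul, inv_mul_cancel₀ hx0] at h4

end Twist

/-- Finitely many translates of the chart cover everything. -/
theorem exists_twists [IsAlgClosed k] :
    ∃ (ι : Type u) (_ : Finite ι) (τ : ι → D.Lat k), (∀ i, (τ i).DegZero) ∧
      ∀ (K : Type u) [Field K] [IsAlgClosed K] [Algebra k K] (W : D.Lat K), W.DegZero →
        ∃ i, (W * D.latMap (Algebra.ofId k K) (τ i)).InChart := by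
  classical
  let r := D.gaps.sup id + 1
  let N := D.genus + r
  haveI := infinite_points (D := D)
  let p : Fin N ↪ (D.A →ₐ[k] k) := Fin.valEmbedding.trans (Infinite.natEmbedding _)
  refine ⟨ULift.{u} (Fin r → Fin N), inferInstance, fun i => ∏ j, pointClass (p (i.down j)),
    fun i => degZero_prod_pointClass _ _, fun K _ _ _ W hW => ?_⟩
  let q : Fin N → (D.A →ₐ[k] K) := fun i => (Algebra.ofId k K).comp (p i)
  have hq : Function.Injective q := fun i j h => p.injective (AlgHom.ext fun a =>
    (algebraMap k K).injective (DFunLike.congr_fun h a))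
  have hd := hasDeg_zero_iff.mpr hW
  haveI := finite_part W N
  obtain ⟨f, hf⟩ := exists_fun_inter_eq_bot (K := K) (N := N) (by omega)
    (fun i => (pointLat (q i) * W : D.Lat K).toBase) r (W.part N)
    (by have := finrank_part_eq hW (n := N) le_rfl; omega)
    fun x hx h => eq_zero_of_forall_mem hd (Finset.univ.map ⟨q, hq⟩) (by simp) hx fun σ hσ => by
      obtain ⟨i, -, rfl⟩ := Finset.mem_map.mp hσ
      exact h i
  refine ⟨⟨f⟩, inChart_of_part_eq_bot ?_ ((Submodule.eq_bot_iff _).mpr fun x hx => ?_)⟩
  · have := hd.mul ((degZero_prod_pointClass Finset.univ fun j => p (f j)).hasDeg (Algebra.ofId k K))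
    rwa [add_zero] at this
  obtain ⟨hxW, hlow⟩ := mem_part.mp hx
  let s : Multiset (D.A →ₐ[k] K) := Finset.univ.val.map fun j => q (f j)
  have e : W * D.latMap (Algebra.ofId k K) (∏ j, pointClass (p (f j))) =
      D.principal K (xPow K r) * ((s.map pointLat).prod * W) := by
    rw [map_prod]
    simp only [latMap_pointClass]
    rw [Finset.prod_eq_multiset_prod,
      show Multiset.map (fun j => pointClass ((Algebra.ofId k K).comp (p (f j))))
        Finset.univ.val = s.map pointClass by rw [Multiset.map_map]; rfl,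
      prod_pointClass, mul_comm W, mul_assoc]
    congr 2
    simp [s, r]
  rw [e, mem_principal_mul] at hxW
  obtain ⟨z, hz, rfl⟩ := hxW
  have hle : ∀ j, ((s.map pointLat).prod * W : D.Lat K).toBase ≤
      (pointLat (q (f j)) * W : D.Lat K).toBase := fun j =>
    toBase_mul_le (prod_pointLat_le (Multiset.mem_map.mpr ⟨j, Finset.mem_univ j, rfl⟩)) W
  have hzN : z ∈ W.part N := by
    refine mem_part.mpr ⟨?_, low_iff.mpr ?_⟩
    · have h2 := toBase_mul_le (V' := 1) (prod_pointLat_le_one s) W hz
      rwa [one_mul] at h2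
    rcases eq_or_ne z 0 with h0 | h0
    · exact Or.inl h0
    · right
      have := (low_iff.mp hlow).resolve_left (mul_ne_zero (Units.ne_zero _) h0)
      rw [HahnSeries.order_mul (Units.ne_zero _) h0,
        show (xPow K (r : ℤ)).1 = HahnSeries.single (r : ℤ) (1 : K) from rfl,
        HahnSeries.order_single one_ne_zero] at this
      omega
  rw [hf z hzN fun j => hle j hz, mul_zero]

end Fermat.Agent.Jac.CurveData
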