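/-
S25, unit U6b: the valuative criterion in terms of Laurent series.
-/
import Fermat.Agent.Jac.Points
import Fermat.Agent.Jac.Valuative.Infinity
import Mathlib.RingTheory.Valuation.ValuationSubring

set_option autoImplicit false
set_option linter.style.haveILetI false
set_option linter.unusedSectionVars false

noncomputable section

universe u

open TensorProduct

namespace Fermat.Agent.Jac.CurveData

variable {k : Type u} [Field k] [IsAlgClosed k] {D : CurveData k}

theorem SameClass.mul {B : Type u} [CommRing B] [Algebra k B] {V V' W W' : D.Lat B}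
    (h : SameClass V W) (h' : SameClass V' W') : SameClass (V * V') (W * W') := by
  obtain ⟨u, rfl⟩ := h
  obtain ⟨v, rfl⟩ := h'
  exact ⟨u * v, by rw [map_mul]; exact mul_mul_mul_comm (D.retrivialise B u) V (D.retrivialise B v) V'⟩

theorem SameClass.inv {B : Type u} [CommRing B] [Algebra k B] {V W : D.Lat B}
    (h : SameClass V W) : SameClass V⁻¹ W⁻¹ := by
  obtain ⟨u, rfl⟩ := h
  exact ⟨u⁻¹, by rw [map_inv]; exact mul_inv (D.retrivialise B u) V⟩

variable {K : Type u} [Field K] [IsAlgClosed K] [Algebra k K]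
  (R : ValuationSubring K) [Algebra k R] [IsScalarTower k R K]

/-- Classes which extend over the valuation ring. -/
def Extends (W : D.Lat K) : Prop :=
  ∃ V : D.Lat R, V.DegZero ∧ SameClass (D.latMap (IsScalarTower.toAlgHom k R K) V) W

theorem extends_one : Extends R (1 : D.Lat K) :=
  ⟨1, degZero_one, by rw [map_one]; exact sameClass_refl _⟩

theorem Extends.mul {V W : D.Lat K} (hV : Extends R V) (hW : Extends R W) : Extends R (V * W) := by
  obtain ⟨V', hV', h⟩ := hV
  obtain ⟨W', hW', h'⟩ := hW
  exact ⟨V' * W', DegZero.mul hV' hW', by rw [map_mul]; exact h.mul h'⟩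

theorem Extends.inv {W : D.Lat K} (hW : Extends R W) : Extends R W⁻¹ := by
  obtain ⟨W', hW', h⟩ := hW
  exact ⟨W'⁻¹, DegZero.inv hW', by rw [map_inv]; exact h.inv⟩

theorem Extends.of_sameClass {V W : D.Lat K} (hV : Extends R V) (h : SameClass V W) :
    Extends R W := by
  obtain ⟨V', hV', h'⟩ := hV
  exact ⟨V', hV', h'.trans h⟩

theorem extends_pointClass_of_integral {σ : D.A →ₐ[k] K} (h : ∀ f, σ f ∈ R) :
    Extends R (pointClass σ) := by
  let σ' : D.A →ₐ[k] R :=
    { toFun := fun f => ⟨σ f, h f⟩
      map_one' := Subtype.ext (map_one σ)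
      map_mul' := fun f g => Subtype.ext (map_mul σ f g)
      map_zero' := Subtype.ext (map_zero σ)
      map_add' := fun f g => Subtype.ext (map_add σ f g)
      commutes' := fun c => Subtype.ext
        ((σ.commutes c).trans (IsScalarTower.algebraMap_apply k R K c)) }
  refine ⟨pointClass σ', degZero_pointClass σ', ?_⟩
  rw [latMap_pointClass, show (IsScalarTower.toAlgHom k R K).comp σ' = σ from AlgHom.ext fun _ => rfl]
  exact sameClass_refl _

theorem hasDeg_pointLat (σ : D.A →ₐ[k] K) : HasDeg (pointLat σ) (-1) := by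
  have h := (hasDeg_one (D := D) (K := K)).pointKer_mul σ
  rwa [mul_one] at h

theorem delta_mul_eq (σ : D.A →ₐ[k] K) (f g : D.A) :
    delta σ (f * g) = HahnSeries.C (σ f) * delta σ g + HahnSeries.C (σ g) * delta σ f +
      delta σ f * delta σ g := by
  simp only [delta, map_mul, Algebra.TensorProduct.includeRight_apply]
  ring

/-- A function lying in the square of the ideal of a point gives a vanishing derivation there. -/
theorem not_mem_sq_of_atInfty {σ : D.A →ₐ[k] K} {τ : K} (hτ : AtInfty R σ τ)
    (hmem : delta σ (D.monoN D.gapBound) - τ • delta σ (D.monoN (D.gapBound + 1)) ∈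
      pointKer σ * pointKer σ) : False := by
  have hne : ¬ pointKer σ ≤ pointKer σ * pointKer σ := fun h => by
    have he : pointLat σ * pointLat σ = pointLat σ := Units.ext (le_antisymm
      ((mul_le_mul_left (pointKer_le_one σ) _).trans (one_mul _).le) h)
    have h1 : pointLat σ = 1 := mul_eq_right.mp he
    have := (hasDeg_pointLat σ)
    rw [h1] at this
    exact absurd (this.unique hasDeg_one) (by omega)
  obtain ⟨x, hx, hx2⟩ := SetLike.not_le_iff_exists.mp hne
  obtain ⟨ℓ, hℓx, hℓ⟩ := Submodule.exists_dual_map_eq_bot_of_notMem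
    (p := (pointKer σ * pointKer σ).restrictScalars K) hx2 inferInstance
  have hℓ' : ∀ y ∈ pointKer σ * pointKer σ, ℓ y = 0 := fun y hy =>
    (Submodule.mem_bot K).mp (hℓ ▸ Submodule.mem_map_of_mem hy)
  let E : D.A →ₗ[k] K :=
    { toFun := fun f => ℓ (delta σ f)
      map_add' := fun f g => by
        rw [← map_add]
        congr 1
        simp only [delta, map_add]
        abel
      map_smul' := fun c f => by
        rw [RingHom.id_apply, Algebra.smul_def c (ℓ _), ← smul_eq_mul, ← map_smul]
        congr 1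
        rw [delta, delta, smul_sub, map_smul Algebra.TensorProduct.includeRight,
          ← IsScalarTower.algebraMap_smul K c (Algebra.TensorProduct.includeRight f : D.Coord K),
          map_smul, map_smul σ, Algebra.smul_def c (σ f), map_mul, HahnSeries.C_mul_eq_smul] }
  have hE : ∀ f g, E (f * g) = σ f * E g + E f * σ g := fun f g => by
    show ℓ _ = σ f * ℓ _ + ℓ _ * σ g
    rw [delta_mul_eq, map_add, map_add,
      hℓ' _ (Submodule.mul_mem_mul (delta_mem_pointKer σ f) (delta_mem_pointKer σ g)), add_zero,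
      HahnSeries.C_mul_eq_smul, HahnSeries.C_mul_eq_smul, map_smul, map_smul, smul_eq_mul,
      smul_eq_mul, mul_comm (σ g)]
  have hE0 := eq_zero_of_atInfty R hτ hτ E hE (by
    have h0 := hℓ' _ hmem
    rw [map_sub, map_smul, sub_eq_zero] at h0
    exact h0)
  refine hℓx ?_
  have key : ∀ y ∈ pointKer σ, ℓ y = 0 := fun y hy => by
    induction hy using Submodule.span_induction with
    | mem y hy =>
      obtain ⟨f, rfl⟩ := hy
      exact LinearMap.congr_fun hE0 f
    | zero => exact map_zero _
    | add y z _ _ hy hz => rw [map_add, hy, hz, add_zero]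
    | smul r y hy' hy =>
      obtain ⟨z, hz⟩ := r.2
      have hz' : D.embB K z = r.1 := hz
      have h1 := sub_C_evReg_mem σ z
      have h2 : (r • y : LaurentSeries K) =
          evReg σ ⟨D.embB K z, embB_mem_reg z⟩ • y +
            (D.embB K z - HahnSeries.C (evReg σ ⟨D.embB K z, embB_mem_reg z⟩)) * y := by
        rw [← HahnSeries.C_mul_eq_smul, Algebra.smul_def, ← add_mul, add_sub_cancel, hz']
        rfl
      rw [h2, map_add, map_smul, hy, smul_zero, zero_add,
        hℓ' _ (Submodule.mul_mem_mul h1 hy')]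
  exact key x hx

theorem extends_pointClass (σ : D.A →ₐ[k] K) : Extends R (pointClass σ) := by
  classical
  by_cases hσ : ∀ f, σ f ∈ R
  · exact extends_pointClass_of_integral R hσ
  obtain ⟨τ, hτ⟩ := exists_atInfty R σ hσ
  set a := D.monoN D.gapBound
  set b := D.monoN (D.gapBound + 1)
  let y : D.Coord K := (1 : K) ⊗ₜ[k] a - τ ⊗ₜ[k] b
  set φ : LaurentSeries K := D.embB K y with hφ
  have hev : ∀ σ' : D.A →ₐ[k] K, evReg σ' ⟨φ, embB_mem_reg y⟩ = σ' a - τ * σ' b := fun σ' => by
    show evReg σ' ⟨D.embB K y, embB_mem_reg y⟩ = _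
    rw [evReg_embB, map_sub]
    simp [Algebra.ofId_apply]
  have hcoeff : ∀ i, φ.coeff i =
      algebraMap k K ((D.emb a).coeff i) - τ * algebraMap k K ((D.emb b).coeff i) := fun i => by
    rw [hφ, map_sub, HahnSeries.coeff_sub, embB_one_tmul_coeff, D.embB_tmul, HahnSeries.coeff_smul,
      coeffMap_coeff]
    rfl
  have hg1 : D.gapBound + 1 ∉ D.gaps := D.notMem_gaps (Nat.le_succ _)
  have htop : φ.coeff (-((D.gapBound + 1 : ℕ) : ℤ)) = -τ := by
    rw [hcoeff, D.monoN_below D.gapBound _ (by omega), D.monoN_coeff hg1, map_zero, map_one,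
      zero_sub, mul_one]
  have hφ0 : φ ≠ 0 := fun h => hτ.ne_zero (by
    rw [h, HahnSeries.coeff_zero] at htop
    exact neg_eq_zero.mp htop.symm)
  have hord : φ.order = -((D.gapBound + 1 : ℕ) : ℤ) := by
    refine le_antisymm (HahnSeries.order_le_of_coeff_ne_zero (by
      rw [htop]; exact neg_ne_zero.mpr hτ.ne_zero)) (not_lt.mp fun h =>
        hφ0 (HahnSeries.coeff_order_eq_zero.mp ?_))
    rw [hcoeff, D.monoN_below D.gapBound _ (by omega), D.monoN_below (D.gapBound + 1) _ h, map_zero,
      mul_zero, sub_zero]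
  have hone : φ ∈ (1 : D.Lat K).toBase :=
    Submodule.mem_one.mpr ⟨⟨φ, embB_mem_reg y⟩, rfl⟩
  obtain ⟨s, hs, hc⟩ := exists_eq_divisor (hasDeg_one (D := D) (K := K))
    (m := Units.mk0 φ hφ0) hone
  rw [mul_one] at hs
  rw [Units.val_mk0, hord] at hc
  have hφmem : φ ∈ ((s.map pointLat).prod : D.Lat K).toBase := by
    rw [hs]
    exact self_mem_principal (Units.mk0 φ hφ0)
  have hφσ : φ ∈ pointKer σ :=
    mem_pointKer_iff.mpr ⟨embB_mem_reg y, by rw [hev]; exact sub_eq_zero.mpr hτ.eq_mul⟩
  have hσs : σ ∈ s := by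
    refine mem_of_prod_le ?_
    rw [hs]
    exact (Submodule.span_singleton_le_iff_mem φ _).mpr hφσ
  obtain ⟨t, rfl⟩ := Multiset.exists_cons_of_mem hσs
  have ht : ∀ σ' ∈ t, ∀ f, σ' f ∈ R := by
    intro σ' hσ'
    by_contra hint
    obtain ⟨τ', hτ'⟩ := exists_atInfty R σ' hint
    obtain ⟨h', h0⟩ := mem_pointKer_iff.mp
      (prod_pointLat_le (Multiset.mem_cons_of_mem hσ') hφmem)
    rw [show evReg σ' ⟨φ, h'⟩ = σ' a - τ * σ' b from hev σ', sub_eq_zero] at h0
    have hττ : τ' = τ := mul_right_cancel₀ hτ'.b_ne_zero (hτ'.eq_mul.symm.trans h0)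
    rw [hττ] at hτ'
    let E : D.A →ₗ[k] K := σ'.toLinearMap - σ.toLinearMap
    have hE0 := eq_zero_of_atInfty R hτ' hτ E (fun f g => by
      simp only [E, LinearMap.sub_apply, AlgHom.toLinearMap_apply, map_mul]
      ring) (by
      simp only [E, LinearMap.sub_apply, AlgHom.toLinearMap_apply]
      rw [hτ'.eq_mul, hτ.eq_mul, mul_sub])
    have he : σ' = σ := AlgHom.ext fun f => sub_eq_zero.mp (LinearMap.congr_fun hE0 f)
    obtain ⟨t', rfl⟩ := Multiset.exists_cons_of_mem (he ▸ hσ' : σ ∈ t)
    refine not_mem_sq_of_atInfty R hτ ?_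
    have hle : (((σ ::ₘ σ ::ₘ t').map pointLat).prod : D.Lat K).1 ≤ pointKer σ * pointKer σ := by
      rw [Multiset.map_cons, Multiset.prod_cons, Multiset.map_cons, Multiset.prod_cons,
        Units.val_mul, Units.val_mul]
      exact mul_le_mul_right ((mul_le_mul_right (prod_pointLat_le_one t') _).trans (mul_one _).le) _
    have e : delta σ a - τ • delta σ b = φ := by
      rw [hφ, map_sub, delta, delta, Algebra.TensorProduct.includeRight_apply,
        Algebra.TensorProduct.includeRight_apply,
        show (τ ⊗ₜ[k] b : D.Coord K) = τ • ((1 : K) ⊗ₜ[k] b) by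
          rw [TensorProduct.smul_tmul', smul_eq_mul, mul_one],
        map_smul, smul_sub, ← HahnSeries.C_mul_eq_smul, ← HahnSeries.C_mul_eq_smul, ← map_mul,
        ← hτ.eq_mul]
      abel
    rw [e]
    exact hle hφmem
  have hord0 : (xPow K ((σ ::ₘ t).card : ℤ) * Units.mk0 φ hφ0 : (LaurentSeries K)ˣ).1.order = 0 := by
    rw [Units.val_mul, Units.val_mk0, HahnSeries.order_mul (Units.ne_zero _) hφ0, hord,
      show (xPow K ((σ ::ₘ t).card : ℤ)).1 =
        HahnSeries.single ((σ ::ₘ t).card : ℤ) (1 : K) from rfl, HahnSeries.order_single one_ne_zero]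
    omega
  obtain ⟨u, hu⟩ := exists_powerSeries_unit _ hord0
  have hprod : ((σ ::ₘ t).map pointClass).prod = D.retrivialise K u := by
    rw [prod_pointClass, hs, retrivialise, MonoidHom.comp_apply, hu, map_mul]
  rw [Multiset.map_cons, Multiset.prod_cons] at hprod
  have hrest : Extends R (t.map pointClass).prod := by
    clear hprod hu hord0 hσs hφmem hc hs
    induction t using Multiset.induction_on with
    | empty => exact extends_one R
    | cons c t ih =>
      rw [Multiset.map_cons, Multiset.prod_cons]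
      exact (extends_pointClass_of_integral R (ht c (Multiset.mem_cons_self c t))).mul R
        (ih fun σ' h => ht σ' (Multiset.mem_cons_of_mem h))
  exact (hrest.inv R).of_sameClass R ⟨u, by rw [← hprod, mul_inv_cancel_right]⟩

theorem exists_extension (W : D.Lat K) (hW : W.DegZero) :
    ∃ V : D.Lat R, V.DegZero ∧
      SameClass (D.latMap (IsScalarTower.toAlgHom k R K) V) W := by
  obtain ⟨s, hs⟩ := exists_points W hW
  refine Extends.of_sameClass R (V := (s.map fun σ => (pointClass σ)⁻¹).prod) ?_ hs.symm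
  clear hs
  induction s using Multiset.induction_on with
  | empty => exact extends_one R
  | cons c s ih =>
    rw [Multiset.map_cons, Multiset.prod_cons]
    exact ((extends_pointClass R c).inv R).mul R ih

end Fermat.Agent.Jac.CurveData
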