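/-
S25 U5c: the Jacobian is proper and geometrically integral.
-/
import Fermat.Agent.Jac.Deg0
import Fermat.Agent.Jac.Global
import Fermat.Agent.Jac.Valuative
import Fermat.Agent.Jac.Proper.Connected
import Fermat.Agent.Jac.Proper.GeomIntegral
import Fermat.Agent.Jac.Proper.Separated

set_option autoImplicit false

noncomputable section

universe u

open CategoryTheory CategoryTheory.Limits AlgebraicGeometry NeronModelInfra AlgebraicGeometry.RelPicard
  GoodReductionJacobian

namespace Fermat.Agent.Jac.CurveModel

variable {k : Type u} [Field k] [IsAlgClosed k] {C : Scheme.{u}} {c : C ⟶ Spec (CommRingCat.of k)}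
  {ε : SchemeHomOver (𝟙 (Spec (CommRingCat.of k))) c} [IsProper c]

theorem PicData.isProper {M : CurveModel c ε} (J : M.PicData) [Smooth J.D.toBase]
    [QuasiCompact J.D.toBase] : IsProper J.D.toBase :=
  J.isProper_aux

theorem PicData.geometricallyIntegral {M : CurveModel c ε} (J : M.PicData) [Smooth J.D.toBase]
    [QuasiCompact J.D.toBase] : GeometricallyIntegral J.D.toBase :=
  haveI := J.isIntegral
  Fermat.Agent.Jac.geometricallyIntegral_of_isIntegral J.D.toBase

theorem PicData.geometricallyConnected {M : CurveModel c ε} (J : M.PicData) [Smooth J.D.toBase]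
    [QuasiCompact J.D.toBase] : GeometricallyConnected J.D.toBase :=
  haveI := J.geometricallyIntegral
  Fermat.Agent.Jac.geometricallyConnected_of_geometricallyIntegral J.D.toBase

end Fermat.Agent.Jac.CurveModel
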