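/-
S25 U5a: the Jacobian, glued from finitely many translates of the chart.
-/
import Fermat.Agent.Jac.Deg0
import Fermat.Agent.Jac.Global
import Fermat.Agent.Jac.Chart
import Fermat.Agent.Jac.Points
import Fermat.Agent.Jac.Scheme.Glue

set_option autoImplicit false
set_option linter.style.haveILetI false

noncomputable section

universe u

open CategoryTheory CategoryTheory.Limits AlgebraicGeometry NeronModelInfra AlgebraicGeometry.RelPicard
  GoodReductionJacobian

namespace Fermat.Agent.Jac.CurveModel

variable {k : Type u} [Field k] [IsAlgClosed k] {C : Scheme.{u}} {c : C ⟶ Spec (CommRingCat.of k)}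
  {ε : SchemeHomOver (𝟙 (Spec (CommRingCat.of k))) c} [IsProper c]

theorem exists_picData (M : CurveModel c ε) :
    ∃ J : M.PicData, Smooth J.D.toBase ∧ QuasiCompact J.D.toBase := by
  obtain ⟨A⟩ := Sch.nonempty_atlas M
  obtain ⟨g, hg, -⟩ := A.classify _ (Sch.degFibrewise_unit M (𝟙 _))
  refine ⟨⟨⟨A.space, A.toBase, g.1, g.2⟩, A.P, A.degFibrewise_P,
    fun t L hL => A.classify L hL, hg⟩, ?_, ?_⟩
  · show Smooth A.toBase
    refine ((HasRingHomProperty.instIsZariskiLocalAtSource (P := @Smooth.{u})).iff_of_openCover A.glueData.openCover).mpr fun i => ?_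
    show Smooth (A.pieceι i ≫ A.toBase)
    rw [A.pieceι_toBase i]
    haveI := (A.chart i).finiteType
    haveI := (A.chart i).smooth
    haveI : Algebra.FinitePresentation k (A.chart i).R :=
      (Algebra.FinitePresentation.of_finiteType).mp inferInstance
    show Smooth (Spec.map (CommRingCat.ofHom (algebraMap k (A.chart i).R)))
    rw [HasRingHomProperty.Spec_iff (P := @Smooth.{u})]
    exact RingHom.smooth_algebraMap.mpr ⟨inferInstance, inferInstance⟩
  · show QuasiCompact A.toBase
    haveI : CompactSpace A.space := ⟨by
      have h : (Set.univ : Set A.space) = ⋃ i, Set.range (A.pieceι i) := by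
        ext y
        simp only [Set.mem_univ, Set.mem_iUnion, true_iff]
        exact A.exists_pieceι_eq y
      rw [h]
      exact isCompact_iUnion fun i => isCompact_range (A.pieceι i).continuous⟩
    exact (quasiCompact_iff_compactSpace A.toBase).mpr inferInstance

end Fermat.Agent.Jac.CurveModel
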